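import Mathlib
import Fermat.Prelude.Def_AlgebraicCurve_BaseChangeGalois
import Fermat.Agent.S24.PlaceBasic

/-!
# S27, zeta anchor, brick (Z4): a Frobenius-fixed divisor class contains a Frobenius-fixed divisor

`k` is an algebraically closed field of characteristic `p`, `F/k` a function field and
`φ : SemilinearAut k F` a "Frobenius structure": `φ` acts on the constants by `c ↦ c ^ q`
(`q = p ^ a`, `a > 0`) and every place has a finite `φ`-orbit.

* `hilbert90` : multiplicative Hilbert 90 for `φ`, by an explicit Lagrange resolvent whose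
  coefficients are constants `θ` with `θ ^ (q ^ n) = θ`:
  if `f · φf ⋯ φ^(n-1) f = 1` then `f * φ • g = g` for some `g ≠ 0`.
* `exists_fixed_divisor_of_fixed_class` : if `φ • D - D` is principal, some `D'` linearly
  equivalent to `D` is `φ`-fixed.
* `exists_fixed_rep` : the `Pic0` form.
* `fixed_add_iff` : for a `φ`-fixed `D₀`, `D₀ + div g` is `φ`-fixed iff `φ • g ∈ k · g`
  (fixed divisors of a fixed class = `φ`-stable lines of `L(D₀)`).
-/

set_option autoImplicit false

noncomputable section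

namespace Fermat.Agent.S27P.Zeta.FixedClass

open AlgebraicCurve Polynomial

variable {k F : Type*} [Field k] [Field F] [Algebra k F]

/-! ### Constants fixed by a power of Frobenius -/

/-- In an algebraically closed field of characteristic `p`, the equation `θ ^ (p ^ m) = θ`
has (at least) `p ^ m` solutions. -/
theorem exists_finset_frob_fixed [IsAlgClosed k] (p : ℕ) [Fact p.Prime] [CharP k p] {m : ℕ}
    (hm : m ≠ 0) : ∃ S : Finset k, S.card = p ^ m ∧ ∀ θ ∈ S, θ ^ (p ^ m) = θ := by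
  classical
  have hsep : (X ^ (p ^ m) - X : k[X]).Separable :=
    galois_poly_separable p (p ^ m) (dvd_pow_self p hm)
  have hdeg : (X ^ (p ^ m) - X : k[X]).natDegree = p ^ m :=
    FiniteField.X_pow_card_pow_sub_X_natDegree_eq k hm (Fact.out : p.Prime).one_lt
  have hsplit : (X ^ (p ^ m) - X : k[X]).Splits := IsAlgClosed.splits _
  have hne : (X ^ (p ^ m) - X : k[X]) ≠ 0 := by
    intro h0
    rw [h0, natDegree_zero] at hdeg
    exact (pow_pos (Fact.out : p.Prime).pos m).ne hdeg
  refine ⟨(X ^ (p ^ m) - X : k[X]).roots.toFinset, ?_, ?_⟩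
  · rw [Multiset.toFinset_card_of_nodup (nodup_roots hsep), ← hsplit.natDegree_eq_card_roots, hdeg]
  · intro θ hθ
    rw [Multiset.mem_toFinset, mem_roots hne] at hθ
    have h1 : θ ^ (p ^ m) - θ = 0 := by simpa [IsRoot] using hθ
    exact sub_eq_zero.mp h1

/-! ### Basic facts on `ord` and the action -/

theorem ord_prod (v : Place k F) {ι : Type*} (s : Finset ι) (h : ι → F)
    (hh : ∀ i ∈ s, h i ≠ 0) : v.ord (∏ i ∈ s, h i) = ∑ i ∈ s, v.ord (h i) := by
  classical
  induction s using Finset.induction_on with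
  | empty => simp
  | insert i s hi ih =>
    have h1 : h i ≠ 0 := hh i (Finset.mem_insert_self i s)
    have h2 : ∀ j ∈ s, h j ≠ 0 := fun j hj => hh j (Finset.mem_insert_of_mem hj)
    rw [Finset.prod_insert hi, Finset.sum_insert hi,
      v.ord_mul h1 (Finset.prod_ne_zero_iff.mpr h2), ih h2]

theorem ord_smul_eq (g : SemilinearAut k F) (v : Place k F) (f : F) :
    v.ord (g • f) = (g⁻¹ • v).ord f := by
  have h := SemilinearAut.ord_smul g (g⁻¹ • v) f
  rwa [smul_inv_smul] at h

theorem smul_ne_zero' (g : SemilinearAut k F) {f : F} (hf : f ≠ 0) : g • f ≠ 0 := by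
  simpa using hf

/-- The divisor `g • E` of a principal divisor `E = div f` is `div (g • f)`. -/
theorem smul_div_apply (g : SemilinearAut k F) {E : Divisor k F} {f : F}
    (hE : ∀ v, E v = v.ord f) (v : Place k F) : (g • E) v = v.ord (g • f) := by
  rw [SemilinearAut.divisor_smul_apply, hE, ord_smul_eq]

variable (φ : SemilinearAut k F)

theorem pow_smul_algebraMap {q : ℕ} (hbase : ∀ c : k, SemilinearAut.baseAut φ c = c ^ q)
    (c : k) (j : ℕ) : (φ ^ j) • algebraMap k F c = algebraMap k F (c ^ (q ^ j)) := by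
  induction j with
  | zero => simp
  | succ j ih =>
    rw [pow_succ', mul_smul, ih, SemilinearAut.smul_algebraMap, hbase, ← pow_mul, ← pow_succ]

/-- Every divisor is fixed by a positive power of `φ` if every place is. -/
theorem exists_pow_smul_divisor_eq
    (horbP : ∀ v : Place k F, ∃ n : ℕ, 0 < n ∧ (φ ^ n) • v = v) (D : Divisor k F) :
    ∃ n : ℕ, 0 < n ∧ (φ ^ n) • D = D := by
  induction D using Finsupp.induction with
  | zero => exact ⟨1, one_pos, smul_zero _⟩
  | single_add v m D _ _ ih =>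
    obtain ⟨n₁, hn₁, h₁⟩ := horbP v
    obtain ⟨n₂, hn₂, h₂⟩ := ih
    refine ⟨n₁ * n₂, Nat.mul_pos hn₁ hn₂, ?_⟩
    have e₁ : (φ ^ (n₁ * n₂)) • v = v :=
      MulAction.pow_smul_eq_iff_period_dvd.mpr
        ((MulAction.pow_smul_eq_iff_period_dvd.mp h₁).trans (Dvd.intro _ rfl))
    have e₂ : (φ ^ (n₁ * n₂)) • D = D :=
      MulAction.pow_smul_eq_iff_period_dvd.mpr
        ((MulAction.pow_smul_eq_iff_period_dvd.mp h₂).trans (Dvd.intro_left _ rfl))
    rw [smul_add, SemilinearAut.smul_single, e₁, e₂]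

/-! ### The resolvent -/

/-- Partial norms `f · φf ⋯ φ^(i-1) f`. -/
def pnorm (f : F) (i : ℕ) : F := ∏ j ∈ Finset.range i, (φ ^ j) • f

@[simp] theorem pnorm_zero (f : F) : pnorm φ f 0 = 1 := by simp [pnorm]

theorem mul_smul_pnorm (f : F) (i : ℕ) : f * φ • pnorm φ f i = pnorm φ f (i + 1) := by
  unfold pnorm
  rw [Finset.prod_range_succ', pow_zero, one_smul, mul_comm]
  congr 1
  rw [SemilinearAut.smul_def, map_prod]
  refine Finset.prod_congr rfl fun j _ => ?_
  rw [← SemilinearAut.smul_def, ← mul_smul, ← pow_succ']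

/-- The Lagrange resolvent with constant coefficients. -/
def resolvent (q n : ℕ) (f : F) (θ : k) : F :=
  ∑ i ∈ Finset.range n, pnorm φ f i * algebraMap k F (θ ^ (q ^ i))

theorem mul_smul_resolvent {q : ℕ} (hbase : ∀ c : k, SemilinearAut.baseAut φ c = c ^ q)
    {n : ℕ} {f : F} (hN : pnorm φ f n = 1) {θ : k} (hθ : θ ^ (q ^ n) = θ) :
    f * φ • resolvent φ q n f θ = resolvent φ q n f θ := by
  unfold resolvent
  have hstep : ∀ i : ℕ, f * φ • (pnorm φ f i * algebraMap k F (θ ^ (q ^ i)))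
      = pnorm φ f (i + 1) * algebraMap k F (θ ^ (q ^ (i + 1))) := by
    intro i
    rw [smul_mul', ← mul_assoc, mul_smul_pnorm, SemilinearAut.smul_algebraMap, hbase,
      ← pow_mul, ← pow_succ]
  rw [Finset.smul_sum, Finset.mul_sum]
  simp only [hstep]
  have h1 := Finset.sum_range_succ'
    (fun i => pnorm φ f i * algebraMap k F (θ ^ (q ^ i))) n
  have h2 := Finset.sum_range_succ
    (fun i => pnorm φ f i * algebraMap k F (θ ^ (q ^ i))) n
  simp only [pnorm_zero, pow_zero, pow_one, one_mul, hN, hθ] at h1 h2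
  rw [h2] at h1
  exact (add_right_cancel h1).symm

/-- The resolvent is a polynomial in `θ`. -/
theorem resolvent_eq_eval (q n : ℕ) (f : F) (θ : k) :
    resolvent φ q n f θ
      = (∑ i ∈ Finset.range n, C (pnorm φ f i) * X ^ (q ^ i) : F[X]).eval (algebraMap k F θ) := by
  unfold resolvent
  rw [eval_finsetSum]
  refine Finset.sum_congr rfl fun i _ => ?_
  rw [eval_mul, eval_C, eval_pow, eval_X, map_pow]

theorem exists_resolvent_ne_zero [IsAlgClosed k] {p : ℕ} [Fact p.Prime] [CharP k p] {a q : ℕ}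
    (ha : 0 < a) (hq : q = p ^ a) {n : ℕ} (hn : 0 < n) (f : F) :
    ∃ θ : k, θ ^ (q ^ n) = θ ∧ resolvent φ q n f θ ≠ 0 := by
  classical
  have hq1 : 1 < q := hq ▸ Nat.one_lt_pow ha.ne' (Fact.out : p.Prime).one_lt
  obtain ⟨S, hScard, hS⟩ := exists_finset_frob_fixed (k := k) p (m := a * n)
    (Nat.mul_pos ha hn).ne'
  have hqn : p ^ (a * n) = q ^ n := by rw [hq, pow_mul]
  rw [hqn] at hScard hS
  by_contra hcon
  push Not at hcon
  set Q : F[X] := ∑ i ∈ Finset.range n, C (pnorm φ f i) * X ^ (q ^ i) with hQ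
  have hcoeff : Q.coeff 1 = 1 := by
    rw [hQ, finsetSum_coeff]
    rw [Finset.sum_eq_single 0]
    · simp
    · intro i _ hi0
      rw [coeff_C_mul, coeff_X_pow]
      have : (1 : ℕ) ≠ q ^ i := by
        intro h1
        rcases (Nat.pow_eq_one.mp h1.symm) with h | h
        · omega
        · exact hi0 h
      simp [this]
    · intro h0
      exact absurd (Finset.mem_range.mpr hn) h0
  have hQ0 : Q ≠ 0 := by
    intro h0
    rw [h0, coeff_zero] at hcoeff
    exact zero_ne_one hcoeff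
  have hdeg : Q.natDegree ≤ q ^ (n - 1) := by
    rw [hQ]
    refine natDegree_sum_le_of_forall_le _ _ fun i hi => ?_
    refine (natDegree_C_mul_X_pow_le _ _).trans ?_
    exact Nat.pow_le_pow_right hq1.le (by have := Finset.mem_range.mp hi; omega)
  have hsub : (S.image (algebraMap k F)).val ⊆ Q.roots := by
    intro x hx
    rw [Finset.mem_val, Finset.mem_image] at hx
    obtain ⟨θ, hθS, rfl⟩ := hx
    rw [mem_roots hQ0, IsRoot, ← resolvent_eq_eval]
    exact hcon θ (hS θ hθS)
  have hcard := card_le_degree_of_subset_roots hsub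
  rw [Finset.card_image_of_injective _ (algebraMap k F).injective, hScard] at hcard
  have hlt : q ^ (n - 1) < q ^ n := Nat.pow_lt_pow_right hq1 (by omega)
  omega

/-- **Multiplicative Hilbert 90 for a Frobenius structure.** If the `n`-th partial norm of
`f` is `1`, then `f = g / φ(g)` for some `g ≠ 0`. -/
theorem hilbert90 [IsAlgClosed k] {p : ℕ} [Fact p.Prime] [CharP k p] {a q : ℕ}
    (ha : 0 < a) (hq : q = p ^ a) (hbase : ∀ c : k, SemilinearAut.baseAut φ c = c ^ q)
    {n : ℕ} (hn : 0 < n) {f : F} (hN : ∏ j ∈ Finset.range n, (φ ^ j) • f = 1) :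
    ∃ g : F, g ≠ 0 ∧ f * φ • g = g := by
  obtain ⟨θ, hθ, hne⟩ := exists_resolvent_ne_zero φ ha hq hn f
  exact ⟨resolvent φ q n f θ, hne, mul_smul_resolvent φ hbase hN hθ⟩

/-! ### Fixed classes contain fixed divisors -/

theorem degree_eq_zero_of_mem_principal [HasPrincipalDivisors k F] {P : Divisor k F}
    (hP : P ∈ Divisor.principal (K := k) (F := F)) : Divisor.degree P = 0 := by
  obtain ⟨f, hf0, hPf⟩ := hP
  obtain ⟨E, hE, hdeg⟩ := HasPrincipalDivisors.exists_divisor (K := k) f hf0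
  have : P = E := Finsupp.ext fun v => by rw [hPf, hE]
  rw [this, hdeg]

/-- **(Z4)** If the class of `D` is `φ`-fixed (`φ • D - D` principal), then `D` is linearly
equivalent to a `φ`-fixed divisor. -/
theorem exists_fixed_divisor_of_fixed_class [IsAlgClosed k] [HasPrincipalDivisors k F]
    {p : ℕ} [Fact p.Prime] [CharP k p] {a q : ℕ} (ha : 0 < a) (hq : q = p ^ a)
    (hbase : ∀ c : k, SemilinearAut.baseAut φ c = c ^ q)
    (horbP : ∀ v : Place k F, ∃ n : ℕ, 0 < n ∧ (φ ^ n) • v = v)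
    (hconst : ∀ f : F, (∀ v : Place k F, 0 ≤ v.ord f) → ∃ c : k, f = algebraMap k F c)
    (D : Divisor k F) (hD : φ • D - D ∈ Divisor.principal (K := k) (F := F)) :
    ∃ D' : Divisor k F, D' - D ∈ Divisor.principal (K := k) (F := F) ∧ φ • D' = D' := by
  obtain ⟨f, hf0, hf⟩ := hD
  obtain ⟨n, hn, hDn⟩ := exists_pow_smul_divisor_eq φ horbP D
  -- the norm of `f` is a constant
  have hfj : ∀ j : ℕ, (φ ^ j) • f ≠ 0 := fun j => smul_ne_zero' _ hf0
  have hN0 : pnorm φ f n ≠ 0 := Finset.prod_ne_zero_iff.mpr fun j _ => hfj j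
  have hordN : ∀ v : Place k F, v.ord (pnorm φ f n) = 0 := by
    intro v
    unfold pnorm
    rw [ord_prod v _ _ (fun j _ => hfj j)]
    have hterm : ∀ j : ℕ, v.ord ((φ ^ j) • f) = ((φ ^ (j + 1)) • D - (φ ^ j) • D) v := by
      intro j
      rw [← smul_div_apply (φ ^ j) hf v, smul_sub, ← mul_smul, ← pow_succ]
    simp only [hterm]
    rw [← Finsupp.finsetSum_apply, Finset.sum_range_sub (fun j => (φ ^ j) • D) n, hDn,
      pow_zero, one_smul, sub_self, Finsupp.zero_apply]
  obtain ⟨c₀, hc₀⟩ := hconst (pnorm φ f n) fun v => (hordN v).ge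
  have hc₀0 : c₀ ≠ 0 := by
    rintro rfl
    rw [map_zero] at hc₀
    exact hN0 hc₀
  -- normalise the norm to `1` by a constant
  have hMpos : 0 < ∑ i ∈ Finset.range n, q ^ i :=
    Finset.sum_pos' (fun _ _ => Nat.zero_le _)
      ⟨0, Finset.mem_range.mpr hn, by simp⟩
  obtain ⟨c, hc⟩ := IsAlgClosed.exists_pow_nat_eq (c₀⁻¹) hMpos
  have hc0 : c ≠ 0 := by
    rintro rfl
    rw [zero_pow hMpos.ne'] at hc
    exact inv_ne_zero hc₀0 hc.symm
  have hN' : ∏ j ∈ Finset.range n, (φ ^ j) • (algebraMap k F c * f) = 1 := by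
    have h1 : ∀ j : ℕ, (φ ^ j) • (algebraMap k F c * f)
        = algebraMap k F (c ^ (q ^ j)) * (φ ^ j) • f := by
      intro j
      rw [smul_mul', pow_smul_algebraMap φ hbase]
    simp only [h1]
    rw [Finset.prod_mul_distrib, ← map_prod, Finset.prod_pow_eq_pow_sum, hc]
    change algebraMap k F c₀⁻¹ * pnorm φ f n = 1
    rw [hc₀, ← map_mul, inv_mul_cancel₀ hc₀0, map_one]
  obtain ⟨g, hg0, hg⟩ := hilbert90 φ ha hq hbase hn hN'
  obtain ⟨E, hE, -⟩ := HasPrincipalDivisors.exists_divisor (K := k) g hg0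
  refine ⟨D + E, ?_, ?_⟩
  · rw [add_sub_cancel_left]
    exact ⟨g, hg0, hE⟩
  · ext v
    have hfv : (φ • D) v = D v + v.ord f := by
      have := hf v
      rw [Finsupp.sub_apply] at this
      omega
    have hgv : v.ord g = v.ord f + v.ord (φ • g) := by
      have hcF : algebraMap k F c ≠ 0 := (_root_.map_ne_zero _).mpr hc0
      conv_lhs => rw [← hg]
      rw [v.ord_mul (mul_ne_zero hcF hf0) (smul_ne_zero' _ hg0), v.ord_mul hcF hf0,
        Fermat.Agent.S24.ord_algebraMap, zero_add]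
    rw [smul_add, Finsupp.add_apply, Finsupp.add_apply, smul_div_apply φ hE v, hfv, hE v, hgv]
    ring

/-- **(Z4), `Pic0` form.** A `φ`-fixed class of degree zero is the class of a `φ`-fixed
divisor. -/
theorem exists_fixed_rep [IsAlgClosed k] [HasPrincipalDivisors k F]
    {p : ℕ} [Fact p.Prime] [CharP k p] {a q : ℕ} (ha : 0 < a) (hq : q = p ^ a)
    (hbase : ∀ c : k, SemilinearAut.baseAut φ c = c ^ q)
    (horbP : ∀ v : Place k F, ∃ n : ℕ, 0 < n ∧ (φ ^ n) • v = v)
    (hconst : ∀ f : F, (∀ v : Place k F, 0 ≤ v.ord f) → ∃ c : k, f = algebraMap k F c)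
    (x : Pic0 k F) (hx : φ • x = x) :
    ∃ D : Divisor.degZero (K := k) (F := F), Pic0.mk D = x ∧ φ • (D : Divisor k F) = D := by
  obtain ⟨D, rfl⟩ := Pic0.mk_surjective x
  rw [SemilinearAut.pic0_smul_mk] at hx
  have hx' : -(SemilinearAut.degZeroSMulHom φ D) + D
      ∈ (Divisor.principal (K := k) (F := F)).addSubgroupOf (Divisor.degZero (K := k) (F := F)) :=
    QuotientAddGroup.eq.mp hx
  have hprin : φ • (D : Divisor k F) - D ∈ Divisor.principal (K := k) (F := F) := by
    have h1 : -(φ • (D : Divisor k F)) + D ∈ Divisor.principal (K := k) (F := F) := by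
      simpa [AddSubgroup.mem_addSubgroupOf] using hx'
    have h2 := neg_mem h1
    rwa [neg_add, neg_neg, ← sub_eq_add_neg] at h2
  obtain ⟨D', hD'D, hfix⟩ := exists_fixed_divisor_of_fixed_class φ ha hq hbase horbP hconst
    (D : Divisor k F) hprin
  have hdeg : D' ∈ Divisor.degZero (K := k) (F := F) := by
    rw [Divisor.mem_degZero]
    have h1 := degree_eq_zero_of_mem_principal hD'D
    rw [map_sub, (Divisor.mem_degZero.mp D.2)] at h1
    simpa using h1
  refine ⟨⟨D', hdeg⟩, ?_, hfix⟩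
  refine QuotientAddGroup.eq.mpr ?_
  rw [AddSubgroup.mem_addSubgroupOf]
  have h2 := neg_mem hD'D
  rw [neg_sub, sub_eq_neg_add] at h2
  simpa using h2

/-- For a `φ`-fixed divisor `D₀` and `g ≠ 0`: `D₀ + div g` is `φ`-fixed iff the line `k · g`
is `φ`-stable. -/
theorem fixed_add_iff
    (hconst : ∀ f : F, (∀ v : Place k F, 0 ≤ v.ord f) → ∃ c : k, f = algebraMap k F c)
    {D₀ : Divisor k F} (hD₀ : φ • D₀ = D₀) {g : F} (hg : g ≠ 0) {E : Divisor k F}
    (hE : ∀ v, E v = v.ord g) :
    φ • (D₀ + E) = D₀ + E ↔ ∃ c : k, φ • g = algebraMap k F c * g := by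
  have hφg : φ • g ≠ 0 := smul_ne_zero' _ hg
  rw [smul_add, hD₀, add_right_inj]
  constructor
  · intro h
    have hord : ∀ v : Place k F, v.ord (φ • g) = v.ord g := fun v => by
      rw [← smul_div_apply φ hE v, h, hE]
    obtain ⟨c, hc⟩ := hconst (φ • g * g⁻¹) fun v => by
      rw [v.ord_mul hφg (inv_ne_zero hg), v.ord_inv, hord v]
      omega
    exact ⟨c, by rw [← hc, inv_mul_cancel_right₀ hg]⟩
  · rintro ⟨c, hc⟩
    have hc0 : algebraMap k F c ≠ 0 := by
      intro h0
      rw [h0, zero_mul] at hc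
      exact hφg hc
    ext v
    rw [smul_div_apply φ hE v, hc, v.ord_mul hc0 hg, Fermat.Agent.S24.ord_algebraMap, zero_add,
      hE]

end Fermat.Agent.S27P.Zeta.FixedClass
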