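import Mathlib
import Fermat.Prelude.Def_AlgebraicCurve_BaseChangeGalois
import Fermat.Prelude.Def_AlgebraicCurve_Repartitions
import Fermat.Agent.S24.PlaceBasic
import Fermat.Agent.Lib.FF.KMLemmas
import Fermat.Agent.S27P.Zeta.FixedClass

/-!
# S27, zeta anchor, brick (Z5a): the per-class count of Frobenius-fixed effective divisors

`φ : SemilinearAut k F` acts on the constants by `c ↦ c ^ q` (`q = p ^ a`).  For a divisor `D`
whose class is `φ`-fixed,

  `(q - 1) * #{E ≥ 0 : φ • E = E, E ~ D} + 1 = q ^ dim L(D)`.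

* `card_fixed_effective_of_count` : the count for a `φ`-fixed `D`, from the number of `φ`-fixed
  vectors of `L(D)` (a named hypothesis `hcount`: Lang's theorem for the `q`-semilinear map
  `φ` on `L(D)`).
* `card_fixed_effective_class_of_count` : the same for a `D` whose class is fixed
  (`φ • D - D` principal), using (Z4).
-/

set_option autoImplicit false

noncomputable section

namespace Fermat.Agent.S27P.Zeta.CountClass

open AlgebraicCurve Polynomial
open Fermat.Agent.S27P.Zeta.FixedClass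

variable {k F : Type*} [Field k] [Field F] [Algebra k F]

/-! ### The constants `μ ≠ 0`, `μ ^ q = μ` -/

theorem card_frob_units [IsAlgClosed k] (p : ℕ) [Fact p.Prime] [CharP k p] {a q : ℕ}
    (ha : 0 < a) (hq : q = p ^ a) : Nat.card {μ : k // μ ≠ 0 ∧ μ ^ q = μ} = q - 1 := by
  classical
  subst hq
  have hsep : (X ^ (p ^ a) - X : k[X]).Separable :=
    galois_poly_separable p (p ^ a) (dvd_pow_self p ha.ne')
  have hdeg : (X ^ (p ^ a) - X : k[X]).natDegree = p ^ a :=
    FiniteField.X_pow_card_pow_sub_X_natDegree_eq k ha.ne' (Fact.out : p.Prime).one_lt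
  have hsplit : (X ^ (p ^ a) - X : k[X]).Splits := IsAlgClosed.splits _
  have hne : (X ^ (p ^ a) - X : k[X]) ≠ 0 := by
    intro h0
    rw [h0, natDegree_zero] at hdeg
    exact (pow_pos (Fact.out : p.Prime).pos a).ne hdeg
  set S : Finset k := (X ^ (p ^ a) - X : k[X]).roots.toFinset with hS
  have hScard : S.card = p ^ a := by
    rw [hS, Multiset.toFinset_card_of_nodup (nodup_roots hsep), ← hsplit.natDegree_eq_card_roots,
      hdeg]
  have hmem : ∀ μ : k, μ ∈ S ↔ μ ^ (p ^ a) = μ := by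
    intro μ
    rw [hS, Multiset.mem_toFinset, mem_roots hne]
    simp [IsRoot, sub_eq_zero]
  have h0 : (0 : k) ∈ S := (hmem 0).mpr (zero_pow (pow_pos (Fact.out : p.Prime).pos a).ne')
  rw [Nat.subtype_card (S.erase 0) (fun μ => by rw [Finset.mem_erase, hmem]),
    Finset.card_erase_of_mem h0, hScard]

/-! ### Same divisor ⟹ constant multiple -/

theorem exists_const_mul_of_ord_eq
    (hconst : ∀ f : F, (∀ v : Place k F, 0 ≤ v.ord f) → ∃ c : k, f = algebraMap k F c)
    {x y : F} (hx : x ≠ 0) (hy : y ≠ 0) (h : ∀ v : Place k F, v.ord y = v.ord x) :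
    ∃ μ : k, μ ≠ 0 ∧ y = algebraMap k F μ * x := by
  obtain ⟨μ, hμ⟩ := hconst (y * x⁻¹) fun v => by
    rw [v.ord_mul hy (inv_ne_zero hx), v.ord_inv, h v]
    omega
  refine ⟨μ, ?_, ?_⟩
  · rintro rfl
    rw [map_zero] at hμ
    exact mul_ne_zero hy (inv_ne_zero hx) hμ
  · rw [← hμ, inv_mul_cancel_right₀ hx]

variable (φ : SemilinearAut k F)

theorem smul_const_mul {q : ℕ} (hbase : ∀ c : k, SemilinearAut.baseAut φ c = c ^ q) (μ : k)
    (x : F) : φ • (algebraMap k F μ * x) = algebraMap k F (μ ^ q) * φ • x := by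
  rw [smul_mul', SemilinearAut.smul_algebraMap, hbase]

/-! ### Effective fixed divisors of the class of a fixed divisor -/

/-- From a nonzero fixed vector of `L(D)` to a fixed effective divisor equivalent to `D`. -/
theorem exists_divisor_of_fixed_vector [HasPrincipalDivisors k F]
    (hconst : ∀ f : F, (∀ v : Place k F, 0 ≤ v.ord f) → ∃ c : k, f = algebraMap k F c)
    {D : Divisor k F} (hD : φ • D = D) {x : F} (hx0 : x ≠ 0) (hxL : x ∈ riemannRochSpace D)
    (hxfix : φ • x = x) :
    ∃ E : Divisor k F, (∀ v, E v = D v + v.ord x) ∧ (∀ v, 0 ≤ E v) ∧ φ • E = E ∧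
      E - D ∈ Divisor.principal (K := k) (F := F) := by
  obtain ⟨P, hP, -⟩ := HasPrincipalDivisors.exists_divisor (K := k) x hx0
  have hval : ∀ v, (D + P) v = D v + v.ord x := fun v => by rw [Finsupp.add_apply, hP]
  refine ⟨D + P, hval, fun v => ?_, ?_, ?_⟩
  · rw [hval]
    rcases (mem_riemannRochSpace_iff.mp hxL v) with h | h
    · exact absurd h hx0
    · omega
  · exact (fixed_add_iff φ hconst hD hx0 hP).mpr ⟨1, by rw [hxfix, map_one, one_mul]⟩
  · rw [add_sub_cancel_left]
    exact ⟨x, hx0, hP⟩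

/-- From a fixed effective divisor equivalent to `D` to a nonzero fixed vector of `L(D)`. -/
theorem exists_fixed_vector_of_divisor [IsAlgClosed k] {q : ℕ} (hq1 : 1 < q)
    (hbase : ∀ c : k, SemilinearAut.baseAut φ c = c ^ q)
    (hconst : ∀ f : F, (∀ v : Place k F, 0 ≤ v.ord f) → ∃ c : k, f = algebraMap k F c)
    {D : Divisor k F} (hD : φ • D = D) {E : Divisor k F} (hE0 : ∀ v, 0 ≤ E v)
    (hEfix : φ • E = E) (hprin : E - D ∈ Divisor.principal (K := k) (F := F)) :
    ∃ x : F, x ≠ 0 ∧ x ∈ riemannRochSpace D ∧ φ • x = x ∧ ∀ v, E v = D v + v.ord x := by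
  obtain ⟨g, hg0, hg⟩ := hprin
  have hfix' : φ • (D + (E - D)) = D + (E - D) := by rw [add_sub_cancel, hEfix]
  obtain ⟨c, hc⟩ := (fixed_add_iff φ hconst hD hg0 hg).mp hfix'
  have hφg : φ • g ≠ 0 := smul_ne_zero' _ hg0
  have hc0 : c ≠ 0 := by
    rintro rfl
    rw [map_zero, zero_mul] at hc
    exact hφg hc
  obtain ⟨l, hl⟩ := IsAlgClosed.exists_pow_nat_eq (c⁻¹) (Nat.sub_pos_of_lt hq1)
  have hl0 : l ≠ 0 := by
    rintro rfl
    rw [zero_pow (Nat.sub_pos_of_lt hq1).ne'] at hl
    exact inv_ne_zero hc0 hl.symm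
  have hlq : l ^ q * c = l := by
    have hq' : q = (q - 1) + 1 := by omega
    rw [hq', pow_succ, hl, mul_comm c⁻¹ l, mul_assoc, inv_mul_cancel₀ hc0, mul_one]
  have hlF : algebraMap k F l ≠ 0 := (_root_.map_ne_zero _).mpr hl0
  have hordx : ∀ v : Place k F, v.ord (algebraMap k F l * g) = E v - D v := by
    intro v
    rw [v.ord_mul hlF hg0, Fermat.Agent.S24.ord_algebraMap, zero_add, ← hg v, Finsupp.sub_apply]
  refine ⟨algebraMap k F l * g, mul_ne_zero hlF hg0, ?_, ?_, fun v => ?_⟩
  · rw [mem_riemannRochSpace_iff]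
    intro v
    right
    rw [hordx]
    have := hE0 v
    omega
  · rw [smul_const_mul φ hbase, hc, ← mul_assoc, ← map_mul, hlq]
  · rw [hordx]
    ring

/-- **(Z5a)**, from the count of fixed vectors: for a `φ`-fixed divisor `D` such that `L(D)` has
`N` fixed vectors, `(q - 1) * #{E ≥ 0 : φ • E = E, E ~ D} + 1 = N`. -/
theorem card_fixed_effective_of_count [IsAlgClosed k] [HasPrincipalDivisors k F]
    {p : ℕ} [Fact p.Prime] [CharP k p] {a q : ℕ} (ha : 0 < a) (hq : q = p ^ a)
    (hbase : ∀ c : k, SemilinearAut.baseAut φ c = c ^ q)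
    (hconst : ∀ f : F, (∀ v : Place k F, 0 ≤ v.ord f) → ∃ c : k, f = algebraMap k F c)
    {D : Divisor k F} (hD : φ • D = D) {N : ℕ} (hN : N ≠ 0)
    (hcount : Nat.card {x : F // x ∈ riemannRochSpace D ∧ φ • x = x} = N) :
    (q - 1) * Nat.card {E : Divisor k F // (∀ v, 0 ≤ E v) ∧ φ • E = E ∧
        E - D ∈ Divisor.principal (K := k) (F := F)} + 1 = N := by
  classical
  have hq1 : 1 < q := hq ▸ Nat.one_lt_pow ha.ne' (Fact.out : p.Prime).one_lt
  -- the set of fixed vectors and its nonzero part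
  set T : Set F := {x | x ∈ riemannRochSpace D ∧ φ • x = x} with hT
  have hTcard : T.ncard = N := hcount
  have hTfin : T.Finite := Set.finite_of_ncard_ne_zero (by rw [hTcard]; exact hN)
  have h0T : (0 : F) ∈ T := ⟨Submodule.zero_mem _, smul_zero _⟩
  have hT0 : (T \ {0}).ncard + 1 = N := by
    rw [Set.ncard_sdiff_singleton_add_one h0T hTfin, hTcard]
  -- a section of `x ↦ D + div x`
  have hsec : ∀ E : {E : Divisor k F // (∀ v, 0 ≤ E v) ∧ φ • E = E ∧
      E - D ∈ Divisor.principal (K := k) (F := F)},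
      ∃ x : F, x ≠ 0 ∧ x ∈ riemannRochSpace D ∧ φ • x = x ∧ ∀ v, E.1 v = D v + v.ord x :=
    fun E => exists_fixed_vector_of_divisor φ hq1 hbase hconst hD E.2.1 E.2.2.1 E.2.2.2
  choose s hs0 hsL hsfix hsE using hsec
  -- the bijection
  have hmemT : ∀ (E : {E : Divisor k F // (∀ v, 0 ≤ E v) ∧ φ • E = E ∧
      E - D ∈ Divisor.principal (K := k) (F := F)}) (μ : {μ : k // μ ≠ 0 ∧ μ ^ q = μ}),
      algebraMap k F μ.1 * s E ∈ T \ {0} := by
    intro E μ
    refine ⟨⟨?_, ?_⟩, ?_⟩
    · rw [← Algebra.smul_def]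
      exact Submodule.smul_mem _ _ (hsL E)
    · rw [smul_const_mul φ hbase, μ.2.2, hsfix E]
    · exact mul_ne_zero ((_root_.map_ne_zero _).mpr μ.2.1) (hs0 E)
  let Ψ : {E : Divisor k F // (∀ v, 0 ≤ E v) ∧ φ • E = E ∧
      E - D ∈ Divisor.principal (K := k) (F := F)} × {μ : k // μ ≠ 0 ∧ μ ^ q = μ} →
      ↥(T \ {0}) := fun Eμ => ⟨algebraMap k F Eμ.2.1 * s Eμ.1, hmemT Eμ.1 Eμ.2⟩
  have hΨ : Function.Bijective Ψ := by
    constructor
    · rintro ⟨E, μ⟩ ⟨E', μ'⟩ h
      have h' : algebraMap k F μ.1 * s E = algebraMap k F μ'.1 * s E' := congrArg Subtype.val h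
      have hμF : algebraMap k F μ.1 ≠ 0 := (_root_.map_ne_zero _).mpr μ.2.1
      have hμ'F : algebraMap k F μ'.1 ≠ 0 := (_root_.map_ne_zero _).mpr μ'.2.1
      have hEE' : E = E' := by
        apply Subtype.ext
        ext v
        have h1 : v.ord (algebraMap k F μ.1 * s E) = v.ord (s E) := by
          rw [v.ord_mul hμF (hs0 E), Fermat.Agent.S24.ord_algebraMap, zero_add]
        have h2 : v.ord (algebraMap k F μ'.1 * s E') = v.ord (s E') := by
          rw [v.ord_mul hμ'F (hs0 E'), Fermat.Agent.S24.ord_algebraMap, zero_add]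
        rw [hsE E v, hsE E' v, ← h1, ← h2, h']
      subst hEE'
      have hμμ' : μ = μ' := by
        apply Subtype.ext
        exact (algebraMap k F).injective (mul_right_cancel₀ (hs0 E) h')
      rw [hμμ']
    · rintro ⟨x, ⟨hxL, hxfix⟩, hx0⟩
      have hx0' : x ≠ 0 := hx0
      obtain ⟨E, hEv, hE0, hEfix, hEprin⟩ :=
        exists_divisor_of_fixed_vector φ hconst hD hx0' hxL hxfix
      set E' : {E : Divisor k F // (∀ v, 0 ≤ E v) ∧ φ • E = E ∧
        E - D ∈ Divisor.principal (K := k) (F := F)} := ⟨E, hE0, hEfix, hEprin⟩ with hE'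
      have hord : ∀ v : Place k F, v.ord x = v.ord (s E') := by
        intro v
        have h1 := hsE E' v
        have h2 := hEv v
        have h3 : E'.1 v = E v := rfl
        omega
      obtain ⟨μ, hμ0, hμ⟩ := exists_const_mul_of_ord_eq hconst (hs0 E') hx0' hord
      have hμq : μ ^ q = μ := by
        have h1 : φ • x = algebraMap k F (μ ^ q) * s E' := by
          rw [hμ, smul_const_mul φ hbase, hsfix E']
        rw [hxfix, hμ] at h1
        exact ((algebraMap k F).injective (mul_right_cancel₀ (hs0 E') h1)).symm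
      exact ⟨⟨E', ⟨μ, hμ0, hμq⟩⟩, Subtype.ext hμ.symm⟩
  have hcard : Nat.card ↥(T \ {0}) = Nat.card {E : Divisor k F // (∀ v, 0 ≤ E v) ∧ φ • E = E ∧
      E - D ∈ Divisor.principal (K := k) (F := F)} * (q - 1) := by
    rw [← Nat.card_eq_of_bijective Ψ hΨ, Nat.card_prod, card_frob_units p ha hq]
  have hcard' : (T \ {0}).ncard = Nat.card ↥(T \ {0}) := rfl
  rw [mul_comm, ← hcard, ← hcard', hT0]

/-- `dim L` only depends on the linear equivalence class. -/
theorem finrank_L_eq_of_principal {D D' : Divisor k F}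
    (h : D' - D ∈ Divisor.principal (K := k) (F := F)) :
    Module.finrank k (riemannRochSpace D') = Module.finrank k (riemannRochSpace D) := by
  obtain ⟨u, hu, hDu⟩ := h
  have h1 := Fermat.Agent.Lib.FF.KMLemmas.map_mulLeft_L (K := k) hu hDu D'
  have h2 : D' - (D' - D) = D := by abel
  rw [h2] at h1
  rw [← h1]
  have hinj : Function.Injective (LinearMap.mulLeft k u) := fun a b hab =>
    mul_left_cancel₀ hu hab
  exact (Submodule.equivMapOfInjective (LinearMap.mulLeft k u) hinj
    (riemannRochSpace D')).finrank_eq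

/-- **(Z5a), class form**, from the count of fixed vectors for fixed divisors: if the class of
`D` is `φ`-fixed, `(q - 1) * #{E ≥ 0 : φ • E = E, E ~ D} + 1 = q ^ dim L(D)`. -/
theorem card_fixed_effective_class_of_count [IsAlgClosed k] [HasPrincipalDivisors k F]
    {p : ℕ} [Fact p.Prime] [CharP k p] {a q : ℕ} (ha : 0 < a) (hq : q = p ^ a)
    (hbase : ∀ c : k, SemilinearAut.baseAut φ c = c ^ q)
    (horbP : ∀ v : Place k F, ∃ n : ℕ, 0 < n ∧ (φ ^ n) • v = v)
    (hconst : ∀ f : F, (∀ v : Place k F, 0 ≤ v.ord f) → ∃ c : k, f = algebraMap k F c)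
    (hcount : ∀ D' : Divisor k F, φ • D' = D' →
      Nat.card {x : F // x ∈ riemannRochSpace D' ∧ φ • x = x}
        = q ^ Module.finrank k (riemannRochSpace D'))
    {D : Divisor k F} (hD : φ • D - D ∈ Divisor.principal (K := k) (F := F)) :
    (q - 1) * Nat.card {E : Divisor k F // (∀ v, 0 ≤ E v) ∧ φ • E = E ∧
        E - D ∈ Divisor.principal (K := k) (F := F)} + 1
      = q ^ Module.finrank k (riemannRochSpace D) := by
  have hq0 : q ≠ 0 := by
    rw [hq]
    exact (pow_pos (Fact.out : p.Prime).pos a).ne'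
  obtain ⟨D', hD'D, hD'fix⟩ :=
    exists_fixed_divisor_of_fixed_class φ ha hq hbase horbP hconst D hD
  have hset : ∀ E : Divisor k F, E - D ∈ Divisor.principal (K := k) (F := F) ↔
      E - D' ∈ Divisor.principal (K := k) (F := F) := by
    intro E
    constructor
    · intro h
      have := sub_mem h hD'D
      rwa [sub_sub_sub_cancel_right] at this
    · intro h
      have := add_mem h hD'D
      rwa [sub_add_sub_cancel] at this
  have hcongr : Nat.card {E : Divisor k F // (∀ v, 0 ≤ E v) ∧ φ • E = E ∧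
        E - D ∈ Divisor.principal (K := k) (F := F)}
      = Nat.card {E : Divisor k F // (∀ v, 0 ≤ E v) ∧ φ • E = E ∧
        E - D' ∈ Divisor.principal (K := k) (F := F)} := by
    refine Nat.card_congr (Equiv.subtypeEquivRight fun E => ?_)
    rw [hset E]
  rw [hcongr, ← finrank_L_eq_of_principal hD'D]
  exact card_fixed_effective_of_count φ ha hq hbase hconst hD'fix (pow_ne_zero _ hq0)
    (hcount D' hD'fix)

end Fermat.Agent.S27P.Zeta.CountClass
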