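/-
helper95 — S27 / (Z): the counting formulas of the zeta anchor from Riemann–Roch.

Setting (the vocabulary of `TR/Hecke/FrobFin.lean`): `h : IsFF1 K F x`, `K` algebraically closed,
`g : SemilinearAut K F` with `baseAut g a = a ^ q` (`q > 1`), `g • x = x`, and a `g`-fixed place
`P₀`.  `FixEff g n` = the `g`-fixed effective divisors of degree `n`, `FixLin g D` = the `g`-fixed
effective divisors linearly equivalent to `D`.

Input (named hypothesis `hline`, the count of the fixed divisors in a fixed class):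
`(q - 1) * #(FixLin g D) + 1 = q ^ dim L(D)` for every `g`-fixed divisor `D`.

Output:
* `card_fixEff_zero` : `#(FixEff g 0) = 1`;
* `sum_formula` : `(q - 1) * #(FixEff g n) = ∑_{y fixed class} (q ^ l(y) - 1)`;
* `count_large` : `(q - 1) * #(FixEff g n) = h * (q ^ (n + 1 - genus) - 1)` for `n ≥ 2 genus - 1`;
* `count_canonical` : `(q - 1) * #(FixEff g (2 genus - 2)) = (q ^ genus - 1) +
  (h - 1) * (q ^ (genus - 1) - 1)` for `genus ≥ 1`,
  where `h` is the number of `g`-fixed classes of `Pic⁰`;
* `smul_canonical_sub_mem_principal` : the canonical class is `g`-fixed.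
-/
import Mathlib
import Fermat.Agent.TR.Hecke.FrobFin
import Fermat.Agent.Lib.FF.WeilCanonical
import Fermat.Agent.Lib.FF.GenPos

set_option autoImplicit false

noncomputable section

namespace Fermat.Agent.S27P.Zeta.CountRR

open AlgebraicCurve Fermat.Agent.Lib.FF Module Fermat.Agent.TR.Hecke

variable {K F : Type*} [Field K] [Field F] [Algebra K F] {x : F}

/-! ### Generalities -/

/-- Two classes coincide iff the divisors differ by a principal divisor. -/
theorem mk_eq_mk_iff (D D' : Divisor.degZero (K := K) (F := F)) :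
    Pic0.mk D = Pic0.mk D' ↔
      (D : Divisor K F) - D' ∈ Divisor.principal (K := K) (F := F) := by
  unfold Pic0.mk
  rw [QuotientAddGroup.eq, AddSubgroup.mem_addSubgroupOf, AddSubgroup.coe_add,
    AddSubgroup.coe_neg]
  have e : -(-(D : Divisor K F) + (D' : Divisor K F)) = (D : Divisor K F) - D' := by abel
  constructor
  · intro h
    have h1 := neg_mem h
    rwa [e] at h1
  · intro h
    rw [← e] at h
    exact (neg_mem_iff (H := Divisor.principal (K := K) (F := F))).1 h

/-- The fixed effective divisors of degree `n`. -/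
def FixEff (g : SemilinearAut K F) (n : ℕ) : Set (Divisor K F) :=
  {E | (∀ v, 0 ≤ E v) ∧ Divisor.degree E = n ∧ g • E = E}

/-- The fixed effective divisors linearly equivalent to `D`. -/
def FixLin (g : SemilinearAut K F) (D : Divisor K F) : Set (Divisor K F) :=
  {E | (∀ v, 0 ≤ E v) ∧ g • E = E ∧ E - D ∈ Divisor.principal (K := K) (F := F)}

/-- The multiple `n P₀` of a place. -/
def nP (P₀ : Place K F) (n : ℕ) : Divisor K F := Finsupp.single P₀ (n : ℤ)

theorem degree_nP (h : IsFF1 K F x) (P₀ : Place K F) (n : ℕ) :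
    Divisor.degree (nP P₀ n) = n := by
  unfold nP
  rw [Divisor.degree_single, h.deg_eq_one P₀]
  simp

theorem smul_nP (g : SemilinearAut K F) {P₀ : Place K F} (hP₀ : g • P₀ = P₀) (n : ℕ) :
    g • nP P₀ n = nP P₀ n := by
  unfold nP
  rw [SemilinearAut.smul_single, hP₀]

open scoped Classical in
/-- The class of `E - n P₀`. -/
def cls (P₀ : Place K F) (n : ℕ) (E : Divisor K F) : Pic0 K F :=
  if hE : E - nP P₀ n ∈ Divisor.degZero (K := K) (F := F) then Pic0.mk ⟨E - nP P₀ n, hE⟩ else 0

/-- A principal divisor has degree zero. -/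
theorem degree_of_mem_principal (h : IsFF1 K F x) {D : Divisor K F}
    (hD : D ∈ Divisor.principal (K := K) (F := F)) : Divisor.degree D = 0 := by
  have := h.hasPrincipalDivisors
  obtain ⟨f, hf, hDf⟩ := hD
  obtain ⟨Df, hDf', hdeg⟩ := HasPrincipalDivisors.exists_divisor (K := K) f hf
  have : D = Df := by
    ext v
    rw [hDf v, hDf' v]
  rw [this, hdeg]

/-- Every fixed class has a fixed representative. -/
theorem exists_fixed_rep [IsAlgClosed K] (h : IsFF1 K F x) (g : SemilinearAut K F) {q : ℕ}
    (hq : 1 < q) (hg : ∀ a : K, SemilinearAut.baseAut g a = a ^ q) (hx : g • x = x)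
    (y : Pic0 K F) (hy : g • y = y) :
    ∃ D : Divisor.degZero (K := K) (F := F), g • (D : Divisor K F) = D ∧ Pic0.mk D = y := by
  set B : Divisor K F := (genusFF K F) • h.poleDiv with hBdef
  have hB : g • B = B := by
    rw [hBdef, smul_comm, FrobFin.smul_poleDiv h g hx]
  have hBdeg : (genusFF K F : ℤ) ≤ Divisor.degree B := by
    rw [hBdef, map_nsmul, nsmul_eq_mul]
    have h1 := h.degree_poleDiv_pos
    have h2 : (0 : ℤ) ≤ (genusFF K F : ℤ) := Int.natCast_nonneg _
    nlinarith
  obtain ⟨D, rfl⟩ := Pic0.mk_surjective y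
  obtain ⟨E, -, -, hEfix, hE, hcls⟩ :=
    FrobFin.exists_fixed_effective_of_fixed_class h g hq hg B hB hBdeg D hy
  refine ⟨⟨E - B, hE⟩, ?_, hcls⟩
  show g • (E - B) = E - B
  rw [smul_sub, hEfix, hB]

/-! ### The sum formula -/

section Sum

variable [IsAlgClosed K] (h : IsFF1 K F x) (g : SemilinearAut K F) {q : ℕ} (hq : 1 < q)
  (hg : ∀ a : K, SemilinearAut.baseAut g a = a ^ q) (hx : g • x = x)
  (P₀ : Place K F) (hP₀ : g • P₀ = P₀)
  (hline : ∀ D : Divisor K F, g • D = D →
    ((q : ℤ) - 1) * (Nat.card (FixLin g D) : ℤ) + 1 = (q : ℤ) ^ finrank K (riemannRochSpace D))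

omit [IsAlgClosed K] in
include h in
/-- The only effective divisor of degree `0` is `0`. -/
theorem card_fixEff_zero : Nat.card (FixEff g 0) = 1 := by
  have : FixEff g 0 = {0} := by
    ext E
    show ((∀ v, 0 ≤ E v) ∧ Divisor.degree E = ((0 : ℕ) : ℤ) ∧ g • E = E) ↔ E = 0
    constructor
    · rintro ⟨hE0, hEd, -⟩
      refine WeilCanonical.eq_zero_of_nonneg_of_degree_le h ?_ (by rw [hEd]; simp)
      exact Finsupp.le_def.2 fun v => by simpa using hE0 v
    · rintro rfl
      exact ⟨fun v => le_rfl, by simp, smul_zero g⟩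
  rw [this]
  simp

include h hq hg hx hP₀ hline in
/-- **The sum formula.**  `(q - 1) * A_n = ∑_y (q ^ l(y) - 1)`, the sum over the fixed classes,
if `l (class of D) = dim L(D + n P₀)` for the fixed divisors `D` of degree zero. -/
theorem sum_formula (n : ℕ) (l : Pic0 K F → ℕ)
    (hl : ∀ D : Divisor.degZero (K := K) (F := F), g • (D : Divisor K F) = D →
      finrank K (riemannRochSpace ((D : Divisor K F) + nP P₀ n)) = l (Pic0.mk D)) :
    ((q : ℤ) - 1) * (Nat.card (FixEff g n) : ℤ) =
      ∑ y ∈ (FrobFin.finite_fixed_classes h g hq hg hx).toFinset, ((q : ℤ) ^ l y - 1) := by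
  classical
  have hSfin : (FixEff g n).Finite := FrobFin.finite_fixed_effective h g hq hg hx n
  set S : Finset (Divisor K F) := hSfin.toFinset with hS
  set G : Finset (Pic0 K F) := (FrobFin.finite_fixed_classes h g hq hg hx).toFinset with hG
  have hcardS : Nat.card (FixEff g n) = S.card := by
    rw [Nat.card_coe_set_eq, Set.ncard_eq_toFinset_card _ hSfin]
  have hmemS : ∀ E, E ∈ S ↔ (∀ v, 0 ≤ E v) ∧ Divisor.degree E = n ∧ g • E = E := by
    intro E
    rw [hS, Set.Finite.mem_toFinset]
    rfl
  have hmemG : ∀ y, y ∈ G ↔ g • y = y := by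
    intro y
    rw [hG, Set.Finite.mem_toFinset]
    rfl
  have hdz : ∀ E, E ∈ S → E - nP P₀ n ∈ Divisor.degZero (K := K) (F := F) := by
    intro E hE
    rw [Divisor.mem_degZero, map_sub, ((hmemS E).1 hE).2.1, degree_nP h]
    simp
  have hmaps : ∀ E ∈ S, cls P₀ n E ∈ G := by
    intro E hE
    rw [hmemG]
    unfold cls
    rw [dif_pos (hdz E hE), SemilinearAut.pic0_smul_mk]
    congr 1
    apply Subtype.ext
    rw [SemilinearAut.coe_degZeroSMulHom]
    show g • (E - nP P₀ n) = E - nP P₀ n
    rw [smul_sub, ((hmemS E).1 hE).2.2, smul_nP g hP₀]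
  have hfib := Finset.card_eq_sum_card_fiberwise hmaps
  have hy : ∀ y ∈ G, ((q : ℤ) - 1) * ((S.filter fun E => cls P₀ n E = y).card : ℤ)
      = (q : ℤ) ^ l y - 1 := by
    intro y hyG
    obtain ⟨D, hDfix, rfl⟩ := exists_fixed_rep h g hq hg hx y ((hmemG y).1 hyG)
    have hD0 : Divisor.degree (D : Divisor K F) = 0 := Divisor.mem_degZero.1 D.2
    have hD'fix : g • ((D : Divisor K F) + nP P₀ n) = (D : Divisor K F) + nP P₀ n := by
      rw [smul_add, hDfix, smul_nP g hP₀]
    have hset : ((S.filter fun E => cls P₀ n E = Pic0.mk D : Finset (Divisor K F)) :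
        Set (Divisor K F)) = FixLin g ((D : Divisor K F) + nP P₀ n) := by
      ext E
      rw [Finset.mem_coe, Finset.mem_filter]
      constructor
      · rintro ⟨hES, hEc⟩
        obtain ⟨hE0, hEd, hEfix⟩ := (hmemS E).1 hES
        refine ⟨hE0, hEfix, ?_⟩
        unfold cls at hEc
        rw [dif_pos (hdz E hES), mk_eq_mk_iff] at hEc
        have e : E - ((D : Divisor K F) + nP P₀ n) = E - nP P₀ n - (D : Divisor K F) := by abel
        rw [e]
        exact hEc
      · rintro ⟨hE0, hEfix, hEpr⟩
        have hEd : Divisor.degree E = n := by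
          have h1 := degree_of_mem_principal h hEpr
          rw [map_sub, map_add, hD0, degree_nP h] at h1
          linarith
        have hES : E ∈ S := (hmemS E).2 ⟨hE0, hEd, hEfix⟩
        refine ⟨hES, ?_⟩
        unfold cls
        rw [dif_pos (hdz E hES), mk_eq_mk_iff]
        have e : E - nP P₀ n - (D : Divisor K F) = E - ((D : Divisor K F) + nP P₀ n) := by abel
        show E - nP P₀ n - (D : Divisor K F) ∈ _
        rw [e]
        exact hEpr
    have hcard : Nat.card (FixLin g ((D : Divisor K F) + nP P₀ n))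
        = (S.filter fun E => cls P₀ n E = Pic0.mk D).card := by
      rw [← hset, Nat.card_coe_set_eq, Set.ncard_coe_finset]
    have h1 := hline _ hD'fix
    rw [hcard, hl D hDfix] at h1
    linarith
  rw [hcardS, hfib]
  push_cast
  rw [Finset.mul_sum]
  exact Finset.sum_congr rfl hy

include h hq hg hx hP₀ hline in
/-- **The non-special range.**  For `n ≥ 2 genus - 1`:
`(q - 1) * A_n = h * (q ^ (n + 1 - genus) - 1)`. -/
theorem count_large (n : ℕ) (hn : 2 * genusFF K F ≤ n + 1) :
    ((q : ℤ) - 1) * (Nat.card (FixEff g n) : ℤ) =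
      (Nat.card {y : Pic0 K F // g • y = y} : ℤ) * ((q : ℤ) ^ (n + 1 - genusFF K F) - 1) := by
  classical
  have hsum := sum_formula h g hq hg hx P₀ hP₀ hline n (fun _ => n + 1 - genusFF K F) (by
    intro D _
    have hD0 : Divisor.degree (D : Divisor K F) = 0 := Divisor.mem_degZero.1 D.2
    have hdeg : Divisor.degree ((D : Divisor K F) + nP P₀ n) = n := by
      rw [map_add, hD0, degree_nP h, zero_add]
    have h1 := WeilCanonical.finrank_L_of_degree h (D := (D : Divisor K F) + nP P₀ n) (by
      rw [hdeg]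
      have : (2 * genusFF K F : ℤ) ≤ (n : ℤ) + 1 := by exact_mod_cast hn
      linarith)
    rw [hdeg] at h1
    have h2 : ((n + 1 - genusFF K F : ℕ) : ℤ) = (n : ℤ) + 1 - genusFF K F := by
      have : genusFF K F ≤ n + 1 := by omega
      push_cast [Nat.cast_sub this]
      ring
    have : (finrank K (riemannRochSpace ((D : Divisor K F) + nP P₀ n)) : ℤ)
        = ((n + 1 - genusFF K F : ℕ) : ℤ) := by rw [h1, h2]
    exact_mod_cast this)
  rw [hsum, Finset.sum_const, nsmul_eq_mul]
  congr 2
  have hfin := FrobFin.finite_fixed_classes h g hq hg hx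
  have : Nat.card {y : Pic0 K F // g • y = y} = hfin.toFinset.card := by
    rw [← Set.ncard_eq_toFinset_card _ hfin, ← Nat.card_coe_set_eq]
    rfl
  rw [this]

end Sum

/-! ### Semilinear maps and dimensions -/

/-- An injective semilinear map does not decrease the dimension. -/
theorem finrank_le_of_semilinear {V V' : Type*} [AddCommGroup V] [Module K V] [AddCommGroup V']
    [Module K V'] [FiniteDimensional K V] [FiniteDimensional K V'] (σ : K ≃+* K) (φ : V →+ V')
    (hφ : ∀ (c : K) (v : V), φ (c • v) = σ c • φ v) (hinj : Function.Injective φ) :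
    finrank K V ≤ finrank K V' := by
  classical
  set b := Module.finBasis K V with hb
  have hli : LinearIndependent K (fun i => φ (b i)) := by
    rw [Fintype.linearIndependent_iff]
    intro c hc
    have h1 : φ (∑ i, σ.symm (c i) • b i) = 0 := by
      rw [map_sum, ← hc]
      refine Finset.sum_congr rfl fun i _ => ?_
      rw [hφ, RingEquiv.apply_symm_apply]
    have h2 : ∑ i, σ.symm (c i) • b i = 0 := hinj (by rw [h1, map_zero])
    have h3 := Fintype.linearIndependent_iff.1 b.linearIndependent (fun i => σ.symm (c i)) h2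
    intro i
    have h4 := h3 i
    exact (map_eq_zero_iff σ.symm σ.symm.injective).1 h4
  have h5 := hli.fintype_card_le_finrank
  simpa using h5

/-- A semilinear automorphism maps `L(D)` into `L(g D)`. -/
theorem smul_mem_L (g : SemilinearAut K F) {D : Divisor K F} {s : F}
    (hs : s ∈ riemannRochSpace D) : g • s ∈ riemannRochSpace (g • D) := by
  rw [mem_riemannRochSpace_iff] at hs ⊢
  intro v
  rcases hs (g⁻¹ • v) with h0 | h1
  · left
    rw [h0, smul_zero]
  · right
    have h2 := SemilinearAut.ord_smul g (g⁻¹ • v) s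
    rw [smul_inv_smul] at h2
    rw [h2, SemilinearAut.divisor_smul_apply]
    exact h1

/-- `dim L(D) ≤ dim L(g D)`. -/
theorem finrank_L_le_smul (h : IsFF1 K F x) (g : SemilinearAut K F) (D : Divisor K F) :
    finrank K (riemannRochSpace D) ≤ finrank K (riemannRochSpace (g • D)) := by
  have := h.finite_L D
  have := h.finite_L (g • D)
  let φ : riemannRochSpace D →+ riemannRochSpace (g • D) :=
    { toFun := fun s => ⟨g • (s : F), smul_mem_L g s.2⟩
      map_zero' := Subtype.ext (by simp)
      map_add' := fun s t => Subtype.ext (by simp [smul_add]) }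
  refine finrank_le_of_semilinear (SemilinearAut.baseAut g) φ ?_ ?_
  · intro c s
    apply Subtype.ext
    show g • ((c • s : riemannRochSpace D) : F) = SemilinearAut.baseAut g c • (g • (s : F))
    rw [Submodule.coe_smul, Algebra.smul_def, Algebra.smul_def, smul_mul',
      SemilinearAut.smul_algebraMap]
  · intro s t hst
    have h1 : g • (s : F) = g • (t : F) := congrArg Subtype.val hst
    exact Subtype.ext (MulAction.injective g h1)

/-! ### Divisors of degree zero -/

/-- A divisor of degree zero with a nonzero section is principal. -/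
theorem mem_principal_of_finrank_pos (h : IsFF1 K F x) {D : Divisor K F}
    (hdeg : Divisor.degree D = 0) (hpos : 0 < finrank K (riemannRochSpace D)) :
    D ∈ Divisor.principal (K := K) (F := F) := by
  have := h.hasPrincipalDivisors
  have := h.finite_L D
  obtain ⟨s, hs⟩ := Module.finrank_pos_iff_exists_ne_zero.1 hpos
  have hs0 : (s : F) ≠ 0 := fun h0 => hs (Subtype.ext h0)
  obtain ⟨Ds, hDs, hDsdeg⟩ := HasPrincipalDivisors.exists_divisor (K := K) (s : F) hs0
  have hE : Ds + D = 0 := by
    refine WeilCanonical.eq_zero_of_nonneg_of_degree_le h ?_ (by rw [map_add, hDsdeg, hdeg]; simp)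
    refine Finsupp.le_def.2 fun v => ?_
    have h1 := (mem_riemannRochSpace_iff.1 s.2 v).resolve_left hs0
    simp only [Finsupp.coe_zero, Pi.zero_apply, Finsupp.add_apply, hDs]
    omega
  have hD : D = -Ds := by
    rw [eq_neg_iff_add_eq_zero, add_comm]
    exact hE
  rw [hD]
  exact neg_mem ⟨(s : F), hs0, hDs⟩

/-- `dim L(D) = 1` for a principal divisor `D`. -/
theorem finrank_L_of_mem_principal (h : IsFF1 K F x) {D : Divisor K F}
    (hD : D ∈ Divisor.principal (K := K) (F := F)) :
    finrank K (riemannRochSpace D) = 1 := by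
  obtain ⟨f, hf, hDf⟩ := hD
  have h1 := RR.finrank_L_sub_div (0 : Divisor K F) (-D) (f := f⁻¹) (inv_ne_zero hf) (fun v => by
    rw [Finsupp.neg_apply, hDf v, Place.ord_inv])
  rw [zero_sub, neg_neg] at h1
  rw [h1, h.finrank_L_zero]

/-! ### The canonical class -/

section Canonical

variable (h : IsFF1 K F x) {W : Divisor K F}
  (hWdeg : Divisor.degree W = 2 * (genusFF K F : ℤ) - 2)
  (hdual : ∀ D : Divisor K F, finrank K (H1 D) = finrank K (riemannRochSpace (W - D)))

include hdual in
theorem finrank_L_canonical : finrank K (riemannRochSpace W) = genusFF K F := by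
  have h1 := hdual 0
  rw [sub_zero] at h1
  rw [← h1]
  rfl

include h hWdeg hdual in
/-- In degree `2g - 2`: `dim L(D) = g` if `D` is canonical, `g - 1` otherwise. -/
theorem finrank_L_of_degree_canonical {D : Divisor K F}
    (hD : Divisor.degree D = 2 * (genusFF K F : ℤ) - 2) :
    (D - W ∈ Divisor.principal (K := K) (F := F) →
      (finrank K (riemannRochSpace D) : ℤ) = genusFF K F) ∧
    (D - W ∉ Divisor.principal (K := K) (F := F) →
      (finrank K (riemannRochSpace D) : ℤ) = (genusFF K F : ℤ) - 1) := by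
  have hrr := (h.riemannRoch D).2.2
  rw [hdual D, hD] at hrr
  have hdeg0 : Divisor.degree (W - D) = 0 := by rw [map_sub, hWdeg, hD, sub_self]
  have hneg : W - D = -(D - W) := by abel
  constructor
  · intro hpr
    have h1 : finrank K (riemannRochSpace (W - D)) = 1 :=
      finrank_L_of_mem_principal h (by rw [hneg]; exact neg_mem hpr)
    rw [h1] at hrr
    push_cast at hrr
    linarith
  · intro hpr
    have h1 : finrank K (riemannRochSpace (W - D)) = 0 := by
      by_contra hne
      apply hpr
      have h2 := mem_principal_of_finrank_pos h hdeg0 (Nat.pos_of_ne_zero hne)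
      have : D - W = -(W - D) := by abel
      rw [this]
      exact neg_mem h2
    rw [h1] at hrr
    push_cast at hrr
    linarith

include h hWdeg hdual in
/-- **The canonical class is fixed** by every semilinear automorphism. -/
theorem smul_canonical_sub_mem_principal (g : SemilinearAut K F) :
    g • W - W ∈ Divisor.principal (K := K) (F := F) := by
  have hdeg : Divisor.degree (g • W) = 2 * (genusFF K F : ℤ) - 2 := by
    rw [SemilinearAut.degree_smul, hWdeg]
  by_contra hpr
  have h1 := (finrank_L_of_degree_canonical h hWdeg hdual hdeg).2 hpr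
  have h2 := finrank_L_le_smul h g W
  rw [finrank_L_canonical hdual] at h2
  have h3 : (genusFF K F : ℤ) ≤ (finrank K (riemannRochSpace (g • W)) : ℤ) := by exact_mod_cast h2
  linarith

end Canonical

section Count

variable [IsAlgClosed K] (h : IsFF1 K F x) (g : SemilinearAut K F) {q : ℕ} (hq : 1 < q)
  (hg : ∀ a : K, SemilinearAut.baseAut g a = a ^ q) (hx : g • x = x)
  (P₀ : Place K F) (hP₀ : g • P₀ = P₀)
  (hline : ∀ D : Divisor K F, g • D = D →
    ((q : ℤ) - 1) * (Nat.card (FixLin g D) : ℤ) + 1 = (q : ℤ) ^ finrank K (riemannRochSpace D))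

include h hq hg hx hP₀ hline in
/-- **Degree `2 genus - 2`.**  For `genus ≥ 1`:
`(q - 1) * A_(2g-2) = (q ^ g - 1) + (h - 1) * (q ^ (g - 1) - 1)`. -/
theorem count_canonical (hgen : 0 < genusFF K F) :
    ((q : ℤ) - 1) * (Nat.card (FixEff g (2 * genusFF K F - 2)) : ℤ) =
      ((q : ℤ) ^ genusFF K F - 1) +
        ((Nat.card {y : Pic0 K F // g • y = y} : ℤ) - 1) * ((q : ℤ) ^ (genusFF K F - 1) - 1) := by
  classical
  obtain ⟨W, hWdeg, hdual⟩ := WeilCanonical.exists_canonical h
  set n : ℕ := 2 * genusFF K F - 2 with hn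
  have hncast : (n : ℤ) = 2 * (genusFF K F : ℤ) - 2 := by
    rw [hn]
    have : 2 ≤ 2 * genusFF K F := by omega
    push_cast [Nat.cast_sub this]
    ring
  have hWz : W - nP P₀ n ∈ Divisor.degZero (K := K) (F := F) := by
    rw [Divisor.mem_degZero, map_sub, hWdeg, degree_nP h, hncast, sub_self]
  set yW : Pic0 K F := Pic0.mk ⟨W - nP P₀ n, hWz⟩ with hyW
  have hyWfix : g • yW = yW := by
    rw [hyW, SemilinearAut.pic0_smul_mk, mk_eq_mk_iff]
    rw [SemilinearAut.coe_degZeroSMulHom]
    show g • (W - nP P₀ n) - (W - nP P₀ n) ∈ _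
    rw [smul_sub, smul_nP g hP₀]
    have e : g • W - nP P₀ n - (W - nP P₀ n) = g • W - W := by abel
    rw [e]
    exact smul_canonical_sub_mem_principal h hWdeg hdual g
  have hsum := sum_formula h g hq hg hx P₀ hP₀ hline n
    (fun y => if y = yW then genusFF K F else genusFF K F - 1) (by
    intro D _
    have hD0 : Divisor.degree (D : Divisor K F) = 0 := Divisor.mem_degZero.1 D.2
    have hdeg : Divisor.degree ((D : Divisor K F) + nP P₀ n) = 2 * (genusFF K F : ℤ) - 2 := by
      rw [map_add, hD0, degree_nP h, zero_add, hncast]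
    have hiff : Pic0.mk D = yW ↔
        (D : Divisor K F) + nP P₀ n - W ∈ Divisor.principal (K := K) (F := F) := by
      rw [hyW, mk_eq_mk_iff]
      have e : (D : Divisor K F) - (W - nP P₀ n) = (D : Divisor K F) + nP P₀ n - W := by abel
      show (D : Divisor K F) - (W - nP P₀ n) ∈ _ ↔ _
      rw [e]
    have hcan := finrank_L_of_degree_canonical h hWdeg hdual hdeg
    split_ifs with hc
    · have := hcan.1 (hiff.1 hc)
      exact_mod_cast this
    · have := hcan.2 (fun hp => hc (hiff.2 hp))
      have h1 : ((genusFF K F - 1 : ℕ) : ℤ) = (genusFF K F : ℤ) - 1 := by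
        push_cast [Nat.cast_sub hgen]
        ring
      rw [← h1] at this
      exact_mod_cast this)
  rw [hsum]
  have hfin := FrobFin.finite_fixed_classes h g hq hg hx
  have hcard : Nat.card {y : Pic0 K F // g • y = y} = hfin.toFinset.card := by
    rw [← Set.ncard_eq_toFinset_card _ hfin, ← Nat.card_coe_set_eq]
    rfl
  have hmem : yW ∈ hfin.toFinset := by
    rw [Set.Finite.mem_toFinset]
    exact hyWfix
  rw [hcard, ← Finset.add_sum_erase _ _ hmem, if_pos rfl]
  congr 1
  have hrest : ∀ y ∈ hfin.toFinset.erase yW,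
      ((q : ℤ) ^ (if y = yW then genusFF K F else genusFF K F - 1) - 1)
        = (q : ℤ) ^ (genusFF K F - 1) - 1 := by
    intro y hy
    rw [if_neg (Finset.ne_of_mem_erase hy)]
  rw [Finset.sum_congr rfl hrest, Finset.sum_const, nsmul_eq_mul, Finset.card_erase_of_mem hmem]
  have hpos : 1 ≤ hfin.toFinset.card := Finset.card_pos.2 ⟨yW, hmem⟩
  push_cast [Nat.cast_sub hpos]
  ring

end Count

/-! ### Finite orbits -/

/-- In a finite stable set of places every orbit is periodic. -/
theorem exists_pow_fixed_of_finite (ψ : SemilinearAut K F) {T : Set (Place K F)} (hT : T.Finite)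
    (hstab : ∀ w ∈ T, ψ • w ∈ T) {v : Place K F} (hv : v ∈ T) :
    ∃ k : ℕ, 0 < k ∧ ψ ^ k • v = v := by
  have hmem : ∀ i : ℕ, ψ ^ i • v ∈ T := by
    intro i
    induction i with
    | zero => simpa using hv
    | succ i ih =>
      rw [pow_succ', mul_smul]
      exact hstab _ ih
  obtain ⟨a, b, hab, hfab⟩ := Set.Finite.exists_lt_map_eq_of_forall_mem hmem hT
  refine ⟨b - a, by omega, ?_⟩
  have hb : b = a + (b - a) := by omega
  rw [hb, pow_add, mul_smul] at hfab
  exact (MulAction.injective (ψ ^ a) hfab).symm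

/-- **Every place is fixed by a power of `g`**, if every constant is fixed by a power of the
`q`-Frobenius. -/
theorem exists_pow_fixed_place (h : IsFF1 K F x) (g : SemilinearAut K F) {q : ℕ}
    (hg : ∀ a : K, SemilinearAut.baseAut g a = a ^ q) (hx : g • x = x)
    (hK : ∀ a : K, ∃ m : ℕ, 0 < m ∧ a ^ (q ^ m) = a) (v : Place K F) :
    ∃ m : ℕ, 0 < m ∧ g ^ m • v = v := by
  have := h.hasPrincipalDivisors
  have hxt := h.transcendental
  have hne : ∀ c : K, x - algebraMap K F c ≠ 0 := fun c hc =>
    hxt (by rw [sub_eq_zero.1 hc]; exact isAlgebraic_algebraMap c)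
  have hx0 : x ≠ 0 := fun h0 => hxt (by rw [h0]; exact isAlgebraic_zero)
  by_cases hv0 : 0 ≤ v.ord x
  · obtain ⟨c, hc⟩ := h.resK v ⟨x, Fermat.Agent.S24.mem_of_ord_nonneg v hv0⟩
    have h1 := RR.val_le_exp_neg_one_of_mem_maximalIdeal v _ hc
    have h2 : (((⟨x, Fermat.Agent.S24.mem_of_ord_nonneg v hv0⟩ : v.toValuationSubring)
        - algebraMap K v.toValuationSubring c : v.toValuationSubring) : F)
        = x - algebraMap K F c := rfl
    rw [h2, v.adicValuation_eq_exp_neg_ord (hne c), WithZero.exp_le_exp] at h1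
    have hpos : 0 < v.ord (x - algebraMap K F c) := by omega
    obtain ⟨m, hm, hcm⟩ := hK c
    have hψ : g ^ m • (x - algebraMap K F c) = x - algebraMap K F c := by
      rw [smul_sub, FrobFin.pow_smul_fixed g hx m, SemilinearAut.smul_algebraMap,
        FrobFin.baseAut_pow g hg, hcm]
    have hT : {w : Place K F | 0 < w.ord (x - algebraMap K F c)}.Finite :=
      (FrobFin.finite_ord_ne_zero (K := K) (hne c)).subset fun w hw => by
        have hw' : 0 < w.ord (x - algebraMap K F c) := hw
        show w.ord (x - algebraMap K F c) ≠ 0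
        omega
    obtain ⟨k, hk, hkv⟩ := exists_pow_fixed_of_finite (g ^ m) hT (fun w hw => by
      have hw' : 0 < w.ord (x - algebraMap K F c) := hw
      show 0 < (g ^ m • w).ord (x - algebraMap K F c)
      have h3 := SemilinearAut.ord_smul (g ^ m) w (x - algebraMap K F c)
      rw [hψ] at h3
      rw [h3]
      exact hw') (v := v) hpos
    exact ⟨m * k, Nat.mul_pos hm hk, by rw [pow_mul]; exact hkv⟩
  · have hT : {w : Place K F | w.ord x < 0}.Finite :=
      (FrobFin.finite_ord_ne_zero (K := K) hx0).subset fun w hw => by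
        have hw' : w.ord x < 0 := hw
        show w.ord x ≠ 0
        omega
    exact exists_pow_fixed_of_finite g hT (fun w hw => by
      have hw' : w.ord x < 0 := hw
      show (g • w).ord x < 0
      have h3 := SemilinearAut.ord_smul g w x
      rw [hx] at h3
      rw [h3]
      exact hw') (v := v) (by
      show v.ord x < 0
      omega)

/-- Every divisor is fixed by a power of `g`. -/
theorem exists_pow_fixed_divisor (h : IsFF1 K F x) (g : SemilinearAut K F) {q : ℕ}
    (hg : ∀ a : K, SemilinearAut.baseAut g a = a ^ q) (hx : g • x = x)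
    (hK : ∀ a : K, ∃ m : ℕ, 0 < m ∧ a ^ (q ^ m) = a) (D : Divisor K F) :
    ∃ m : ℕ, 0 < m ∧ g ^ m • D = D := by
  induction D using Finsupp.induction_linear with
  | zero => exact ⟨1, one_pos, smul_zero _⟩
  | add D₁ D₂ h₁ h₂ =>
    obtain ⟨m₁, hm₁, hD₁⟩ := h₁
    obtain ⟨m₂, hm₂, hD₂⟩ := h₂
    refine ⟨m₁ * m₂, Nat.mul_pos hm₁ hm₂, ?_⟩
    rw [smul_add]
    congr 1
    · rw [pow_mul]
      exact FrobFin.pow_smul_fixed _ hD₁ m₂
    · rw [mul_comm, pow_mul]
      exact FrobFin.pow_smul_fixed _ hD₂ m₁
  | single v n =>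
    obtain ⟨m, hm, hv⟩ := exists_pow_fixed_place h g hg hx hK v
    exact ⟨m, hm, by rw [SemilinearAut.smul_single, hv]⟩

/-- **Every class of `Pic⁰` is fixed by a power of `g`.** -/
theorem exists_pow_fixed_class (h : IsFF1 K F x) (g : SemilinearAut K F) {q : ℕ}
    (hg : ∀ a : K, SemilinearAut.baseAut g a = a ^ q) (hx : g • x = x)
    (hK : ∀ a : K, ∃ m : ℕ, 0 < m ∧ a ^ (q ^ m) = a) (y : Pic0 K F) :
    ∃ m : ℕ, 0 < m ∧ g ^ m • y = y := by
  obtain ⟨D, rfl⟩ := Pic0.mk_surjective y
  obtain ⟨m, hm, hD⟩ := exists_pow_fixed_divisor h g hg hx hK (D : Divisor K F)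
  refine ⟨m, hm, ?_⟩
  rw [SemilinearAut.pic0_smul_mk]
  congr 1
  apply Subtype.ext
  rw [SemilinearAut.coe_degZeroSMulHom]
  exact hD

end Fermat.Agent.S27P.Zeta.CountRR
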