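import Mathlib
import Fermat.Agent.Lib.FF.RRFF1
import Fermat.Prelude.Def_AlgebraicCurve_BaseChangeGalois

/-!
# S27 / (Z): the zeta anchor in characteristic `p` — interface

`F/k` a function field of one variable over an algebraically closed field `k` of characteristic
`p` (setting `Lib.FF.IsFF1 k F x`), `φ : SemilinearAut k F` a *`q`-Frobenius* (`IsFrob q φ`:
`φ` acts on `k` as `a ↦ a ^ q`, and every function has a finite `φ`-orbit).

* `fixPlaces φ`, `fixEff φ n`, `fixPic φ` : the `φ`-fixed places, effective divisors of degree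
  `n`, classes of degree `0`;
* `rep P₀ c n`, `ell P₀ c n` : a divisor of the class `c + n·P₀` and the dimension of its
  Riemann–Roch space;
* `IsCanon g W` : Riemann–Roch with the canonical divisor `W`, genus `g`.

The bricks of (Z) are stated against these definitions (see the `tasks` rows of project `S27`,
titles `Z…`).
-/

set_option autoImplicit false

noncomputable section

namespace Fermat.Agent.S27P.Zeta

open AlgebraicCurve

universe u v

variable {k : Type u} {F : Type v} [Field k] [Field F] [Algebra k F]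

/-- `φ` is a `q`-Frobenius of `F/k`: it acts on the constants as `a ↦ a ^ q`, and every
function has a finite `φ`-orbit. -/
structure IsFrob (q : ℕ) (φ : SemilinearAut k F) : Prop where
  base : ∀ a : k, SemilinearAut.baseAut φ a = a ^ q
  orbit : ∀ f : F, ∃ m : ℕ, 0 < m ∧ (φ ^ m) • f = f

theorem IsFrob.pow {q : ℕ} {φ : SemilinearAut k F} (h : IsFrob q φ) {m : ℕ} (_hm : 0 < m) :
    IsFrob (q ^ m) (φ ^ m) := by
  refine ⟨fun a => ?_, fun f => ?_⟩
  · have key : ∀ j : ℕ, SemilinearAut.baseAut (φ ^ j) a = a ^ q ^ j := by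
      intro j
      induction j generalizing a with
      | zero => simp
      | succ j ih =>
        rw [pow_succ, SemilinearAut.baseAut_mul, RingAut.mul_apply, h.base a, ih, pow_succ,
          pow_mul, ← pow_mul, ← pow_mul, mul_comm]
    exact key m
  · obtain ⟨j, hj, hf⟩ := h.orbit f
    refine ⟨j, hj, ?_⟩
    rw [← pow_mul, mul_comm, pow_mul]
    have key : ∀ i : ℕ, ((φ ^ j) ^ i) • f = f := by
      intro i
      induction i with
      | zero => simp
      | succ i ih => rw [pow_succ, mul_smul, hf, ih]
    exact key m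

/-- The `φ`-fixed places. -/
def fixPlaces (φ : SemilinearAut k F) : Set (Place k F) := {v | φ • v = v}

/-- The `φ`-fixed effective divisors of degree `n`. -/
def fixEff (φ : SemilinearAut k F) (n : ℕ) : Set (Divisor k F) :=
  {E | 0 ≤ E ∧ Divisor.degree E = (n : ℤ) ∧ φ • E = E}

/-- The `φ`-fixed divisor classes of degree `0`. -/
def fixPic (φ : SemilinearAut k F) : Set (Pic0 k F) := {c | φ • c = c}

theorem mem_fixPlaces {φ : SemilinearAut k F} {v : Place k F} : v ∈ fixPlaces φ ↔ φ • v = v :=
  Iff.rfl

theorem mem_fixEff {φ : SemilinearAut k F} {n : ℕ} {E : Divisor k F} :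
    E ∈ fixEff φ n ↔ 0 ≤ E ∧ Divisor.degree E = (n : ℤ) ∧ φ • E = E := Iff.rfl

theorem mem_fixPic {φ : SemilinearAut k F} {c : Pic0 k F} : c ∈ fixPic φ ↔ φ • c = c := Iff.rfl

/-- A divisor of degree `n` in the class `c + n·P₀`. -/
def rep (P₀ : Place k F) (c : Pic0 k F) (n : ℕ) : Divisor k F :=
  ((Quotient.out c : Divisor.degZero (K := k) (F := F)) : Divisor k F) +
    Finsupp.single P₀ (n : ℤ)

/-- `ℓ(c + n·P₀)`: the dimension of the Riemann–Roch space of the class `c + n·P₀`. -/
def ell (P₀ : Place k F) (c : Pic0 k F) (n : ℕ) : ℕ :=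
  Module.finrank k (riemannRochSpace (rep P₀ c n))

/-- **Riemann–Roch with a canonical divisor** `W`, genus `g`. -/
def IsCanon (g : ℕ) (W : Divisor k F) : Prop :=
  Divisor.degree W = 2 * (g : ℤ) - 2 ∧
    ∀ D : Divisor k F, (Module.finrank k (riemannRochSpace D) : ℤ) -
      Module.finrank k (riemannRochSpace (W - D)) = Divisor.degree D + 1 - g

end Fermat.Agent.S27P.Zeta

end
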