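/-
S27 / (Z) zeta anchor, brick (Z-DC): the abstract double count (helper70).

For a permutation `φ` of a set `X` all of whose powers `φ ^ r` (`r ≥ 1`) have finitely many fixed
points, let `A n` be the number of `φ`-fixed effective `ℤ`-divisors of degree `n` on `X` and `N r`
the number of fixed points of `φ ^ r`.  Then

  `n * A n = ∑ r ∈ [1, n], N r * A (n - r)`,

the combinatorial form of `t Z'(t) / Z(t) = ∑ N_r t^r`.  Mathlib only, universe polymorphic.
-/
import Mathlib

set_option autoImplicit false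

open Finset

namespace Fermat.Agent.S27P.Zeta.DoubleCount

open scoped Classical

noncomputable section

variable {X : Type*}

/-- Total degree of a finitely supported `ℤ`-valued function. -/
def tdeg : (X →₀ ℤ) →+ ℤ := Finsupp.liftAddHom fun _ => AddMonoidHom.id ℤ

theorem tdeg_apply (D : X →₀ ℤ) : tdeg D = D.sum fun _ a => a := rfl

theorem tdeg_single (x : X) (a : ℤ) : tdeg (Finsupp.single x a) = a := by
  simp [tdeg]

theorem tdeg_eq_sum_support (D : X →₀ ℤ) : tdeg D = ∑ x ∈ D.support, D x := rfl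

theorem tdeg_eq_sum_of_subset (D : X →₀ ℤ) {Y : Finset X} (h : D.support ⊆ Y) :
    tdeg D = ∑ x ∈ Y, D x := by
  rw [tdeg_apply]
  exact Finsupp.sum_of_support_subset D h _ (fun _ _ => rfl)

/-- `φ`-fixed effective `ℤ`-divisors of total degree `n` on `X`. -/
def fixedEff (φ : Equiv.Perm X) (n : ℕ) : Set (X →₀ ℤ) :=
  {D | 0 ≤ D ∧ Finsupp.mapDomain φ D = D ∧ (D.sum fun _ a => a) = (n : ℤ)}

theorem nonneg_iff (D : X →₀ ℤ) : 0 ≤ D ↔ ∀ y, 0 ≤ D y := by
  rw [Finsupp.le_def]
  simp

theorem mapDomain_eq_iff (φ : Equiv.Perm X) (D : X →₀ ℤ) :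
    Finsupp.mapDomain φ D = D ↔ ∀ y, D (φ y) = D y := by
  constructor
  · intro h y
    have h1 := Finsupp.mapDomain_apply φ.injective D y
    rw [h] at h1
    exact h1
  · intro h
    ext y
    have h1 := Finsupp.mapDomain_apply φ.injective D (φ.symm y)
    rw [Equiv.apply_symm_apply] at h1
    rw [h1, ← h (φ.symm y), Equiv.apply_symm_apply]

theorem mem_fixedEff {φ : Equiv.Perm X} {n : ℕ} {D : X →₀ ℤ} :
    D ∈ fixedEff φ n ↔ (∀ y, 0 ≤ D y) ∧ (∀ y, D (φ y) = D y) ∧ tdeg D = (n : ℤ) := by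
  show (0 ≤ D ∧ Finsupp.mapDomain φ D = D ∧ (D.sum fun _ a => a) = (n : ℤ)) ↔ _
  rw [nonneg_iff, mapDomain_eq_iff, tdeg_apply]

theorem apply_pow {φ : Equiv.Perm X} {D : X →₀ ℤ} (h : ∀ y, D (φ y) = D y) (i : ℕ) (y : X) :
    D ((φ ^ i) y) = D y := by
  induction i generalizing y with
  | zero => simp
  | succ i ih => rw [pow_succ, Equiv.Perm.mul_apply, ih, h]

theorem pow_apply_eq_of_dvd (φ : Equiv.Perm X) {a b : ℕ} {y : X} (h : (φ ^ a) y = y)
    (hab : a ∣ b) : (φ ^ b) y = y := by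
  obtain ⟨c, rfl⟩ := hab
  induction c with
  | zero => simp
  | succ c ih => rw [Nat.mul_succ, pow_add, Equiv.Perm.mul_apply, h, ih]

theorem tdeg_nonneg {D : X →₀ ℤ} (h : ∀ y, 0 ≤ D y) : 0 ≤ tdeg D := by
  rw [tdeg_eq_sum_support]
  exact Finset.sum_nonneg fun x _ => h x

theorem apply_le_tdeg {D : X →₀ ℤ} (h : ∀ y, 0 ≤ D y) (y : X) : D y ≤ tdeg D := by
  rw [tdeg_eq_sum_support]
  by_cases hy : y ∈ D.support
  · exact Finset.single_le_sum (f := fun x => D x) (fun x _ => h x) hy
  · rw [Finsupp.notMem_support_iff.mp hy]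
    exact Finset.sum_nonneg fun x _ => h x

theorem card_support_le {φ : Equiv.Perm X} {n : ℕ} {D : X →₀ ℤ} (hD : D ∈ fixedEff φ n) :
    D.support.card ≤ n := by
  obtain ⟨h0, -, hdeg⟩ := mem_fixedEff.mp hD
  have h1 : ∀ x ∈ D.support, (1 : ℤ) ≤ D x := by
    intro x hx
    have hne : D x ≠ 0 := Finsupp.mem_support_iff.mp hx
    have := h0 x
    omega
  have h2 : (D.support.card : ℤ) ≤ n := by
    rw [← hdeg, tdeg_eq_sum_support]
    calc (D.support.card : ℤ) = ∑ x ∈ D.support, (1 : ℤ) := by simp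
      _ ≤ ∑ x ∈ D.support, D x := Finset.sum_le_sum h1
  exact_mod_cast h2

theorem pow_factorial_apply_of_mem_support {φ : Equiv.Perm X} {n : ℕ} {D : X →₀ ℤ}
    (hD : D ∈ fixedEff φ n) {y : X} (hy : y ∈ D.support) : (φ ^ n.factorial) y = y := by
  have hinv := (mem_fixedEff.mp hD).2.1
  have hcard := card_support_le hD
  have hmaps : Set.MapsTo (fun i : ℕ => (φ ^ i) y) (Finset.range (n + 1)) D.support := by
    intro i _
    rw [Finset.mem_coe, Finsupp.mem_support_iff, apply_pow hinv]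
    exact Finsupp.mem_support_iff.mp hy
  obtain ⟨i, hi, j, hj, hij, hEq⟩ :=
    Finset.exists_ne_map_eq_of_card_lt_of_maps_to (by rw [Finset.card_range]; omega) hmaps
  have key : ∀ i j : ℕ, i < j → j < n + 1 → (φ ^ i) y = (φ ^ j) y →
      (φ ^ n.factorial) y = y := by
    intro i j hlt hjn h
    have hj' : j = i + (j - i) := by omega
    rw [hj', pow_add, Equiv.Perm.mul_apply] at h
    have h2 : (φ ^ (j - i)) y = y := ((φ ^ i).injective h).symm
    exact pow_apply_eq_of_dvd φ h2 (Nat.dvd_factorial (by omega) (by omega))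
  rw [Finset.mem_range] at hi hj
  rcases lt_or_gt_of_ne hij with hlt | hlt
  · exact key i j hlt hj hEq
  · exact key j i hlt hi hEq.symm

/-- The set of `φ`-fixed effective divisors of degree `n` is finite. -/
theorem finite_fixedEff (φ : Equiv.Perm X)
    (hfin : ∀ r : ℕ, 0 < r → {x : X | (φ ^ r) x = x}.Finite) (n : ℕ) :
    (fixedEff φ n).Finite := by
  set Y := (hfin n.factorial n.factorial_pos).toFinset with hY
  refine ((Y.finsupp (fun _ => Finset.Icc (0 : ℤ) n)).finite_toSet).subset ?_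
  intro D hD
  rw [Finset.mem_coe, Finset.mem_finsupp_iff]
  obtain ⟨h0, -, hdeg⟩ := mem_fixedEff.mp hD
  refine ⟨fun y hy => ?_, fun y _ => ?_⟩
  · rw [hY, Set.Finite.mem_toFinset]
    exact pow_factorial_apply_of_mem_support hD hy
  · rw [Finset.mem_Icc]
    exact ⟨h0 y, hdeg ▸ apply_le_tdeg h0 y⟩

/-- `A_0 = 1`: the only fixed effective divisor of degree `0` is `0`. -/
theorem fixedEff_zero (φ : Equiv.Perm X) : fixedEff φ 0 = {0} := by
  ext D
  rw [Set.mem_singleton_iff, mem_fixedEff]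
  constructor
  · rintro ⟨h0, -, hdeg⟩
    ext y
    have h1 := apply_le_tdeg h0 y
    rw [hdeg] at h1
    have h2 := h0 y
    simp only [Nat.cast_zero] at h1
    rw [Finsupp.coe_zero, Pi.zero_apply]
    omega
  · rintro rfl
    refine ⟨fun y => le_rfl, fun y => rfl, by simp⟩

theorem card_fixedEff_zero (φ : Equiv.Perm X) : Nat.card (fixedEff φ 0) = 1 := by
  rw [fixedEff_zero]
  simp

/-! ### Orbits of periodic points -/

/-- The orbit of `x` (as a finset; meaningful for periodic `x`). -/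
def orbF (φ : Equiv.Perm X) (x : X) : Finset X :=
  (Finset.range (Function.minimalPeriod φ x)).image fun i => (φ ^ i) x

/-- The orbit divisor of `x`. -/
def orbD (φ : Equiv.Perm X) (x : X) : X →₀ ℤ :=
  Finsupp.onFinset (orbF φ x) (fun y => if y ∈ orbF φ x then 1 else 0)
    (fun y hy => by
      by_contra h
      simp [h] at hy)

theorem orbD_apply (φ : Equiv.Perm X) (x y : X) :
    orbD φ x y = if y ∈ orbF φ x then 1 else 0 := rfl

theorem isPeriodicPt_iff (φ : Equiv.Perm X) (r : ℕ) (x : X) :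
    Function.IsPeriodicPt φ r x ↔ (φ ^ r) x = x := by
  show (⇑φ)^[r] x = x ↔ _
  rw [Equiv.Perm.iterate_eq_pow]

theorem pow_eq_iff_dvd (φ : Equiv.Perm X) (r : ℕ) (x : X) :
    (φ ^ r) x = x ↔ Function.minimalPeriod φ x ∣ r := by
  rw [← isPeriodicPt_iff, Function.isPeriodicPt_iff_minimalPeriod_dvd]

theorem minimalPeriod_pos {φ : Equiv.Perm X} {r : ℕ} {x : X} (hr : 0 < r) (h : (φ ^ r) x = x) :
    0 < Function.minimalPeriod φ x :=
  Function.IsPeriodicPt.minimalPeriod_pos hr ((isPeriodicPt_iff φ r x).mpr h)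

theorem pow_minimalPeriod (φ : Equiv.Perm X) (x : X) :
    (φ ^ Function.minimalPeriod φ x) x = x :=
  (pow_eq_iff_dvd φ _ x).mpr dvd_rfl

theorem pow_mem_orbF {φ : Equiv.Perm X} {x : X} (hd : 0 < Function.minimalPeriod φ x) (i : ℕ) :
    (φ ^ i) x ∈ orbF φ x := by
  rw [orbF, Finset.mem_image]
  refine ⟨i % Function.minimalPeriod φ x, Finset.mem_range.mpr (Nat.mod_lt i hd), ?_⟩
  have h := Function.iterate_mod_minimalPeriod_eq (f := φ) (x := x) (n := i)
  rw [Equiv.Perm.iterate_eq_pow, Equiv.Perm.iterate_eq_pow] at h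
  exact h

theorem self_mem_orbF {φ : Equiv.Perm X} {x : X} (hd : 0 < Function.minimalPeriod φ x) :
    x ∈ orbF φ x := by
  have := pow_mem_orbF hd 0
  simpa using this

theorem exists_pow_of_mem_orbF {φ : Equiv.Perm X} {x y : X} (hy : y ∈ orbF φ x) :
    ∃ i : ℕ, (φ ^ i) x = y := by
  rw [orbF, Finset.mem_image] at hy
  obtain ⟨i, -, hi⟩ := hy
  exact ⟨i, hi⟩

theorem apply_mem_orbF_iff {φ : Equiv.Perm X} {x : X} (hd : 0 < Function.minimalPeriod φ x)
    (y : X) : φ y ∈ orbF φ x ↔ y ∈ orbF φ x := by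
  constructor
  · intro h
    obtain ⟨i, hi⟩ := exists_pow_of_mem_orbF h
    have h1 : (φ ^ (i + Function.minimalPeriod φ x - 1)) x = y := by
      apply φ.injective
      rw [← Equiv.Perm.mul_apply, ← pow_succ', hi.symm,
        show i + Function.minimalPeriod φ x - 1 + 1 = i + Function.minimalPeriod φ x by omega,
        pow_add, Equiv.Perm.mul_apply, pow_minimalPeriod]
    rw [← h1]
    exact pow_mem_orbF hd _
  · intro h
    obtain ⟨i, hi⟩ := exists_pow_of_mem_orbF h
    have h1 : (φ ^ (i + 1)) x = φ y := by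
      rw [pow_succ', Equiv.Perm.mul_apply, hi]
    rw [← h1]
    exact pow_mem_orbF hd _

theorem card_orbF (φ : Equiv.Perm X) (x : X) : (orbF φ x).card = Function.minimalPeriod φ x := by
  rw [orbF, Finset.card_image_of_injOn, Finset.card_range]
  intro i hi j hj hij
  have hi' : i < Function.minimalPeriod φ x := Finset.mem_range.mp hi
  have hj' : j < Function.minimalPeriod φ x := Finset.mem_range.mp hj
  have h2 : (⇑φ)^[i] x = (⇑φ)^[j] x := by
    rw [Equiv.Perm.iterate_eq_pow, Equiv.Perm.iterate_eq_pow]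
    exact hij
  exact (Function.iterate_eq_iterate_iff_of_lt_minimalPeriod hi' hj').mp h2

theorem tdeg_orbD (φ : Equiv.Perm X) (x : X) :
    tdeg (orbD φ x) = (Function.minimalPeriod φ x : ℤ) := by
  rw [tdeg_eq_sum_of_subset (orbD φ x) (Y := orbF φ x) Finsupp.support_onFinset_subset,
    ← card_orbF φ x]
  rw [Finset.sum_congr rfl (fun y hy => by rw [orbD_apply, if_pos hy])]
  simp

theorem orbD_nonneg (φ : Equiv.Perm X) (x y : X) : 0 ≤ orbD φ x y := by
  rw [orbD_apply]
  split_ifs <;> norm_num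

theorem orbD_apply_apply {φ : Equiv.Perm X} {x : X} (hd : 0 < Function.minimalPeriod φ x)
    (y : X) : orbD φ x (φ y) = orbD φ x y := by
  rw [orbD_apply, orbD_apply]
  simp only [apply_mem_orbF_iff hd]

theorem orbD_self {φ : Equiv.Perm X} {x : X} (hd : 0 < Function.minimalPeriod φ x) :
    orbD φ x x = 1 := by
  rw [orbD_apply, if_pos (self_mem_orbF hd)]

/-- Removing `j` copies of the orbit of `x` from a fixed effective divisor with `D x ≥ j`. -/
theorem sub_orbD_nonneg {φ : Equiv.Perm X} {D : X →₀ ℤ} (h0 : ∀ y, 0 ≤ D y)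
    (hinv : ∀ y, D (φ y) = D y) (x : X) {j : ℕ} (hj : (j : ℤ) ≤ D x) (y : X) :
    0 ≤ (D - (j : ℤ) • orbD φ x) y := by
  rw [Finsupp.sub_apply, Finsupp.smul_apply, smul_eq_mul, orbD_apply]
  split_ifs with hy
  · obtain ⟨i, rfl⟩ := exists_pow_of_mem_orbF hy
    rw [apply_pow hinv]
    linarith
  · have := h0 y
    linarith

/-! ### The count -/

section Count

variable (φ : Equiv.Perm X) (hfin : ∀ r : ℕ, 0 < r → {x : X | (φ ^ r) x = x}.Finite)

/-- The finset of `φ`-fixed effective divisors of degree `n`. -/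
def S (n : ℕ) : Finset (X →₀ ℤ) := (finite_fixedEff φ hfin n).toFinset

theorem mem_S {n : ℕ} {D : X →₀ ℤ} :
    D ∈ S φ hfin n ↔ (∀ y, 0 ≤ D y) ∧ (∀ y, D (φ y) = D y) ∧ tdeg D = (n : ℤ) := by
  rw [S, Set.Finite.mem_toFinset, mem_fixedEff]

theorem card_S (n : ℕ) : (S φ hfin n).card = Nat.card (fixedEff φ n) := by
  rw [Nat.card_coe_set_eq, Set.ncard_eq_toFinset_card _ (finite_fixedEff φ hfin n)]
  rfl

/-- The number of fixed divisors of degree `n` with multiplicity at least `j` at `x`. -/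
theorem card_filter_le_apply {r : ℕ} (hr : 0 < r) {x : X} (hx : (φ ^ r) x = x) (n j : ℕ) :
    ((S φ hfin n).filter fun D => (j : ℤ) ≤ D x).card =
      if j * Function.minimalPeriod φ x ≤ n then
        (S φ hfin (n - j * Function.minimalPeriod φ x)).card else 0 := by
  have hd := minimalPeriod_pos hr hx
  set d := Function.minimalPeriod φ x with hd_def
  split_ifs with hle
  · refine Finset.card_nbij' (fun D => D - (j : ℤ) • orbD φ x) (fun D => D + (j : ℤ) • orbD φ x)
      ?_ ?_ ?_ ?_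
    · intro D hD
      rw [Finset.mem_coe, Finset.mem_filter, mem_S] at hD
      obtain ⟨⟨h0, hinv, hdeg⟩, hj⟩ := hD
      rw [Finset.mem_coe, mem_S]
      refine ⟨sub_orbD_nonneg h0 hinv x hj, fun y => ?_, ?_⟩
      · rw [Finsupp.sub_apply, Finsupp.sub_apply, Finsupp.smul_apply, Finsupp.smul_apply,
          orbD_apply_apply hd, hinv]
      · rw [map_sub, map_zsmul, hdeg, tdeg_orbD, smul_eq_mul, ← hd_def]
        push_cast [Nat.cast_sub hle]
        ring
    · intro D hD
      rw [Finset.mem_coe, mem_S] at hD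
      obtain ⟨h0, hinv, hdeg⟩ := hD
      rw [Finset.mem_coe, Finset.mem_filter, mem_S]
      refine ⟨⟨fun y => ?_, fun y => ?_, ?_⟩, ?_⟩
      · rw [Finsupp.add_apply, Finsupp.smul_apply, smul_eq_mul]
        have := h0 y
        have := orbD_nonneg φ x y
        positivity
      · rw [Finsupp.add_apply, Finsupp.add_apply, Finsupp.smul_apply, Finsupp.smul_apply,
          orbD_apply_apply hd, hinv]
      · rw [map_add, map_zsmul, hdeg, tdeg_orbD, smul_eq_mul, ← hd_def]
        push_cast [Nat.cast_sub hle]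
        ring
      · rw [Finsupp.add_apply, Finsupp.smul_apply, smul_eq_mul, orbD_self hd]
        have := h0 x
        linarith
    · intro D _
      simp
    · intro D _
      simp
  · rw [Finset.card_eq_zero, Finset.filter_eq_empty_iff]
    intro D hD hj
    obtain ⟨h0, hinv, hdeg⟩ := (mem_S φ hfin).mp hD
    have h1 := tdeg_nonneg (sub_orbD_nonneg h0 hinv x hj)
    rw [map_sub, map_zsmul, hdeg, tdeg_orbD, smul_eq_mul, ← hd_def] at h1
    apply hle
    have h2 : ((j * d : ℕ) : ℤ) ≤ (n : ℤ) := by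
      push_cast
      linarith
    exact_mod_cast h2

/-- Re-indexing `r = j * d`. -/
theorem sum_dvd_reindex {d : ℕ} (hd : 0 < d) (a : ℕ → ℕ) (n : ℕ) :
    (∑ r ∈ Finset.Icc 1 n, if d ∣ r then a (n - r) else 0) =
      ∑ j ∈ Finset.Icc 1 n, if j * d ≤ n then a (n - j * d) else 0 := by
  rw [← Finset.sum_filter, ← Finset.sum_filter]
  symm
  refine Finset.sum_nbij' (fun j => j * d) (fun r => r / d) ?_ ?_ ?_ ?_ ?_
  · intro j hj
    rw [Finset.mem_filter, Finset.mem_Icc] at hj
    rw [Finset.mem_filter, Finset.mem_Icc]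
    refine ⟨⟨?_, hj.2⟩, Dvd.intro_left j rfl⟩
    exact Nat.mul_pos (by omega) hd
  · intro r hr
    rw [Finset.mem_filter, Finset.mem_Icc] at hr
    obtain ⟨⟨hr1, hrn⟩, c, rfl⟩ := hr
    rw [Finset.mem_filter, Finset.mem_Icc, Nat.mul_div_cancel_left c hd]
    have hc : 0 < c := by
      rcases Nat.eq_zero_or_pos c with rfl | h
      · simp at hr1
      · exact h
    refine ⟨⟨hc, ?_⟩, ?_⟩
    · calc c = 1 * c := (one_mul c).symm
        _ ≤ d * c := Nat.mul_le_mul_right c hd
        _ ≤ n := hrn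
    · rw [mul_comm]
      exact hrn
  · intro j _
    exact Nat.mul_div_cancel j hd
  · intro r hr
    rw [Finset.mem_filter] at hr
    exact Nat.div_mul_cancel hr.2
  · intro j _
    rfl

/-- The double count, in `ℕ`, with explicit finsets. -/
theorem double_count_nat (n : ℕ) :
    n * (S φ hfin n).card =
      ∑ r ∈ Finset.Icc 1 n,
        (((hfin n.factorial n.factorial_pos).toFinset).filter fun x => (φ ^ r) x = x).card *
          (S φ hfin (n - r)).card := by
  set Y := (hfin n.factorial n.factorial_pos).toFinset with hY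
  have hYmem : ∀ x, x ∈ Y ↔ (φ ^ n.factorial) x = x := by
    intro x
    rw [hY, Set.Finite.mem_toFinset]
    rfl
  -- step 1: `n = ∑_{x ∈ Y} D x` for `D ∈ S n`
  have h1 : ∀ D ∈ S φ hfin n, ∑ x ∈ Y, (D x).toNat = n := by
    intro D hD
    have hD' := (mem_S φ hfin).mp hD
    have hsub : D.support ⊆ Y := fun y hy =>
      (hYmem y).mpr (pow_factorial_apply_of_mem_support (mem_fixedEff.mpr hD') hy)
    have h2 : ((∑ x ∈ Y, (D x).toNat : ℕ) : ℤ) = (n : ℤ) := by
      rw [← hD'.2.2, tdeg_eq_sum_of_subset D hsub, Nat.cast_sum]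
      exact Finset.sum_congr rfl fun x _ => Int.toNat_of_nonneg (hD'.1 x)
    exact_mod_cast h2
  -- step 3: slices
  have h3 : ∀ x ∈ Y, ∑ D ∈ S φ hfin n, (D x).toNat =
      ∑ j ∈ Finset.Icc 1 n, ((S φ hfin n).filter fun D => (j : ℤ) ≤ D x).card := by
    intro x _
    have h4 : ∀ D ∈ S φ hfin n,
        (D x).toNat = ∑ j ∈ Finset.Icc 1 n, if (j : ℤ) ≤ D x then 1 else 0 := by
      intro D hD
      have hD' := (mem_S φ hfin).mp hD
      have hle : D x ≤ n := hD'.2.2 ▸ apply_le_tdeg hD'.1 x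
      have h0 := hD'.1 x
      rw [← Finset.card_filter]
      have : (Finset.Icc 1 n).filter (fun j : ℕ => (j : ℤ) ≤ D x) = Finset.Icc 1 (D x).toNat := by
        ext j
        rw [Finset.mem_filter, Finset.mem_Icc, Finset.mem_Icc]
        omega
      rw [this, Nat.card_Icc]
      omega
    rw [Finset.sum_congr rfl h4, Finset.sum_comm]
    exact Finset.sum_congr rfl fun j _ => (Finset.card_filter _ _).symm
  -- assemble
  calc n * (S φ hfin n).card = ∑ D ∈ S φ hfin n, ∑ x ∈ Y, (D x).toNat := by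
        rw [Finset.sum_congr rfl h1, Finset.sum_const, smul_eq_mul, mul_comm]
    _ = ∑ x ∈ Y, ∑ D ∈ S φ hfin n, (D x).toNat := Finset.sum_comm
    _ = ∑ x ∈ Y, ∑ r ∈ Finset.Icc 1 n,
          if (φ ^ r) x = x then (S φ hfin (n - r)).card else 0 := by
        refine Finset.sum_congr rfl fun x hx => ?_
        have hx' : (φ ^ n.factorial) x = x := (hYmem x).mp hx
        have hd := minimalPeriod_pos n.factorial_pos hx'
        rw [h3 x hx]
        rw [Finset.sum_congr rfl fun j _ =>
          card_filter_le_apply φ hfin n.factorial_pos hx' n j]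
        rw [← sum_dvd_reindex hd (fun m => (S φ hfin m).card) n]
        exact Finset.sum_congr rfl fun r _ => by simp only [pow_eq_iff_dvd]
    _ = ∑ r ∈ Finset.Icc 1 n, ∑ x ∈ Y,
          if (φ ^ r) x = x then (S φ hfin (n - r)).card else 0 := Finset.sum_comm
    _ = _ := by
        refine Finset.sum_congr rfl fun r _ => ?_
        rw [← Finset.sum_filter, Finset.sum_const, smul_eq_mul]

theorem card_fix_eq {n r : ℕ} (hr1 : 1 ≤ r) (hrn : r ≤ n) :
    Nat.card {x : X // (φ ^ r) x = x} =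
      (((hfin n.factorial n.factorial_pos).toFinset).filter fun x => (φ ^ r) x = x).card := by
  have hset : {x : X | (φ ^ r) x = x} =
      ↑(((hfin n.factorial n.factorial_pos).toFinset).filter fun x => (φ ^ r) x = x) := by
    ext x
    rw [Finset.coe_filter, Set.mem_ofPred_eq, Set.mem_ofPred_eq, Set.Finite.mem_toFinset,
      Set.mem_ofPred_eq]
    exact ⟨fun h => ⟨pow_apply_eq_of_dvd φ h (Nat.dvd_factorial hr1 hrn), h⟩, fun h => h.2⟩
  have h1 : Nat.card {x : X // (φ ^ r) x = x} = Set.ncard {x : X | (φ ^ r) x = x} :=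
    Nat.card_coe_set_eq _
  rw [h1, hset, Set.ncard_coe_finset]

end Count

/-- **The double count**: `n · A_n = ∑_{r=1}^{n} N_r · A_{n-r}`, where `A_n` is the number of
`φ`-fixed effective divisors of degree `n` and `N_r` the number of fixed points of `φ ^ r`. -/
theorem double_count (φ : Equiv.Perm X)
    (hfin : ∀ r : ℕ, 0 < r → {x : X | (φ ^ r) x = x}.Finite) (n : ℕ) :
    (n : ℤ) * (Nat.card (fixedEff φ n) : ℤ) =
      ∑ r ∈ Finset.Icc 1 n, (Nat.card {x : X // (φ ^ r) x = x} : ℤ) *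
        (Nat.card (fixedEff φ (n - r)) : ℤ) := by
  have h := double_count_nat φ hfin n
  rw [← card_S φ hfin n]
  have h2 : ∑ r ∈ Finset.Icc 1 n, (Nat.card {x : X // (φ ^ r) x = x} : ℤ) *
        (Nat.card (fixedEff φ (n - r)) : ℤ) =
      ((∑ r ∈ Finset.Icc 1 n,
        (((hfin n.factorial n.factorial_pos).toFinset).filter fun x => (φ ^ r) x = x).card *
          (S φ hfin (n - r)).card : ℕ) : ℤ) := by
    rw [Nat.cast_sum]
    refine Finset.sum_congr rfl fun r hr => ?_
    rw [Finset.mem_Icc] at hr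
    rw [card_fix_eq φ hfin hr.1 hr.2, ← card_S φ hfin (n - r), Nat.cast_mul]
  rw [h2, ← h, Nat.cast_mul]

/-! ### The family `(φ ^ m)` -/

/-- `A m n`: the number of `φ ^ m`-fixed effective divisors of degree `n`. -/
def countA (φ : Equiv.Perm X) (m n : ℕ) : ℤ := (Nat.card (fixedEff (φ ^ m) n) : ℤ)

/-- `N r`: the number of fixed points of `φ ^ r`. -/
def countN (φ : Equiv.Perm X) (r : ℕ) : ℤ := (Nat.card {x : X // (φ ^ r) x = x} : ℤ)

theorem countA_zero (φ : Equiv.Perm X) (m : ℕ) : countA φ m 0 = 1 := by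
  rw [countA, card_fixedEff_zero]
  rfl

theorem finite_fix_pow (φ : Equiv.Perm X)
    (hfin : ∀ r : ℕ, 0 < r → {x : X | (φ ^ r) x = x}.Finite) {m : ℕ} (hm : 0 < m) :
    ∀ r : ℕ, 0 < r → {x : X | ((φ ^ m) ^ r) x = x}.Finite := by
  intro r hr
  have := hfin (m * r) (Nat.mul_pos hm hr)
  rwa [pow_mul] at this

/-- The double count for the system `(φ ^ m, N (m * ·))`. -/
theorem double_count_pow (φ : Equiv.Perm X)
    (hfin : ∀ r : ℕ, 0 < r → {x : X | (φ ^ r) x = x}.Finite) (m : ℕ) (hm : 0 < m) (n : ℕ) :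
    (n : ℤ) * countA φ m n =
      ∑ r ∈ Finset.Icc 1 n, countN φ (m * r) * countA φ m (n - r) := by
  have h := double_count (φ ^ m) (finite_fix_pow φ hfin hm) n
  simp only [countA, countN]
  rw [h]
  refine Finset.sum_congr rfl fun r _ => ?_
  rw [pow_mul]

/-- The double count, re-indexed over `Finset.range n` (shape `N (m * (r + 1)) * A m (n - 1 - r)`). -/
theorem double_count_pow_range (φ : Equiv.Perm X)
    (hfin : ∀ r : ℕ, 0 < r → {x : X | (φ ^ r) x = x}.Finite) (m : ℕ) (hm : 0 < m) (n : ℕ) :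
    (n : ℤ) * countA φ m n =
      ∑ r ∈ Finset.range n, countN φ (m * (r + 1)) * countA φ m (n - 1 - r) := by
  rw [double_count_pow φ hfin m hm n]
  refine Finset.sum_nbij' (fun r => r - 1) (fun r => r + 1) ?_ ?_ ?_ ?_ ?_
  · intro r hr
    rw [Finset.mem_Icc] at hr
    rw [Finset.mem_range]
    omega
  · intro r hr
    rw [Finset.mem_range] at hr
    rw [Finset.mem_Icc]
    omega
  · intro r hr
    rw [Finset.mem_Icc] at hr
    omega
  · intro r _
    omega
  · intro r hr
    rw [Finset.mem_Icc] at hr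
    have h1 : r - 1 + 1 = r := by omega
    have h2 : n - 1 - (r - 1) = n - r := by omega
    rw [h1, h2]

/-- The double count, re-indexed over `Finset.range n` (shape `N (m * (r + 1)) * A m (n - (r + 1))`). -/
theorem double_count_pow_range' (φ : Equiv.Perm X)
    (hfin : ∀ r : ℕ, 0 < r → {x : X | (φ ^ r) x = x}.Finite) (m : ℕ) (hm : 0 < m) (n : ℕ) :
    (n : ℤ) * countA φ m n =
      ∑ r ∈ Finset.range n, countN φ (m * (r + 1)) * countA φ m (n - (r + 1)) := by
  rw [double_count_pow_range φ hfin m hm n]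
  refine Finset.sum_congr rfl fun r _ => ?_
  rw [show n - 1 - r = n - (r + 1) by omega]

end

end Fermat.Agent.S27P.Zeta.DoubleCount
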