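import Mathlib
import Fermat.Agent.S27P.Zeta.Defs
import Fermat.Agent.S27P.Zeta.DoubleCount

/-!
# S27 / (Z), seam (Z-DCGEO): the double count at `X := Place k F`

One application of the abstract double count `DoubleCount.double_count` (a permutation of a set)
to the permutation `v ↦ φ • v` of the places of a function field `F/k` in the setting `IsFF1`
(all places of degree one, so that `Divisor.degree` is the total degree):

* `card_fixEff_zero` : `A_0 = 1`;
* `finite_fixEff` : the `φ`-fixed effective divisors of degree `n` are finitely many;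
* `double_count_geo` : `n · A_n = ∑_{r=1}^{n} N_r · A_{n-r}`,
  `A_n = #(fixEff φ n)`, `N_r = #(fixPlaces (φ ^ r))`.
-/

set_option autoImplicit false

namespace Fermat.Agent.S27P.Zeta.DoubleCountGeo

open AlgebraicCurve Fermat.Agent.Lib.FF Fermat.Agent.S27P.Zeta

universe u v

variable {k : Type u} {F : Type v} [Field k] [Field F] [Algebra k F]

/-- The permutation of the places induced by a semilinear automorphism. -/
noncomputable def placePerm (φ : SemilinearAut k F) : Equiv.Perm (Place k F) := MulAction.toPerm φ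

theorem placePerm_apply (φ : SemilinearAut k F) (v : Place k F) : placePerm φ v = φ • v := rfl

theorem placePerm_pow (φ : SemilinearAut k F) (r : ℕ) : placePerm φ ^ r = placePerm (φ ^ r) :=
  (map_pow (MulAction.toPermHom (SemilinearAut k F) (Place k F)) φ r).symm

theorem placePerm_pow_apply (φ : SemilinearAut k F) (r : ℕ) (v : Place k F) :
    (placePerm φ ^ r) v = (φ ^ r) • v := by
  rw [placePerm_pow, placePerm_apply]

/-- The fixed points of `(placePerm φ) ^ r` are the `φ ^ r`-fixed places. -/
theorem setOf_placePerm_pow_eq (φ : SemilinearAut k F) (r : ℕ) :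
    {v : Place k F | (placePerm φ ^ r) v = v} = fixPlaces (φ ^ r) := by
  ext v
  show (placePerm φ ^ r) v = v ↔ v ∈ fixPlaces (φ ^ r)
  rw [placePerm_pow_apply, mem_fixPlaces]

theorem natCard_placePerm_pow_eq (φ : SemilinearAut k F) (r : ℕ) :
    Nat.card {v : Place k F // (placePerm φ ^ r) v = v} = Nat.card (fixPlaces (φ ^ r)) := by
  have h := setOf_placePerm_pow_eq φ r
  exact congrArg (fun S : Set (Place k F) => Nat.card S) h

/-- In the setting `IsFF1` the `φ`-fixed effective divisors of degree `n` are the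
`placePerm φ`-fixed effective divisors of total degree `n` of the abstract double count. -/
theorem fixEff_eq {x : F} (h : IsFF1 k F x) (φ : SemilinearAut k F) (n : ℕ) :
    fixEff φ n = DoubleCount.fixedEff (placePerm φ) n := by
  ext E
  have hdeg : Divisor.degree E = E.sum fun _ a => a := by
    rw [h.degree_eq_sum]
    rfl
  have hsmul : φ • E = Finsupp.mapDomain (placePerm φ) E := rfl
  rw [mem_fixEff, hdeg, hsmul]
  show _ ↔ (0 ≤ E ∧ Finsupp.mapDomain (placePerm φ) E = E ∧ (E.sum fun _ a => a) = (n : ℤ))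
  constructor
  · rintro ⟨h0, h1, h2⟩
    exact ⟨h0, h2, h1⟩
  · rintro ⟨h0, h1, h2⟩
    exact ⟨h0, h2, h1⟩

/-- `A_0 = 1`: the only fixed effective divisor of degree `0` is `0`. -/
theorem card_fixEff_zero {x : F} (h : IsFF1 k F x) (φ : SemilinearAut k F) :
    Nat.card (fixEff φ 0) = 1 := by
  rw [fixEff_eq h]
  exact DoubleCount.card_fixedEff_zero _

/-- The `φ`-fixed effective divisors of degree `n` are finitely many. -/
theorem finite_fixEff {x : F} (h : IsFF1 k F x) (φ : SemilinearAut k F)
    (hfin : ∀ r : ℕ, 0 < r → (fixPlaces (φ ^ r)).Finite) (n : ℕ) : (fixEff φ n).Finite := by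
  rw [fixEff_eq h]
  refine DoubleCount.finite_fixedEff _ (fun r hr => ?_) n
  rw [setOf_placePerm_pow_eq]
  exact hfin r hr

/-- **The double count at the places of `F/k`**: `n · A_n = ∑_{r=1}^{n} N_r · A_{n-r}`. -/
theorem double_count_geo {x : F} (h : IsFF1 k F x) (φ : SemilinearAut k F)
    (hfin : ∀ r : ℕ, 0 < r → (fixPlaces (φ ^ r)).Finite) (n : ℕ) :
    (n : ℤ) * (Nat.card (fixEff φ n) : ℤ) =
      ∑ r ∈ Finset.Icc 1 n, (Nat.card (fixPlaces (φ ^ r)) : ℤ) *
        (Nat.card (fixEff φ (n - r)) : ℤ) := by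
  have hfin' : ∀ r : ℕ, 0 < r → {v : Place k F | (placePerm φ ^ r) v = v}.Finite := by
    intro r hr
    rw [setOf_placePerm_pow_eq]
    exact hfin r hr
  have hdc := DoubleCount.double_count (placePerm φ) hfin' n
  rw [fixEff_eq h, hdc]
  refine Finset.sum_congr rfl fun r _ => ?_
  rw [natCard_placePerm_pow_eq, fixEff_eq h]

/-- The double count for the family `(φ ^ m)`: the shape consumed by the algebra of (Z). -/
theorem double_count_geo_pow {x : F} (h : IsFF1 k F x) (φ : SemilinearAut k F)
    (hfin : ∀ r : ℕ, 0 < r → (fixPlaces (φ ^ r)).Finite) (m : ℕ) (hm : 0 < m) (n : ℕ) :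
    (n : ℤ) * (Nat.card (fixEff (φ ^ m) n) : ℤ) =
      ∑ r ∈ Finset.Icc 1 n, (Nat.card (fixPlaces (φ ^ (m * r))) : ℤ) *
        (Nat.card (fixEff (φ ^ m) (n - r)) : ℤ) := by
  have hfin' : ∀ r : ℕ, 0 < r → (fixPlaces ((φ ^ m) ^ r)).Finite := by
    intro r hr
    rw [← pow_mul]
    exact hfin (m * r) (Nat.mul_pos hm hr)
  rw [double_count_geo h (φ ^ m) hfin' n]
  refine Finset.sum_congr rfl fun r _ => ?_
  rw [← pow_mul]

end Fermat.Agent.S27P.Zeta.DoubleCountGeo
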