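/-
S27 / (Z), brick (Z0) (helper5): **existence of the Frobenius structure** on a function field of
one variable over an algebraic closure of `𝔽_p`.

`Ft/k`, `k` perfect of characteristic `p`, every element of `k` fixed by a power of the Frobenius
(`k` algebraic over `𝔽_p`), `x ∈ Ft` transcendental with `Ft` finite over `k(x)`.  Then there are
`n > 0` and a semilinear automorphism `φ` of `Ft/k` (Prelude `SemilinearAut k Ft`) which is
`c ↦ c ^ (p ^ n)` on `k`, fixes `x` (and any prescribed finite set of functions), and has finite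
orbits on `Ft`.

Construction: `φ₀` := the coefficientwise Frobenius on `k(x) ≃ RatFunc k`; `b` a `k(x)`-basis of
`Ft`; `φ (∑ aᵢ bᵢ) := ∑ φ₀(aᵢ) bᵢ`.  It is a ring automorphism as soon as `φ₀` fixes the
coordinates of the products `bᵢ bⱼ` and of `1`.
-/
import Mathlib
import Fermat.Prelude.Def_AlgebraicCurve_BaseChangeGalois

set_option autoImplicit false

noncomputable section

namespace Fermat.Agent.S27P.Zeta.FrobStruct

open AlgebraicCurve IntermediateField Polynomial

/-! ### Coefficientwise automorphisms of `RatFunc k` -/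

section RatMap

variable {k : Type*} [Field k]

/-- The automorphism of `RatFunc k` induced by an automorphism of `k` on the coefficients. -/
def ratMap (σ : k ≃+* k) : RatFunc k ≃+* RatFunc k :=
  IsFractionRing.ringEquivOfRingEquiv (Polynomial.mapEquiv σ)

theorem ratMap_algebraMap (σ : k ≃+* k) (P : k[X]) :
    ratMap σ (algebraMap k[X] (RatFunc k) P) = algebraMap k[X] (RatFunc k) (P.map (σ : k →+* k)) :=
  IsFractionRing.ringEquivOfRingEquiv_algebraMap (Polynomial.mapEquiv σ) P

theorem ratMap_C (σ : k ≃+* k) (c : k) : ratMap σ (RatFunc.C c) = RatFunc.C (σ c) := by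
  rw [← RatFunc.algebraMap_C, ratMap_algebraMap, Polynomial.map_C, RatFunc.algebraMap_C]
  rfl

theorem ratMap_X (σ : k ≃+* k) : ratMap σ (RatFunc.X : RatFunc k) = RatFunc.X := by
  rw [← RatFunc.algebraMap_X, ratMap_algebraMap, Polynomial.map_X]

/-- Iterates of the coefficientwise map on polynomials. -/
theorem iterate_map_coeff (σ : k ≃+* k) (m : ℕ) (P : k[X]) (i : ℕ) :
    ((fun Q : k[X] => Q.map (σ : k →+* k))^[m] P).coeff i = (σ^[m]) (P.coeff i) := by
  induction m generalizing P with
  | zero => rfl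
  | succ m ih =>
    rw [Function.iterate_succ_apply, ih, Polynomial.coeff_map, Function.iterate_succ_apply]
    rfl

/-- Iterates of `ratMap` on a quotient of polynomials. -/
theorem iterate_ratMap_div (σ : k ≃+* k) (m : ℕ) (P Q : k[X]) :
    (ratMap σ)^[m] (algebraMap k[X] (RatFunc k) P / algebraMap k[X] (RatFunc k) Q) =
      algebraMap k[X] (RatFunc k) ((fun Q : k[X] => Q.map (σ : k →+* k))^[m] P) /
        algebraMap k[X] (RatFunc k) ((fun Q : k[X] => Q.map (σ : k →+* k))^[m] Q) := by
  induction m generalizing P Q with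
  | zero => rfl
  | succ m ih =>
    rw [Function.iterate_succ_apply, map_div₀, ratMap_algebraMap, ratMap_algebraMap, ih,
      Function.iterate_succ_apply, Function.iterate_succ_apply]

/-- If `σ^[m]` fixes the coefficients of the numerator and of the denominator of `u`, then
`(ratMap σ)^[m]` fixes `u`. -/
theorem iterate_ratMap_eq_self (σ : k ≃+* k) (m : ℕ) (u : RatFunc k)
    (hnum : ∀ i, (σ^[m]) (u.num.coeff i) = u.num.coeff i)
    (hden : ∀ i, (σ^[m]) (u.denom.coeff i) = u.denom.coeff i) :
    (ratMap σ)^[m] u = u := by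
  conv_lhs => rw [← RatFunc.num_div_denom u]
  rw [iterate_ratMap_div]
  have h1 : (fun Q : k[X] => Q.map (σ : k →+* k))^[m] u.num = u.num :=
    Polynomial.ext fun i => by rw [iterate_map_coeff, hnum]
  have h2 : (fun Q : k[X] => Q.map (σ : k →+* k))^[m] u.denom = u.denom :=
    Polynomial.ext fun i => by rw [iterate_map_coeff, hden]
  rw [h1, h2, RatFunc.num_div_denom]

end RatMap

/-! ### The induced automorphism of `k(x)` -/

section AdjMap

variable {k Ft : Type*} [Field k] [Field Ft] [Algebra k Ft] {x : Ft} (hx : Transcendental k x)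

/-- The automorphism of `k(x)` induced by an automorphism of `k` on the coefficients. -/
def adjMap (σ : k ≃+* k) : k⟮x⟯ ≃+* k⟮x⟯ :=
  (RatFunc.algEquivOfTranscendental x hx).symm.toRingEquiv.trans
    ((ratMap σ).trans (RatFunc.algEquivOfTranscendental x hx).toRingEquiv)

theorem adjMap_apply (σ : k ≃+* k) (a : k⟮x⟯) :
    adjMap hx σ a = RatFunc.algEquivOfTranscendental x hx
      (ratMap σ ((RatFunc.algEquivOfTranscendental x hx).symm a)) := rfl

theorem adjMap_algebraMap (σ : k ≃+* k) (c : k) :
    adjMap hx σ (algebraMap k k⟮x⟯ c) = algebraMap k k⟮x⟯ (σ c) := by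
  rw [adjMap_apply, AlgEquiv.commutes, RatFunc.algebraMap_eq_C, ratMap_C, ← RatFunc.algebraMap_eq_C,
    AlgEquiv.commutes]

theorem iterate_adjMap (σ : k ≃+* k) (m : ℕ) (a : k⟮x⟯) :
    (adjMap hx σ)^[m] a = RatFunc.algEquivOfTranscendental x hx
      ((ratMap σ)^[m] ((RatFunc.algEquivOfTranscendental x hx).symm a)) := by
  induction m generalizing a with
  | zero => simp
  | succ m ih =>
    rw [Function.iterate_succ_apply, ih, adjMap_apply, AlgEquiv.symm_apply_apply,
      Function.iterate_succ_apply]

theorem iterate_adjMap_eq_self (σ : k ≃+* k) (m : ℕ) (a : k⟮x⟯)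
    (hnum : ∀ i, (σ^[m]) (((RatFunc.algEquivOfTranscendental x hx).symm a).num.coeff i) =
      ((RatFunc.algEquivOfTranscendental x hx).symm a).num.coeff i)
    (hden : ∀ i, (σ^[m]) (((RatFunc.algEquivOfTranscendental x hx).symm a).denom.coeff i) =
      ((RatFunc.algEquivOfTranscendental x hx).symm a).denom.coeff i) :
    (adjMap hx σ)^[m] a = a := by
  rw [iterate_adjMap, iterate_ratMap_eq_self σ m _ hnum hden, AlgEquiv.apply_symm_apply]

end AdjMap

/-! ### Periods under the Frobenius -/

section Frob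

variable {k : Type*} [Field k] (p : ℕ) [Fact p.Prime] [CharP k p] [PerfectRing k p]

theorem iterate_iterateFrobeniusEquiv (n m : ℕ) (c : k) :
    ((iterateFrobeniusEquiv k p n)^[m]) c = c ^ (p ^ (n * m)) := by
  induction m with
  | zero => simp
  | succ m ih =>
    rw [Function.iterate_succ_apply', ih, iterateFrobeniusEquiv_def, ← pow_mul, ← pow_add,
      Nat.mul_succ]

omit [Fact p.Prime] [CharP k p] [PerfectRing k p] in
theorem pow_pow_mul_eq_self {c : k} {m : ℕ} (h : c ^ (p ^ m) = c) (t : ℕ) :
    c ^ (p ^ (m * t)) = c := by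
  induction t with
  | zero => simp
  | succ t ih => rw [Nat.mul_succ, pow_add, pow_mul, ih, h]

variable (halg : ∀ c : k, ∃ m : ℕ, 0 < m ∧ c ^ (p ^ m) = c)

/-- A period of `c` under the Frobenius. -/
def per (c : k) : ℕ := (halg c).choose

omit [Fact p.Prime] [CharP k p] [PerfectRing k p] in
theorem per_pos (c : k) : 0 < per p halg c := (halg c).choose_spec.1

omit [Fact p.Prime] [CharP k p] [PerfectRing k p] in
theorem pow_eq_self_of_per_dvd (c : k) {N : ℕ} (h : per p halg c ∣ N) : c ^ (p ^ N) = c := by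
  obtain ⟨t, rfl⟩ := h
  exact pow_pow_mul_eq_self p (halg c).choose_spec.2 t

/-- A common period of the coefficients of a polynomial. -/
def perPoly (P : k[X]) : ℕ := ∏ i ∈ P.support, per p halg (P.coeff i)

omit [Fact p.Prime] [CharP k p] [PerfectRing k p] in
theorem perPoly_pos (P : k[X]) : 0 < perPoly p halg P :=
  Finset.prod_pos fun _ _ => per_pos p halg _

include halg in
omit [CharP k p] [PerfectRing k p] in
theorem coeff_pow_eq_self (P : k[X]) {N : ℕ} (h : perPoly p halg P ∣ N) (i : ℕ) :
    P.coeff i ^ (p ^ N) = P.coeff i := by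
  by_cases hi : i ∈ P.support
  · exact pow_eq_self_of_per_dvd p halg _ ((Finset.dvd_prod_of_mem _ hi).trans h)
  · rw [Polynomial.notMem_support_iff.1 hi, zero_pow]
    exact pow_ne_zero _ (Fact.out : p.Prime).ne_zero

end Frob

section FrobAdj

variable {k Ft : Type*} [Field k] [Field Ft] [Algebra k Ft] {x : Ft} (hx : Transcendental k x)
  (p : ℕ) [Fact p.Prime] [CharP k p] [PerfectRing k p]
  (halg : ∀ c : k, ∃ m : ℕ, 0 < m ∧ c ^ (p ^ m) = c)

/-- A common period of the coefficients of an element of `k(x)`. -/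
def perAdj (a : k⟮x⟯) : ℕ :=
  perPoly p halg ((RatFunc.algEquivOfTranscendental x hx).symm a).num *
    perPoly p halg ((RatFunc.algEquivOfTranscendental x hx).symm a).denom

omit [Fact p.Prime] [CharP k p] [PerfectRing k p] in
theorem perAdj_pos (a : k⟮x⟯) : 0 < perAdj hx p halg a :=
  Nat.mul_pos (perPoly_pos p halg _) (perPoly_pos p halg _)

theorem frob_iterate_adjMap_eq_self (n m : ℕ) (a : k⟮x⟯) (h : perAdj hx p halg a ∣ n * m) :
    (adjMap hx (iterateFrobeniusEquiv k p n))^[m] a = a := by
  refine iterate_adjMap_eq_self hx _ m a (fun i => ?_) (fun i => ?_)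
  · rw [iterate_iterateFrobeniusEquiv]
    exact coeff_pow_eq_self p halg _ ((Dvd.intro _ rfl).trans h) i
  · rw [iterate_iterateFrobeniusEquiv]
    exact coeff_pow_eq_self p halg _ ((Dvd.intro_left _ rfl).trans h) i

end FrobAdj

/-! ### Extension to `Ft` along a basis -/

section BasisMap

variable {K' Ft : Type*} [Field K'] [Field Ft] [Algebra K' Ft] {ι : Type*} [Fintype ι]
  (b : Module.Basis ι K' Ft) (θ : K' ≃+* K')

/-- The `θ`-semilinear map fixing the basis `b`. -/
def basisMap (f : Ft) : Ft := ∑ i, θ (b.repr f i) • b i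

theorem basisMap_add (f g : Ft) : basisMap b θ (f + g) = basisMap b θ f + basisMap b θ g := by
  simp only [basisMap, map_add, Finsupp.add_apply, add_smul, Finset.sum_add_distrib]

theorem basisMap_zero : basisMap b θ 0 = 0 := by
  simp [basisMap]

/-- `basisMap` as an additive map. -/
def basisMapHom : Ft →+ Ft where
  toFun := basisMap b θ
  map_zero' := basisMap_zero b θ
  map_add' := basisMap_add b θ

theorem basisMap_smul (a : K') (f : Ft) : basisMap b θ (a • f) = θ a • basisMap b θ f := by
  simp only [basisMap, map_smul, Finsupp.smul_apply, smul_eq_mul, map_mul, Finset.smul_sum,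
    mul_smul]

theorem repr_basisMap (f : Ft) (i : ι) : b.repr (basisMap b θ f) i = θ (b.repr f i) := by
  unfold basisMap
  rw [Module.Basis.repr_sum_self]

theorem basisMap_eq_self (f : Ft) (h : ∀ i, θ (b.repr f i) = b.repr f i) :
    basisMap b θ f = f := by
  unfold basisMap
  simp only [h]
  exact b.sum_repr f

theorem basisMap_symm_basisMap (f : Ft) : basisMap b θ.symm (basisMap b θ f) = f := by
  refine b.repr.injective (Finsupp.ext fun i => ?_)
  rw [repr_basisMap, repr_basisMap, RingEquiv.symm_apply_apply]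

theorem basisMap_basisMap_symm (f : Ft) : basisMap b θ (basisMap b θ.symm f) = f := by
  refine b.repr.injective (Finsupp.ext fun i => ?_)
  rw [repr_basisMap, repr_basisMap, RingEquiv.apply_symm_apply]

theorem basisMap_mul (h1 : ∀ i j, basisMap b θ (b i * b j) = b i * b j) (f g : Ft) :
    basisMap b θ (f * g) = basisMap b θ f * basisMap b θ g := by
  have e : f * g = ∑ i, ∑ j, (b.repr f i * b.repr g j) • (b i * b j) := by
    conv_lhs => rw [← b.sum_repr f, ← b.sum_repr g]
    rw [Finset.sum_mul_sum]
    simp only [smul_mul_smul_comm]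
  have e' : basisMap b θ f * basisMap b θ g =
      ∑ i, ∑ j, (θ (b.repr f i) * θ (b.repr g j)) • (b i * b j) := by
    unfold basisMap
    rw [Finset.sum_mul_sum]
    simp only [smul_mul_smul_comm]
  rw [e', e]
  show basisMapHom b θ _ = _
  rw [map_sum]
  refine Finset.sum_congr rfl fun i _ => ?_
  rw [map_sum]
  refine Finset.sum_congr rfl fun j _ => ?_
  show basisMap b θ _ = _
  rw [basisMap_smul, h1, map_mul]

theorem iterate_basisMap (m : ℕ) (f : Ft) :
    (basisMap b θ)^[m] f = ∑ i, (θ^[m]) (b.repr f i) • b i := by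
  induction m generalizing f with
  | zero => exact (b.sum_repr f).symm
  | succ m ih =>
    rw [Function.iterate_succ_apply, ih]
    refine Finset.sum_congr rfl fun i _ => ?_
    rw [repr_basisMap, Function.iterate_succ_apply]

/-- The ring automorphism of `Ft` extending `θ` and fixing the basis. -/
def basisRingEquiv (h1 : ∀ i j, basisMap b θ (b i * b j) = b i * b j) : Ft ≃+* Ft where
  toFun := basisMap b θ
  invFun := basisMap b θ.symm
  left_inv := basisMap_symm_basisMap b θ
  right_inv := basisMap_basisMap_symm b θ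
  map_mul' := basisMap_mul b θ h1
  map_add' := basisMap_add b θ

end BasisMap

/-! ### The Frobenius structure -/

section Main

variable {k Ft : Type*} [Field k] [Field Ft] [Algebra k Ft]

/-- `k` algebraic over `𝔽_p`: every element is fixed by a power of the Frobenius. -/
theorem halg_of_isAlgebraic (p : ℕ) [Fact p.Prime] [CharP k p] [Algebra (ZMod p) k]
    [Algebra.IsAlgebraic (ZMod p) k] (c : k) : ∃ m : ℕ, 0 < m ∧ c ^ (p ^ m) = c := by
  have hc : IsIntegral (ZMod p) c := (Algebra.IsAlgebraic.isAlgebraic c).isIntegral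
  have : FiniteDimensional (ZMod p) (ZMod p)⟮c⟯ := IntermediateField.adjoin.finiteDimensional hc
  have : Finite (ZMod p)⟮c⟯ := Module.finite_of_finite (ZMod p)
  let _ : Fintype (ZMod p)⟮c⟯ := Fintype.ofFinite _
  obtain ⟨m, -, hm⟩ := FiniteField.card (ZMod p)⟮c⟯ p
  refine ⟨m, m.pos, ?_⟩
  have h := FiniteField.pow_card (⟨c, IntermediateField.mem_adjoin_simple_self _ c⟩ : (ZMod p)⟮c⟯)
  rw [hm] at h
  exact congrArg Subtype.val h

/-- **(Z0) Existence of the Frobenius structure.** -/
theorem exists_frobenius_structure (p : ℕ) [Fact p.Prime] [CharP k p] [PerfectRing k p]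
    (halg : ∀ c : k, ∃ m : ℕ, 0 < m ∧ c ^ (p ^ m) = c)
    (x : Ft) (hx : Transcendental k x) [FiniteDimensional k⟮x⟯ Ft] (S : Finset Ft) :
    ∃ (n : ℕ) (φ : SemilinearAut k Ft), 0 < n ∧
      (∀ c : k, SemilinearAut.baseAut φ c = c ^ (p ^ n)) ∧
      φ • x = x ∧ (∀ f ∈ S, φ • f = f) ∧
      (∀ f : Ft, ∃ m : ℕ, 0 < m ∧ (φ ^ m) • f = f) := by
  classical
  set b := Module.finBasis k⟮x⟯ Ft with hb
  -- the period of a function
  let perFt : Ft → ℕ := fun f => ∏ i, perAdj hx p halg (b.repr f i)
  have perFt_pos : ∀ f, 0 < perFt f := fun f => Finset.prod_pos fun _ _ => perAdj_pos hx p halg _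
  have perFt_dvd : ∀ f i, perAdj hx p halg (b.repr f i) ∣ perFt f := fun f i =>
    Finset.dvd_prod_of_mem _ (Finset.mem_univ i)
  -- the finitely many functions to be fixed
  let T : Finset Ft := (Finset.univ.image fun ij : Fin (Module.finrank k⟮x⟯ Ft) ×
    Fin (Module.finrank k⟮x⟯ Ft) => b ij.1 * b ij.2) ∪ insert 1 (insert x S)
  set n : ℕ := ∏ h ∈ T, perFt h with hn
  have hn0 : 0 < n := Finset.prod_pos fun _ _ => perFt_pos _
  set θ := adjMap hx (iterateFrobeniusEquiv k p n) with hθ
  -- `θ` fixes the coordinates of the elements of `T`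
  have hfix : ∀ h ∈ T, basisMap b θ h = h := by
    intro h hT
    refine basisMap_eq_self b θ h fun i => ?_
    have h1 := frob_iterate_adjMap_eq_self hx p halg n 1 (b.repr h i)
      (by rw [mul_one]; exact (perFt_dvd h i).trans (Finset.dvd_prod_of_mem _ hT))
    exact h1
  have hmulT : ∀ i j, basisMap b θ (b i * b j) = b i * b j := fun i j =>
    hfix _ (Finset.mem_union_left _ (Finset.mem_image.2 ⟨(i, j), Finset.mem_univ _, rfl⟩))
  have hone : basisMap b θ 1 = 1 :=
    hfix _ (Finset.mem_union_right _ (Finset.mem_insert_self _ _))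
  have hxfix : basisMap b θ x = x :=
    hfix _ (Finset.mem_union_right _ (Finset.mem_insert_of_mem (Finset.mem_insert_self _ _)))
  have hS : ∀ f ∈ S, basisMap b θ f = f := fun f hf =>
    hfix _ (Finset.mem_union_right _ (Finset.mem_insert_of_mem (Finset.mem_insert_of_mem hf)))
  -- the semilinear automorphism
  have hcompat : ∀ c : k, basisRingEquiv b θ hmulT (algebraMap k Ft c) =
      algebraMap k Ft (iterateFrobeniusEquiv k p n c) := by
    intro c
    show basisMap b θ (algebraMap k Ft c) = _
    have e : ∀ a : k⟮x⟯, algebraMap k⟮x⟯ Ft a = a • (1 : Ft) := fun a =>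
      Algebra.algebraMap_eq_smul_one a
    rw [IsScalarTower.algebraMap_apply k k⟮x⟯ Ft c, e, basisMap_smul, hone, hθ, adjMap_algebraMap,
      IsScalarTower.algebraMap_apply k k⟮x⟯ Ft (iterateFrobeniusEquiv k p n c), e]
  let φ : SemilinearAut k Ft := ⟨(basisRingEquiv b θ hmulT, iterateFrobeniusEquiv k p n), hcompat⟩
  have hφ : ∀ f : Ft, φ • f = basisMap b θ f := fun _ => rfl
  refine ⟨n, φ, hn0, fun c => rfl, (hφ x).trans hxfix, fun f hf => (hφ f).trans (hS f hf),
    fun f => ⟨perFt f, perFt_pos f, ?_⟩⟩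
  have e1 : (φ ^ perFt f) • f = (basisMap b θ)^[perFt f] f := by
    have h2 := congrFun (smul_iterate φ (perFt f)) f
    rw [← h2]
    rfl
  rw [e1, iterate_basisMap]
  have e2 : ∀ i, (θ^[perFt f]) (b.repr f i) = b.repr f i := fun i =>
    frob_iterate_adjMap_eq_self hx p halg n (perFt f) (b.repr f i)
      ((perFt_dvd f i).trans (Dvd.intro_left _ rfl))
  simp only [e2]
  exact b.sum_repr f

/-- The powers of a Frobenius structure are Frobenius structures. -/
theorem baseAut_pow {p n : ℕ} {φ : SemilinearAut k Ft}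
    (h : ∀ c : k, SemilinearAut.baseAut φ c = c ^ (p ^ n)) (m : ℕ) (c : k) :
    SemilinearAut.baseAut (φ ^ m) c = c ^ (p ^ (n * m)) := by
  induction m generalizing c with
  | zero => simp
  | succ m ih =>
    rw [pow_succ, SemilinearAut.baseAut_mul, RingAut.mul_apply, h, ih, ← pow_mul, ← pow_add,
      Nat.mul_succ, add_comm]

end Main

end Fermat.Agent.S27P.Zeta.FrobStruct
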