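import Mathlib

/-!
# Fixed points of injective `q`-semilinear maps over an algebraically closed field

(Lang's theorem for `GL_d`, elementary form.)  Let `k` be an algebraically closed field of
characteristic `p`, `q = p ^ n` with `0 < n`, `V` a finite dimensional `k`-vector space and
`φ : V →+ V` an injective additive map with `φ (c • v) = c ^ q • φ v`.  Then `V` has a basis of
`φ`-fixed vectors, the fixed points form a set of cardinality `q ^ dim V`, and the same count
holds on every finite dimensional `φ`-stable subspace of an arbitrary `k`-vector space.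
-/

set_option autoImplicit false

namespace Fermat.Agent.S27P.Zeta.SemilinFix

open Polynomial

section Poly

variable {k : Type*} [Field k]

/-- The additive polynomials `P₀ = c₀ X^q`, `P_{i+1} = P_i^q + c_{i+1} X^q`. -/
noncomputable def addPoly (q : ℕ) (c : ℕ → k) : ℕ → k[X]
  | 0 => C (c 0) * X ^ q
  | (i + 1) => (addPoly q c i) ^ q + C (c (i + 1)) * X ^ q

theorem addPoly_zero (q : ℕ) (c : ℕ → k) : addPoly q c 0 = C (c 0) * X ^ q := rfl

theorem addPoly_succ (q : ℕ) (c : ℕ → k) (i : ℕ) :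
    addPoly q c (i + 1) = (addPoly q c i) ^ q + C (c (i + 1)) * X ^ q := rfl

theorem derivative_addPoly {q : ℕ} (hq0 : (q : k) = 0) (c : ℕ → k) (i : ℕ) :
    derivative (addPoly q c i) = 0 := by
  have hX : derivative (X ^ q : k[X]) = 0 := by rw [derivative_X_pow, hq0, C_0, zero_mul]
  induction i with
  | zero => rw [addPoly_zero, derivative_C_mul, hX, mul_zero]
  | succ i ih =>
    rw [addPoly_succ, derivative_add, derivative_C_mul, hX, mul_zero, add_zero, derivative_pow,
      ih, mul_zero]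

theorem eval_zero_addPoly {q : ℕ} (hq : q ≠ 0) (c : ℕ → k) (i : ℕ) :
    eval 0 (addPoly q c i) = 0 := by
  induction i with
  | zero => simp [addPoly_zero, hq]
  | succ i ih => simp [addPoly_succ, ih, hq]

theorem coeff_one_addPoly {q : ℕ} (hq0 : (q : k) = 0) (c : ℕ → k) (i : ℕ) :
    (addPoly q c i).coeff 1 = 0 := by
  have h := coeff_derivative (addPoly q c i) 0
  rw [derivative_addPoly hq0] at h
  simpa using h.symm

theorem coeff_pow_addPoly {q : ℕ} (hq0 : (q : k) = 0) (hq : q ≠ 0) (c : ℕ → k) (i : ℕ) :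
    ((addPoly q c i) ^ q).coeff q = 0 := by
  have h0 : (addPoly q c i).coeff 0 = 0 := by
    rw [coeff_zero_eq_eval_zero]; exact eval_zero_addPoly hq c i
  obtain ⟨R, hR⟩ := X_dvd_iff.2 h0
  have hR0 : R.coeff 0 = 0 := by
    have h1 := coeff_one_addPoly hq0 c i
    rw [hR] at h1
    have h2 := coeff_X_mul R 0
    rw [zero_add] at h2
    rw [← h2, h1]
  rw [hR, mul_pow]
  have h3 := coeff_X_pow_mul (R ^ q) q 0
  rw [zero_add] at h3
  rw [h3, coeff_zero_eq_eval_zero, eval_pow, ← coeff_zero_eq_eval_zero, hR0, zero_pow hq]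

theorem coeff_addPoly {q : ℕ} (hq0 : (q : k) = 0) (hq : q ≠ 0) (c : ℕ → k) (i : ℕ) :
    (addPoly q c i).coeff q = c i := by
  cases i with
  | zero => rw [addPoly_zero, coeff_C_mul_X_pow]; simp
  | succ i =>
    rw [addPoly_succ, coeff_add, coeff_pow_addPoly hq0 hq, coeff_C_mul_X_pow]; simp

theorem addPoly_eq_zero {q : ℕ} (hq0 : (q : k) = 0) (hq : q ≠ 0) (c : ℕ → k) (i : ℕ)
    (h : addPoly q c i = 0) : ∀ j, j ≤ i → c j = 0 := by
  induction i with
  | zero =>
    intro j hj
    obtain rfl : j = 0 := by omega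
    rw [← coeff_addPoly hq0 hq c 0, h, coeff_zero]
  | succ i ih =>
    have hc : c (i + 1) = 0 := by rw [← coeff_addPoly hq0 hq c (i + 1), h, coeff_zero]
    have hP : addPoly q c i = 0 := by
      rw [addPoly_succ, hc, C_0, zero_mul, add_zero] at h
      exact pow_eq_zero_iff hq |>.1 h
    intro j hj
    rcases Nat.lt_or_ge j (i + 1) with hlt | hge
    · exact ih hP j (by omega)
    · obtain rfl : j = i + 1 := by omega
      exact hc

theorem exists_root_ne_zero [IsAlgClosed k] {q : ℕ} (hq0 : (q : k) = 0) (hq : q ≠ 0)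
    (c : ℕ → k) (i : ℕ) (hne : addPoly q c i ≠ 0) :
    ∃ y : k, y ≠ 0 ∧ eval y (addPoly q c i) = y := by
  classical
  set P := addPoly q c i with hP
  have hd : derivative P = 0 := derivative_addPoly hq0 c i
  have h0 : P.coeff 0 = 0 := by
    rw [coeff_zero_eq_eval_zero]; exact eval_zero_addPoly hq c i
  have h1 : P.coeff 1 = 0 := coeff_one_addPoly hq0 c i
  have hdeg : 2 ≤ P.natDegree := by
    by_contra hlt
    rw [not_le] at hlt
    apply hne
    ext m
    rcases m with _ | _ | m
    · simpa using h0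
    · simpa using h1
    · rw [coeff_eq_zero_of_natDegree_lt (by omega)]; simp
  set G := P - X with hG
  have hGd : derivative G = -1 := by simp [hG, hd]
  have hsep : G.Separable := by
    rw [separable_def, hGd]
    exact isCoprime_one_right.neg_right
  have hGdeg : G.natDegree = P.natDegree :=
    natDegree_sub_eq_left_of_natDegree_lt (by rw [natDegree_X]; omega)
  have hcard : G.roots.card = G.natDegree := splits_iff_card_roots.1 (IsAlgClosed.splits G)
  have hnodup : G.roots.Nodup := nodup_roots hsep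
  have hex : ∃ y ∈ G.roots.toFinset, y ≠ 0 := by
    apply Finset.exists_mem_ne
    rw [Multiset.toFinset_card_of_nodup hnodup, hcard, hGdeg]; omega
  obtain ⟨y, hy, hy0⟩ := hex
  refine ⟨y, hy0, ?_⟩
  have hroot : G.IsRoot y := isRoot_of_mem_roots (Multiset.mem_toFinset.1 hy)
  have : eval y P - y = 0 := by simpa [hG, IsRoot] using hroot
  exact sub_eq_zero.1 this

end Poly

section Core

variable {k : Type*} [Field k] [IsAlgClosed k] {q : ℕ}
variable {V : Type*} [AddCommGroup V] [Module k V] [FiniteDimensional k V]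

/-- Key step: if `W ≠ ⊤` is stable under `φ` and under `φ`-preimages, then some vector outside
`W` is moved by `φ` by an element of `W`. -/
theorem exists_not_mem_sub_mem (hq0 : (q : k) = 0) (hq : q ≠ 0) (φ : V →+ V)
    (hφ : ∀ (c : k) (v : V), φ (c • v) = c ^ q • φ v)
    (W : Submodule k V) (hW2 : ∀ u, φ u ∈ W → u ∈ W) (hne : W ≠ ⊤) :
    ∃ w, w ∉ W ∧ φ w - w ∈ W := by
  classical
  obtain ⟨v, hv⟩ : ∃ v, v ∉ W := by
    by_contra h
    exact hne (eq_top_iff.2 fun x _ => by_contra fun hx => h ⟨x, hx⟩)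
  set orb : ℕ → V := fun i => φ^[i] v with horb
  have horb_succ : ∀ i, orb (i + 1) = φ (orb i) := fun i => Function.iterate_succ_apply' φ i v
  have horb_notin : ∀ i, orb i ∉ W := by
    intro i
    induction i with
    | zero => exact hv
    | succ i ih => rw [horb_succ]; exact fun h => ih (hW2 _ h)
  let U : ℕ → Submodule k V := fun j => W ⊔ Submodule.span k (Set.range fun i : Fin j => orb i)
  have hUmono : Monotone U := by
    intro j j' hjj'
    refine sup_le_sup_left (Submodule.span_mono ?_) W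
    rintro _ ⟨i, rfl⟩
    exact ⟨⟨i, lt_of_lt_of_le i.2 hjj'⟩, rfl⟩
  obtain ⟨N, hN⟩ := (monotone_stabilizes_iff_noetherian.2 (inferInstance : IsNoetherian k V))
    ⟨U, hUmono⟩
  have hex : ∃ j, orb j ∈ U j := by
    refine ⟨N, ?_⟩
    have h1 : orb N ∈ U (N + 1) :=
      Submodule.mem_sup_right (Submodule.subset_span ⟨⟨N, Nat.lt_succ_self N⟩, rfl⟩)
    have h2 : U N = U (N + 1) := hN (N + 1) (Nat.le_succ N)
    rw [h2]; exact h1
  set m := Nat.find hex with hm_def
  have hm : orb m ∈ U m := Nat.find_spec hex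
  have hmin : ∀ j, j < m → orb j ∉ U j := fun j hj => Nat.find_min hex hj
  obtain ⟨w₀, hw₀, s, hs, hsum⟩ := Submodule.mem_sup.1 hm
  obtain ⟨c, hc⟩ := (Submodule.mem_span_range_iff_exists_fun k).1 hs
  set c' : ℕ → k := fun i => if h : i < m then c ⟨i, h⟩ else 0 with hc'
  have hdec : orb m = w₀ + ∑ i ∈ Finset.range m, c' i • orb i := by
    rw [← hsum, ← hc, ← Fin.sum_univ_eq_sum_range (fun i => c' i • orb i) m]
    congr 1
    refine Finset.sum_congr rfl fun i _ => ?_
    simp [hc']
  clear_value m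
  rcases m with _ | m'
  · exfalso
    apply horb_notin 0
    rw [hdec, Finset.range_zero, Finset.sum_empty, add_zero]
    exact hw₀
  by_cases hP : addPoly q c' m' = 0
  · exfalso
    apply horb_notin (m' + 1)
    have hall := addPoly_eq_zero hq0 hq c' m' hP
    rw [hdec, Finset.sum_eq_zero, add_zero]
    · exact hw₀
    · intro i hi
      rw [hall i (by have := Finset.mem_range.1 hi; omega), zero_smul]
  obtain ⟨y, hy0, hy⟩ := exists_root_ne_zero hq0 hq c' m' hP
  set x : ℕ → k := fun i => eval y (addPoly q c' i) with hx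
  have hx0 : x 0 = c' 0 * y ^ q := by simp [hx, addPoly_zero]
  have hxs : ∀ i, x (i + 1) = (x i) ^ q + c' (i + 1) * y ^ q := by
    intro i; simp [hx, addPoly_succ]
  have hxm : x m' = y := hy
  set w : V := ∑ i ∈ Finset.range (m' + 1), x i • orb i with hw
  set A : V := ∑ i ∈ Finset.range m', (x i) ^ q • orb (i + 1) with hA
  set B : V := ∑ i ∈ Finset.range m', (c' (i + 1) * y ^ q) • orb (i + 1) with hB
  have e1 : φ w = A + y ^ q • orb (m' + 1) := by
    rw [hw, map_sum, Finset.sum_range_succ, hφ, hxm, ← horb_succ, hA]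
    congr 1
    refine Finset.sum_congr rfl fun i _ => ?_
    rw [hφ, ← horb_succ]
  have e2 : w = (A + B) + (c' 0 * y ^ q) • orb 0 := by
    rw [hw, Finset.sum_range_succ', hx0, hA, hB, ← Finset.sum_add_distrib]
    congr 1
    refine Finset.sum_congr rfl fun i _ => ?_
    rw [hxs, add_smul]
  have e3 : y ^ q • orb (m' + 1) = y ^ q • w₀ + (B + (c' 0 * y ^ q) • orb 0) := by
    rw [hdec, smul_add, Finset.smul_sum, Finset.sum_range_succ', hB]
    congr 2
    · refine Finset.sum_congr rfl fun i _ => ?_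
      rw [smul_smul, mul_comm]
    · rw [smul_smul, mul_comm]
  refine ⟨w, ?_, ?_⟩
  · intro hwW
    apply hmin m' (Nat.lt_succ_self m')
    set S : V := ∑ i ∈ Finset.range m', x i • orb i with hS
    have hS' : S ∈ Submodule.span k (Set.range fun i : Fin m' => orb i) :=
      Submodule.sum_mem _ fun i hi =>
        Submodule.smul_mem _ _ (Submodule.subset_span ⟨⟨i, Finset.mem_range.1 hi⟩, rfl⟩)
    have hwS : w = S + y • orb m' := by rw [hw, Finset.sum_range_succ, hxm]
    have horbm : orb m' = y⁻¹ • w - y⁻¹ • S := by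
      rw [hwS, smul_add, inv_smul_smul₀ hy0, add_sub_cancel_left]
    rw [horbm]
    exact Submodule.sub_mem _ (Submodule.mem_sup_left (W.smul_mem _ hwW))
      (Submodule.mem_sup_right (Submodule.smul_mem _ _ hS'))
  · have : φ w - w = y ^ q • w₀ := by
      rw [e1, e3, e2]
      abel
    rw [this]
    exact W.smul_mem _ hw₀

end Core

section Main

variable {k : Type*} [Field k] [IsAlgClosed k] {p : ℕ} [Fact p.Prime] [CharP k p] {q n : ℕ}

omit [IsAlgClosed k] [Fact p.Prime] in
theorem natCast_q_eq_zero (hn : 0 < n) (hq : q = p ^ n) : (q : k) = 0 := by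
  rw [hq, Nat.cast_pow, CharP.cast_eq_zero k p, zero_pow hn.ne']

omit [IsAlgClosed k] [CharP k p] in
theorem q_ne_zero (hq : q = p ^ n) : q ≠ 0 := by
  rw [hq]; exact pow_ne_zero _ (Fact.out : p.Prime).ne_zero

omit [IsAlgClosed k] [CharP k p] in
theorem one_lt_q (hn : 0 < n) (hq : q = p ^ n) : 1 < q := by
  rw [hq]; exact Nat.one_lt_pow hn.ne' (Fact.out : p.Prime).one_lt

/-- Artin–Schreier: `t ^ q - t = c` is solvable in an algebraically closed field. -/
theorem exists_pow_sub_self_eq (hq1 : 1 < q) (c : k) : ∃ t : k, t ^ q - t = c := by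
  have hdeg : (X ^ q - (X + C c) : k[X]).natDegree = q := by
    rw [natDegree_sub_eq_left_of_natDegree_lt, natDegree_X_pow]
    rw [natDegree_X_pow, natDegree_X_add_C]; exact hq1
  obtain ⟨t, ht⟩ := IsAlgClosed.exists_root (X ^ q - (X + C c) : k[X]) (by
    intro h
    have h' := natDegree_eq_zero_iff_degree_le_zero.2 h.le
    rw [hdeg] at h'
    omega)
  refine ⟨t, ?_⟩
  have h2 : t ^ q - (t + c) = 0 := by simpa [IsRoot] using ht
  rw [sub_eq_iff_eq_add, ← sub_eq_zero, ← h2]; ring

/-- The fixed points of `c ↦ c ^ q` form a set with `q` elements. -/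
theorem card_frob_fixed (hn : 0 < n) (hq : q = p ^ n) : Nat.card {c : k // c ^ q = c} = q := by
  classical
  have hsep : (X ^ q - X : k[X]).Separable :=
    galois_poly_separable p q (by rw [hq]; exact dvd_pow_self p hn.ne')
  have hdeg : (X ^ q - X : k[X]).natDegree = q := by
    rw [hq]; exact FiniteField.X_pow_card_pow_sub_X_natDegree_eq k hn.ne' (Fact.out : p.Prime).one_lt
  have hne : (X ^ q - X : k[X]) ≠ 0 := by
    intro h
    rw [h, natDegree_zero] at hdeg
    exact q_ne_zero hq hdeg.symm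
  have hcard : (X ^ q - X : k[X]).roots.card = q := by
    rw [splits_iff_card_roots.1 (IsAlgClosed.splits _), hdeg]
  rw [Nat.subtype_card (X ^ q - X : k[X]).roots.toFinset (p := fun c : k => c ^ q = c),
    Multiset.toFinset_card_of_nodup (nodup_roots hsep), hcard]
  intro x
  rw [Multiset.mem_toFinset, mem_roots hne]
  simp [IsRoot, sub_eq_zero]

variable {V : Type*} [AddCommGroup V] [Module k V]

/-- The `k`-span of the fixed vectors of an injective `q`-semilinear map is everything. -/
theorem span_fixed_eq_top [FiniteDimensional k V] (hn : 0 < n) (hq : q = p ^ n) (φ : V →+ V)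
    (hφ : ∀ (c : k) (v : V), φ (c • v) = c ^ q • φ v) (hinj : Function.Injective φ) :
    Submodule.span k {v : V | φ v = v} = ⊤ := by
  have hq0 : (q : k) = 0 := natCast_q_eq_zero hn hq
  have hqne : q ≠ 0 := q_ne_zero hq
  set W := Submodule.span k {v : V | φ v = v} with hW
  have hsurj : ∀ u ∈ W, ∃ z ∈ W, φ z = u := by
    intro u hu
    induction hu using Submodule.span_induction with
    | mem x hx => exact ⟨x, Submodule.subset_span hx, hx⟩
    | zero => exact ⟨0, W.zero_mem, map_zero φ⟩
    | add x y _ _ hx hy =>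
      obtain ⟨a, ha, rfl⟩ := hx
      obtain ⟨b, hb, rfl⟩ := hy
      exact ⟨a + b, W.add_mem ha hb, map_add φ a b⟩
    | smul c x _ hx =>
      obtain ⟨a, ha, rfl⟩ := hx
      obtain ⟨d, hd⟩ := IsAlgClosed.exists_pow_nat_eq c (Nat.pos_of_ne_zero hqne)
      exact ⟨d • a, W.smul_mem _ ha, by rw [hφ, hd]⟩
  have hW2 : ∀ u, φ u ∈ W → u ∈ W := by
    intro u hu
    obtain ⟨z, hz, hzu⟩ := hsurj _ hu
    rwa [← hinj hzu]
  have hAS : ∀ u ∈ W, ∀ c : k, ∃ z ∈ W, φ z - z = c • u := by
    intro u hu
    induction hu using Submodule.span_induction with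
    | mem x hx =>
      intro c
      obtain ⟨t, ht⟩ := exists_pow_sub_self_eq (one_lt_q hn hq) c
      have hx' : φ x = x := hx
      exact ⟨t • x, W.smul_mem _ (Submodule.subset_span hx), by rw [hφ, hx', ← sub_smul, ht]⟩
    | zero => intro c; exact ⟨0, W.zero_mem, by simp⟩
    | add x y _ _ hx hy =>
      intro c
      obtain ⟨a, ha, ha'⟩ := hx c
      obtain ⟨b, hb, hb'⟩ := hy c
      exact ⟨a + b, W.add_mem ha hb, by rw [map_add, smul_add, ← ha', ← hb']; abel⟩
    | smul d x _ hx =>
      intro c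
      obtain ⟨a, ha, ha'⟩ := hx (c * d)
      exact ⟨a, ha, by rw [ha', mul_smul]⟩
  by_contra hne
  obtain ⟨w, hw, hw'⟩ := exists_not_mem_sub_mem hq0 hqne φ hφ W hW2 hne
  obtain ⟨z, hz, hz'⟩ := hAS _ hw' 1
  rw [one_smul] at hz'
  have hfix : φ (w - z) = w - z := by
    rw [map_sub, sub_eq_sub_iff_add_eq_add]
    have h3 := sub_eq_sub_iff_add_eq_add.1 hz'
    rw [← h3, add_comm]
  apply hw
  have h5 : w - z ∈ W := Submodule.subset_span hfix
  have h6 := W.add_mem h5 hz
  rwa [sub_add_cancel] at h6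

/-- **Lang's theorem for `GL_d`** (elementary form): an injective `q`-semilinear additive
endomorphism of a finite dimensional vector space over an algebraically closed field of
characteristic `p` has a basis of fixed vectors. -/
theorem exists_fixed_basis [FiniteDimensional k V] (hn : 0 < n) (hq : q = p ^ n) (φ : V →+ V)
    (hφ : ∀ (c : k) (v : V), φ (c • v) = c ^ q • φ v) (hinj : Function.Injective φ) :
    ∃ b : Module.Basis (Fin (Module.finrank k V)) k V, ∀ i, φ (b i) = b i := by
  classical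
  obtain ⟨s, hs, hspan, hli⟩ := exists_linearIndependent k {v : V | φ v = v}
  have htop : ⊤ ≤ Submodule.span k (Set.range (Subtype.val : s → V)) := by
    rw [Subtype.range_coe, hspan, span_fixed_eq_top hn hq φ hφ hinj]
  let B : Module.Basis s k V := Module.Basis.mk hli htop
  let _ : Fintype s := FiniteDimensional.fintypeBasisIndex B
  let e : s ≃ Fin (Module.finrank k V) :=
    Fintype.equivFinOfCardEq (Module.finrank_eq_card_basis B).symm
  refine ⟨B.reindex e, fun i => ?_⟩
  rw [Module.Basis.reindex_apply, Module.Basis.mk_apply]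
  exact hs (e.symm i).2

/-- The fixed points of an injective `q`-semilinear additive endomorphism of a `d`-dimensional
space over an algebraically closed field form a set with `q ^ d` elements. -/
theorem card_fixed [FiniteDimensional k V] (hn : 0 < n) (hq : q = p ^ n) (φ : V →+ V)
    (hφ : ∀ (c : k) (v : V), φ (c • v) = c ^ q • φ v) (hinj : Function.Injective φ) :
    Nat.card {v : V // φ v = v} = q ^ Module.finrank k V := by
  classical
  obtain ⟨b, hb⟩ := exists_fixed_basis hn hq φ hφ hinj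
  have hφsum : ∀ a : Fin (Module.finrank k V) → k,
      φ (∑ i, a i • b i) = ∑ i, (a i) ^ q • b i := by
    intro a
    rw [map_sum]
    refine Finset.sum_congr rfl fun i _ => ?_
    rw [hφ, hb]
  let e : {v : V // φ v = v} ≃ (Fin (Module.finrank k V) → {c : k // c ^ q = c}) :=
    { toFun := fun v i => ⟨b.repr v.1 i, by
        have h1 := hφsum (fun i => b.repr v.1 i)
        rw [b.sum_repr, v.2] at h1
        have h2 := congrFun (b.repr_sum_self (fun i => (b.repr v.1 i) ^ q)) i
        rw [← h1] at h2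
        exact h2.symm⟩
      invFun := fun f => ⟨∑ i, (f i).1 • b i, by
        rw [hφsum]
        refine Finset.sum_congr rfl fun i _ => ?_
        rw [(f i).2]⟩
      left_inv := fun v => Subtype.ext (b.sum_repr v.1)
      right_inv := fun f => by
        funext i
        exact Subtype.ext (congrFun (b.repr_sum_self (fun i => (f i).1)) i) }
  rw [Nat.card_congr e, Nat.card_fun, card_frob_fixed hn hq, Nat.card_eq_fintype_card,
    Fintype.card_fin]

/-- Fixed point count on a finite dimensional `φ`-stable subspace of an arbitrary space. -/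
theorem card_fixed_submodule (hn : 0 < n) (hq : q = p ^ n) {E : Type*} [AddCommGroup E]
    [Module k E] (φ : E →+ E) (hφ : ∀ (c : k) (v : E), φ (c • v) = c ^ q • φ v)
    (hinj : Function.Injective φ) (L : Submodule k E) [FiniteDimensional k L]
    (hL : ∀ x ∈ L, φ x ∈ L) :
    Nat.card {x : E // x ∈ L ∧ φ x = x} = q ^ Module.finrank k L := by
  let φL : L →+ L :=
    { toFun := fun x => ⟨φ x.1, hL x.1 x.2⟩
      map_zero' := Subtype.ext (map_zero φ)
      map_add' := fun x y => Subtype.ext (map_add φ x.1 y.1) }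
  have hφL : ∀ (c : k) (v : L), φL (c • v) = c ^ q • φL v := fun c v => Subtype.ext (hφ c v.1)
  have hinjL : Function.Injective φL :=
    fun x y h => Subtype.ext (hinj (congrArg Subtype.val h))
  rw [← card_fixed hn hq φL hφL hinjL]
  refine Nat.card_congr ?_
  exact
    { toFun := fun x => ⟨⟨x.1, x.2.1⟩, Subtype.ext x.2.2⟩
      invFun := fun v => ⟨v.1.1, v.1.2, congrArg Subtype.val v.2⟩
      left_inv := fun x => rfl
      right_inv := fun v => rfl }

/-- The number of `φ`-stable lines: `#lines · (q - 1) + 1 = q ^ d`, i.e. `#lines = #ℙ^{d-1}(𝔽_q)`. -/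
theorem card_stable_lines_mul [FiniteDimensional k V] (hn : 0 < n) (hq : q = p ^ n) (φ : V →+ V)
    (hφ : ∀ (c : k) (v : V), φ (c • v) = c ^ q • φ v) (hinj : Function.Injective φ) :
    Nat.card {ℓ : Submodule k V // Module.finrank k ℓ = 1 ∧ ∀ x ∈ ℓ, φ x ∈ ℓ} * (q - 1) + 1
      = q ^ Module.finrank k V := by
  classical
  have hq1 : 1 < q := one_lt_q hn hq
  set T : Set V := {v | φ v = v} with hT
  have hTcard : T.ncard = q ^ Module.finrank k V := by
    rw [← Nat.card_coe_set_eq]; exact card_fixed hn hq φ hφ hinj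
  have hTfin : T.Finite :=
    Set.finite_of_ncard_ne_zero (by rw [hTcard]; exact pow_ne_zero _ (by omega))
  have h0T : (0 : V) ∈ T := map_zero φ
  have hT'card : (T \ {0}).ncard + 1 = q ^ Module.finrank k V := by
    rw [Set.ncard_sdiff_singleton_of_mem h0T, hTcard]
    exact Nat.sub_add_cancel (Nat.one_le_pow _ _ (by omega))
  have : Finite ↥(T \ {0}) := (hTfin.subset Set.sdiff_subset).to_subtype
  have hstab : ∀ v : V, φ v = v →
      ∀ x ∈ Submodule.span k {v}, φ x ∈ Submodule.span k {v} := by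
    intro v hv x hx
    obtain ⟨c, rfl⟩ := Submodule.mem_span_singleton.1 hx
    rw [hφ, hv]
    exact Submodule.smul_mem _ _ (Submodule.mem_span_singleton_self v)
  let f : ↥(T \ {0}) → {ℓ : Submodule k V // Module.finrank k ℓ = 1 ∧ ∀ x ∈ ℓ, φ x ∈ ℓ} :=
    fun v => ⟨Submodule.span k {v.1}, finrank_span_singleton v.2.2, hstab v.1 v.2.1⟩
  have hspan : ∀ (ℓ : {ℓ : Submodule k V // Module.finrank k ℓ = 1 ∧ ∀ x ∈ ℓ, φ x ∈ ℓ})
      (x : V), x ∈ ℓ.1 → x ≠ 0 → Submodule.span k {x} = ℓ.1 := by
    intro ℓ x hx hx0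
    exact Submodule.eq_of_le_of_finrank_eq ((Submodule.span_singleton_le_iff_mem x ℓ.1).2 hx)
      (by rw [finrank_span_singleton hx0, ℓ.2.1])
  have hfib : ∀ ℓ : {ℓ : Submodule k V // Module.finrank k ℓ = 1 ∧ ∀ x ∈ ℓ, φ x ∈ ℓ},
      Nat.card {v : ↥(T \ {0}) // f v = ℓ} = q - 1 := by
    intro ℓ
    have hS : Nat.card {x : V // x ∈ ℓ.1 ∧ φ x = x} = q := by
      rw [card_fixed_submodule hn hq φ hφ hinj ℓ.1 ℓ.2.2, ℓ.2.1, pow_one]
    set S : Set V := {x | x ∈ ℓ.1 ∧ φ x = x} with hSdef
    have hS' : S.ncard = q := by rw [← Nat.card_coe_set_eq]; exact hS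
    have h0S : (0 : V) ∈ S := ⟨ℓ.1.zero_mem, map_zero φ⟩
    rw [← hS', ← Set.ncard_sdiff_singleton_of_mem h0S, ← Nat.card_coe_set_eq]
    refine Nat.card_congr ?_
    exact
      { toFun := fun v => ⟨v.1.1, ⟨by
            have h := congrArg Subtype.val v.2
            have h' : v.1.1 ∈ Submodule.span k {v.1.1} := Submodule.mem_span_singleton_self _
            exact h ▸ h', v.1.2.1⟩, v.1.2.2⟩
        invFun := fun x => ⟨⟨x.1, x.2.1.2, x.2.2⟩, Subtype.ext (hspan ℓ x.1 x.2.1.1 x.2.2)⟩
        left_inv := fun v => rfl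
        right_inv := fun x => rfl }
  have hsurj : Function.Surjective f := by
    intro ℓ
    have h1 := hfib ℓ
    have hne : Nonempty {v : ↥(T \ {0}) // f v = ℓ} := by
      by_contra hempty
      rw [not_nonempty_iff] at hempty
      rw [Nat.card_of_isEmpty] at h1
      omega
    obtain ⟨v, hv⟩ := hne
    exact ⟨v, hv⟩
  have : Finite {ℓ : Submodule k V // Module.finrank k ℓ = 1 ∧ ∀ x ∈ ℓ, φ x ∈ ℓ} :=
    Finite.of_surjective f hsurj
  let _ : Fintype {ℓ : Submodule k V // Module.finrank k ℓ = 1 ∧ ∀ x ∈ ℓ, φ x ∈ ℓ} :=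
    Fintype.ofFinite _
  have hsum : Nat.card ↥(T \ {0})
      = Nat.card {ℓ : Submodule k V // Module.finrank k ℓ = 1 ∧ ∀ x ∈ ℓ, φ x ∈ ℓ} * (q - 1) := by
    rw [Nat.card_congr (Equiv.sigmaFiberEquiv f).symm, Nat.card_sigma]
    simp only [hfib, Finset.sum_const, Finset.card_univ, smul_eq_mul, Nat.card_eq_fintype_card]
  rw [← hsum, Nat.card_coe_set_eq]; exact hT'card

/-- Every `φ`-stable line contains a nonzero fixed vector. -/
theorem exists_fixed_of_stable_line (hn : 0 < n) (hq : q = p ^ n) {E : Type*} [AddCommGroup E]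
    [Module k E] (φ : E →+ E) (hφ : ∀ (c : k) (v : E), φ (c • v) = c ^ q • φ v)
    (hinj : Function.Injective φ) (ℓ : Submodule k E) (hℓ : Module.finrank k ℓ = 1)
    (hst : ∀ x ∈ ℓ, φ x ∈ ℓ) : ∃ v ∈ ℓ, v ≠ 0 ∧ φ v = v := by
  have : FiniteDimensional k ℓ := Module.finite_of_finrank_eq_succ hℓ
  have hS : Nat.card {x : E // x ∈ ℓ ∧ φ x = x} = q := by
    rw [card_fixed_submodule hn hq φ hφ hinj ℓ hst, hℓ, pow_one]
  have hq1 : 1 < q := one_lt_q hn hq
  have : Finite {x : E // x ∈ ℓ ∧ φ x = x} := Nat.finite_of_card_ne_zero (by omega)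
  have : Nontrivial {x : E // x ∈ ℓ ∧ φ x = x} :=
    Finite.one_lt_card_iff_nontrivial.1 (by omega)
  obtain ⟨x, hx⟩ := exists_ne (⟨0, ℓ.zero_mem, map_zero φ⟩ : {x : E // x ∈ ℓ ∧ φ x = x})
  exact ⟨x.1, x.2.1, fun h => hx (Subtype.ext h), x.2.2⟩

end Main

end Fermat.Agent.S27P.Zeta.SemilinFix
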