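/-
helper95 — S27 / (Z), brick (RAT): rationality of the zeta series from the two counting formulas.

`A n` = number of Frobenius-fixed effective divisors of degree `n`, `h` = number of fixed classes,
`Q` = the cardinality of the fixed constants, `g` = the genus.  From

* `A 0 = 1`,
* (non-special range) `(Q - 1) * A n = h * (Q ^ (n + 1 - g) - 1)` for `n ≥ 2g - 1`,
* (degree `2g - 2`) `(Q - 1) * A (2g - 2) = (Q ^ g - 1) + (h - 1) * (Q ^ (g - 1) - 1)` if `g ≥ 1`,

the series `(1 - X) (1 - Q X) ∑ A n X ^ n` is a polynomial `L` with `L(1) = h`, of degree exactly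
`2g` and leading coefficient `Q ^ g`.  No formula is needed for `A n`, `n < 2g - 2`.
Mathlib only.
-/
import Mathlib

set_option autoImplicit false

namespace Fermat.Agent.S27P.Zeta.Rat

open Polynomial

/-- The coefficients of `(1 - X) (1 - Q X) ∑ A n X ^ n`. -/
def cf (Q : ℤ) (A : ℕ → ℤ) (n : ℕ) : ℤ :=
  A n - (Q + 1) * (if 1 ≤ n then A (n - 1) else 0) + Q * (if 2 ≤ n then A (n - 2) else 0)

theorem coeff_series (Q : ℤ) (A : ℕ → ℤ) (n : ℕ) :
    PowerSeries.coeff n ((1 - PowerSeries.X) * (1 - PowerSeries.C Q * PowerSeries.X) *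
      PowerSeries.mk A) = cf Q A n := by
  have e : (1 - PowerSeries.X) * (1 - PowerSeries.C Q * PowerSeries.X) * PowerSeries.mk A
      = PowerSeries.mk A - PowerSeries.C (Q + 1) * (PowerSeries.X ^ 1 * PowerSeries.mk A)
        + PowerSeries.C Q * (PowerSeries.X ^ 2 * PowerSeries.mk A) := by
    rw [map_add, map_one]
    ring
  rw [e, map_add, map_sub, PowerSeries.coeff_C_mul, PowerSeries.coeff_C_mul,
    PowerSeries.coeff_X_pow_mul', PowerSeries.coeff_X_pow_mul', PowerSeries.coeff_mk]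
  unfold cf
  simp only [PowerSeries.coeff_mk]

/-- Telescoping: the partial sums of the coefficients. -/
theorem sum_cf (Q : ℤ) (A : ℕ → ℤ) (M : ℕ) :
    ∑ n ∈ Finset.range (M + 1), cf Q A n = A M - Q * (if 1 ≤ M then A (M - 1) else 0) := by
  induction M with
  | zero => simp [cf]
  | succ M ih =>
    rw [Finset.sum_range_succ, ih]
    unfold cf
    have h1 : (1 : ℕ) ≤ M + 1 := Nat.le_add_left 1 M
    have h2 : (2 ≤ M + 1) ↔ (1 ≤ M) := by omega
    rw [if_pos h1]
    by_cases hM : 1 ≤ M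
    · rw [if_pos hM, if_pos (h2.2 hM)]
      have e1 : M + 1 - 1 = M := by omega
      have e2 : M + 1 - 2 = M - 1 := by omega
      rw [e1, e2]
      ring
    · rw [if_neg hM, if_neg (fun h => hM (h2.1 h))]
      have e1 : M + 1 - 1 = M := by omega
      rw [e1]
      ring

section Main

variable (Q : ℤ) (hQ : 1 < Q) (g : ℕ) (h : ℤ) (A : ℕ → ℤ) (hA0 : A 0 = 1)
  (hb : ∀ n : ℕ, 2 * g ≤ n + 1 → (Q - 1) * A n = h * (Q ^ (n + 1 - g) - 1))
  (hc : 0 < g → (Q - 1) * A (2 * g - 2) = (Q ^ g - 1) + (h - 1) * (Q ^ (g - 1) - 1))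

include hQ hb in
/-- The coefficients vanish beyond degree `2g`. -/
theorem cf_eq_zero {n : ℕ} (hn : 2 * g + 1 ≤ n) : cf Q A n = 0 := by
  have hQ1 : Q - 1 ≠ 0 := by omega
  apply mul_left_cancel₀ hQ1
  rw [mul_zero]
  unfold cf
  by_cases h2 : 2 ≤ n
  · obtain ⟨e, rfl⟩ : ∃ e, n = g + 1 + e := ⟨n - (g + 1), by omega⟩
    have hb0 := hb (g + 1 + e) (by omega)
    have hb1 := hb (g + 1 + e - 1) (by omega)
    have hb2 := hb (g + 1 + e - 2) (by omega)
    have e0 : g + 1 + e + 1 - g = e + 2 := by omega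
    have e1 : g + 1 + e - 1 + 1 - g = e + 1 := by omega
    have e2 : g + 1 + e - 2 + 1 - g = e := by omega
    rw [e0] at hb0
    rw [e1] at hb1
    rw [e2] at hb2
    rw [if_pos (by omega), if_pos h2]
    have : (Q - 1) * (A (g + 1 + e) - (Q + 1) * A (g + 1 + e - 1) + Q * A (g + 1 + e - 2))
        = (Q - 1) * A (g + 1 + e) - (Q + 1) * ((Q - 1) * A (g + 1 + e - 1))
          + Q * ((Q - 1) * A (g + 1 + e - 2)) := by ring
    rw [this, hb0, hb1, hb2]
    ring
  · have hn1 : n = 1 := by omega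
    have hg : g = 0 := by omega
    subst hn1
    subst hg
    have hb0 := hb 1 (by omega)
    have hb1 := hb 0 (by omega)
    rw [if_pos le_rfl, if_neg (by omega)]
    have e0 : 1 + 1 - 0 = 2 := rfl
    have e1 : 0 + 1 - 0 = 1 := rfl
    rw [e0] at hb0
    rw [e1] at hb1
    have : (Q - 1) * (A 1 - (Q + 1) * A (1 - 1) + Q * 0)
        = (Q - 1) * A 1 - (Q + 1) * ((Q - 1) * A 0) := by
      simp only [Nat.sub_self]
      ring
    rw [this, hb0, hb1]
    ring

include hQ hA0 hb hc in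
/-- The top coefficient is `Q ^ g`. -/
theorem cf_top : cf Q A (2 * g) = Q ^ g := by
  rcases Nat.eq_zero_or_pos g with hg | hg
  · subst hg
    simp [cf, hA0]
  · have hQ1 : Q - 1 ≠ 0 := by omega
    apply mul_left_cancel₀ hQ1
    obtain ⟨g', rfl⟩ : ∃ g', g = g' + 1 := ⟨g - 1, by omega⟩
    have hb0 := hb (2 * (g' + 1)) (by omega)
    have hb1 := hb (2 * (g' + 1) - 1) (by omega)
    have hc' := hc (by omega)
    have e0 : 2 * (g' + 1) + 1 - (g' + 1) = g' + 2 := by omega
    have e1 : 2 * (g' + 1) - 1 + 1 - (g' + 1) = g' + 1 := by omega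
    have e2 : g' + 1 - 1 = g' := by omega
    rw [e0] at hb0
    rw [e1] at hb1
    rw [e2] at hc'
    unfold cf
    rw [if_pos (by omega), if_pos (by omega)]
    have : (Q - 1) * (A (2 * (g' + 1)) - (Q + 1) * A (2 * (g' + 1) - 1)
          + Q * A (2 * (g' + 1) - 2))
        = (Q - 1) * A (2 * (g' + 1)) - (Q + 1) * ((Q - 1) * A (2 * (g' + 1) - 1))
          + Q * ((Q - 1) * A (2 * (g' + 1) - 2)) := by ring
    rw [this, hb0, hb1, hc']
    ring

include hQ hA0 hb in
/-- The sum of the coefficients is `h`. -/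
theorem sum_cf_eq : ∑ n ∈ Finset.range (2 * g + 1), cf Q A n = h := by
  have hQ1 : Q - 1 ≠ 0 := by omega
  rw [sum_cf]
  rcases Nat.eq_zero_or_pos g with hg | hg
  · subst hg
    have hb1 := hb 0 (by omega)
    have e1 : 0 + 1 - 0 = 1 := rfl
    rw [e1, hA0, pow_one, mul_one] at hb1
    have : h = 1 := by
      have h3 : (Q - 1) * h = (Q - 1) * 1 := by rw [mul_one, mul_comm]; exact hb1.symm
      exact mul_left_cancel₀ hQ1 h3
    simp [hA0, this]
  · apply mul_left_cancel₀ hQ1
    obtain ⟨g', rfl⟩ : ∃ g', g = g' + 1 := ⟨g - 1, by omega⟩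
    have hb0 := hb (2 * (g' + 1)) (by omega)
    have hb1 := hb (2 * (g' + 1) - 1) (by omega)
    have e0 : 2 * (g' + 1) + 1 - (g' + 1) = g' + 2 := by omega
    have e1 : 2 * (g' + 1) - 1 + 1 - (g' + 1) = g' + 1 := by omega
    rw [e0] at hb0
    rw [e1] at hb1
    rw [if_pos (by omega)]
    have : (Q - 1) * (A (2 * (g' + 1)) - Q * A (2 * (g' + 1) - 1))
        = (Q - 1) * A (2 * (g' + 1)) - Q * ((Q - 1) * A (2 * (g' + 1) - 1)) := by ring
    rw [this, hb0, hb1]
    ring

include hQ hA0 hb hc in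
/-- **(RAT).**  The zeta series times `(1 - X) (1 - Q X)` is a polynomial `L` with `L(1) = h`,
of degree `2g`, with leading coefficient `Q ^ g`. -/
theorem exists_Lpoly :
    ∃ L : Polynomial ℤ,
      (L : PowerSeries ℤ) = (1 - PowerSeries.X) * (1 - PowerSeries.C Q * PowerSeries.X) *
        PowerSeries.mk A ∧
      L.eval 1 = h ∧ L.natDegree = 2 * g ∧ L.leadingCoeff = Q ^ g := by
  classical
  set L : Polynomial ℤ := ∑ n ∈ Finset.range (2 * g + 1), Polynomial.monomial n (cf Q A n)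
    with hL
  have hcoeff : ∀ n, L.coeff n = if n < 2 * g + 1 then cf Q A n else 0 := by
    intro n
    rw [hL, Polynomial.finsetSum_coeff]
    simp only [Polynomial.coeff_monomial]
    rw [Finset.sum_ite_eq' (Finset.range (2 * g + 1)) n (fun m => cf Q A m)]
    simp only [Finset.mem_range]
  have hQg : Q ^ g ≠ 0 := pow_ne_zero _ (by omega)
  have htop : L.coeff (2 * g) = Q ^ g := by
    rw [hcoeff, if_pos (by omega)]
    exact cf_top Q hQ g h A hA0 hb hc
  have hdeg : L.natDegree = 2 * g := by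
    refine Polynomial.natDegree_eq_of_le_of_coeff_ne_zero ?_ (by rw [htop]; exact hQg)
    rw [Polynomial.natDegree_le_iff_coeff_eq_zero]
    intro n hn
    rw [hcoeff, if_neg (by omega)]
  refine ⟨L, ?_, ?_, hdeg, ?_⟩
  · ext n
    rw [Polynomial.coeff_coe, coeff_series, hcoeff]
    split_ifs with hn
    · rfl
    · exact (cf_eq_zero Q hQ g h A hb (by omega)).symm
  · rw [hL, Polynomial.eval_finsetSum]
    simp only [Polynomial.eval_monomial, one_pow, mul_one]
    exact sum_cf_eq Q hQ g h A hA0 hb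
  · rw [Polynomial.leadingCoeff, hdeg, htop]

end Main

end Fermat.Agent.S27P.Zeta.Rat
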