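/-
S27 / (Z) zeta anchor — the FORMAL POWER SERIES END (helper61).  Mathlib only.

Abstract input (what the geometric side proves for a curve over `𝔽̄_p` with a `q`-Frobenius `φ`,
applied to every power `φ^m`, `q^m`):

* `A m n` : the number of `φ^m`-fixed effective divisors of degree `n`; `A m 0 = 1`;
* `N r`   : the number of `φ^r`-fixed places;
* the double count `n · A m n = ∑_{r = 1}^{n} N (m r) · A m (n - r)`;
* rationality: `(1 - t)(1 - q^m t) · ∑ A m n tⁿ = L_m(t)` is a polynomial, `L_m(1) = h m`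
  (`h m` = the number of `φ^m`-fixed divisor classes of degree `0`);
* `deg L_1 = 2 g`, with leading coefficient `q^g`.

Output (`exists_frobenius_roots`): algebraic integers `α_1, …, α_{2g}` (in any algebraically
closed field `E` of characteristic `0`) with `∏ α_i = q^g`,
`N r = q^r + 1 - ∑ α_i^r` and **`h m = ∏ (1 - α_i^m)` for all `m ≥ 1`**.

Proof without `exp`/`log`: `LogDer F S :⟺ X · F' = F · S`; product rule; `1 - a X` has
`S = -∑_{r ≥ 1} a^r X^r`; a solution with given constant term is unique in characteristic `0`.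
-/
import Mathlib

set_option autoImplicit false
set_option linter.style.haveILetI false

noncomputable section

namespace Fermat.Agent.S27P.Zeta.ZetaAlg

open PowerSeries Finset

/-! ### Logarithmic derivatives of power series -/

section LogDer

variable {E : Type*} [Field E]

/-- `X * F' = F * S`: `S` is the logarithmic derivative `X F' / F` of `F`. -/
def LogDer (F S : E⟦X⟧) : Prop := (X : E⟦X⟧) * d⁄dX E F = F * S

theorem logDer_one : LogDer (1 : E⟦X⟧) 0 := by
  unfold LogDer
  rw [derivative_one, mul_zero, mul_zero]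

theorem LogDer.mul {F G S T : E⟦X⟧} (hF : LogDer F S) (hG : LogDer G T) :
    LogDer (F * G) (S + T) := by
  unfold LogDer at *
  rw [Derivation.leibniz, smul_eq_mul, smul_eq_mul]
  calc (X : E⟦X⟧) * (F * d⁄dX E G + G * d⁄dX E F)
      = F * (X * d⁄dX E G) + G * (X * d⁄dX E F) := by ring
    _ = F * (G * T) + G * (F * S) := by rw [hF, hG]
    _ = F * G * (S + T) := by ring

theorem LogDer.prod {ι : Type*} (s : Finset ι) (F S : ι → E⟦X⟧)
    (h : ∀ i ∈ s, LogDer (F i) (S i)) : LogDer (∏ i ∈ s, F i) (∑ i ∈ s, S i) := by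
  classical
  induction s using Finset.induction_on with
  | empty => simpa using logDer_one (E := E)
  | insert a s ha ih =>
    rw [Finset.prod_insert ha, Finset.sum_insert ha]
    exact (h a (Finset.mem_insert_self a s)).mul
      (ih fun i hi => h i (Finset.mem_insert_of_mem hi))

/-- `∑_{r ≥ 1} a^r X^r`. -/
def geo (a : E) : E⟦X⟧ := PowerSeries.mk fun r => if r = 0 then 0 else a ^ r

theorem coeff_geo (a : E) (r : ℕ) : coeff r (geo a) = if r = 0 then 0 else a ^ r :=
  coeff_mk _ _

theorem coeff_geo_zero (a : E) : coeff 0 (geo a) = 0 := by rw [coeff_geo, if_pos rfl]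

theorem coeff_geo_succ (a : E) (r : ℕ) : coeff (r + 1) (geo a) = a ^ (r + 1) := by
  rw [coeff_geo, if_neg (Nat.succ_ne_zero r)]

theorem constantCoeff_geo (a : E) : constantCoeff (geo a) = 0 := by
  rw [← coeff_zero_eq_constantCoeff_apply, coeff_geo_zero]

theorem one_sub_mul_geo (a : E) : (1 - C a * X) * geo a = C a * X := by
  ext n
  rw [sub_mul, one_mul, map_sub, mul_assoc, coeff_C_mul, coeff_C_mul]
  cases n with
  | zero => rw [coeff_geo_zero, coeff_zero_X_mul, coeff_zero_X]; ring
  | succ n =>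
    rw [coeff_succ_X_mul, coeff_geo_succ, coeff_X]
    cases n with
    | zero => rw [coeff_geo_zero]; simp
    | succ n =>
      rw [coeff_geo_succ, if_neg (by omega)]
      ring

/-- `1 - a X` has logarithmic derivative `-∑_{r ≥ 1} a^r X^r`. -/
theorem logDer_linear (a : E) : LogDer (1 - C a * X) (-geo a) := by
  unfold LogDer
  have h1 : d⁄dX E (1 - C a * X : E⟦X⟧) = -C a := by
    rw [map_sub, derivative_one, Derivation.leibniz, derivative_X, derivative_C, smul_eq_mul,
      smul_eq_mul, mul_one, mul_zero, add_zero, zero_sub]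
  rw [h1, mul_neg, mul_neg, one_sub_mul_geo, mul_comm]

/-- A solution of `X F' = F S` (with `S(0) = 0`) is determined by its constant term, in
characteristic zero. -/
theorem LogDer.unique [CharZero E] {F G S : E⟦X⟧} (hF : LogDer F S) (hG : LogDer G S)
    (hS : coeff 0 S = 0) (h0 : coeff 0 F = coeff 0 G) : F = G := by
  unfold LogDer at *
  have key : ∀ n : ℕ, ∀ k ≤ n, coeff k F = coeff k G := by
    intro n
    induction n with
    | zero =>
      intro k hk
      rw [Nat.le_zero.mp hk]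
      exact h0
    | succ n ih =>
      intro k hk
      rcases Nat.lt_or_ge k (n + 1) with hlt | hge
      · exact ih k (Nat.lt_succ_iff.mp hlt)
      · have hk' : k = n + 1 := le_antisymm hk hge
        subst hk'
        have e1 := congrArg (coeff (n + 1)) hF
        have e2 := congrArg (coeff (n + 1)) hG
        rw [coeff_succ_X_mul, coeff_derivative, coeff_mul] at e1 e2
        have e3 : ∑ p ∈ antidiagonal (n + 1), coeff p.1 F * coeff p.2 S =
            ∑ p ∈ antidiagonal (n + 1), coeff p.1 G * coeff p.2 S := by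
          refine Finset.sum_congr rfl fun p hp => ?_
          rw [Finset.HasAntidiagonal.mem_antidiagonal] at hp
          rcases Nat.lt_or_ge p.1 (n + 1) with hlt | hge
          · rw [ih p.1 (Nat.lt_succ_iff.mp hlt)]
          · have hp2 : p.2 = 0 := by omega
            rw [hp2, hS, mul_zero, mul_zero]
        rw [e3, ← e2] at e1
        have hne : ((n : E) + 1) ≠ 0 := by exact_mod_cast Nat.succ_ne_zero n
        exact mul_right_cancel₀ hne e1
  ext n
  exact key n n le_rfl

/-- The recursion `n aₙ = ∑_{r=1}^{n} s_r a_{n-r}` is the equation `X F' = F S`. -/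
theorem logDer_mk (a s : ℕ → E)
    (hrec : ∀ n : ℕ, 0 < n → (n : E) * a n = ∑ r ∈ Finset.Icc 1 n, s r * a (n - r)) :
    LogDer (PowerSeries.mk a) (PowerSeries.mk fun r => if r = 0 then 0 else s r) := by
  unfold LogDer
  ext n
  cases n with
  | zero =>
    rw [coeff_zero_X_mul, coeff_mul, Finset.Nat.antidiagonal_zero, Finset.sum_singleton,
      coeff_mk, coeff_mk, if_pos rfl, mul_zero]
  | succ n =>
    rw [coeff_succ_X_mul, coeff_derivative, coeff_mk, mul_comm (PowerSeries.mk a), coeff_mul,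
      Finset.Nat.sum_antidiagonal_eq_sum_range_succ
        (fun i j => coeff i (PowerSeries.mk fun r => if r = 0 then 0 else s r) *
          coeff j (PowerSeries.mk a)) (n + 1),
      Finset.sum_range_succ']
    simp only [coeff_mk, if_pos, Nat.succ_ne_zero, if_false, zero_mul, add_zero]
    have h1 := hrec (n + 1) (Nat.succ_pos n)
    have h2 : ∑ r ∈ Finset.Icc 1 (n + 1), s r * a (n + 1 - r) =
        ∑ k ∈ Finset.range (n + 1), s (k + 1) * a (n + 1 - (k + 1)) := by
      rw [Finset.range_eq_Ico, Finset.sum_Ico_add' (fun r => s r * a (n + 1 - r)) 0 (n + 1) 1]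
      refine Finset.sum_congr ?_ fun _ _ => rfl
      ext x
      simp only [Finset.mem_Icc, Finset.mem_Ico]
      omega
    rw [h2] at h1
    rw [← h1]
    push_cast
    ring

end LogDer

/-! ### The roots -/

section Roots

variable {E : Type*} [Field E] [CharZero E] [IsAlgClosed E]

/-- A polynomial with integer coefficients, constant term `1` and degree `d` factors over `E`
as `∏ (1 - α_i X)` with `α_i` algebraic integers, `∏ α_i = ` its leading coefficient (for even
`d`). -/
theorem exists_recip_roots (P : Polynomial ℤ) (d : ℕ) (hd : P.natDegree = d)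
    (h0 : P.coeff 0 = 1) :
    ∃ α : Fin d → E, (∀ i, IsIntegral ℤ (α i)) ∧
      ∏ i, (-α i) = ((P.leadingCoeff : ℤ) : E) ∧
      P.map (Int.castRingHom E) = ∏ i, (1 - Polynomial.C (α i) * Polynomial.X) := by
  classical
  have hinj : Function.Injective (Int.castRingHom E) := Int.cast_injective
  set Q := P.map (Int.castRingHom E) with hQ
  have hQdeg : Q.natDegree = d := by rw [hQ, Polynomial.natDegree_map_eq_of_injective hinj, hd]
  have hQ0 : Q.coeff 0 = 1 := by rw [hQ, Polynomial.coeff_map, h0]; simp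
  have hQne : Q ≠ 0 := fun h => by rw [h, Polynomial.coeff_zero] at hQ0; exact zero_ne_one hQ0
  have hcard : Multiset.card Q.roots = Q.natDegree :=
    Polynomial.splits_iff_card_roots.mp (IsAlgClosed.splits Q)
  have hprod := Polynomial.C_leadingCoeff_mul_prod_multiset_X_sub_C hcard
  -- enumerate the roots
  obtain ⟨l, hl⟩ := Quot.exists_rep Q.roots
  have hl' : (l : Multiset E) = Q.roots := hl
  have hlen : l.length = d := by
    rw [← hQdeg, ← hcard, ← hl', Multiset.coe_card]
  let ρ : Fin d → E := fun i => l.get (i.cast hlen.symm)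
  have hρ_mem : ∀ i, ρ i ∈ Q.roots := fun i => by
    rw [← hl']
    exact Multiset.mem_coe.mpr (List.get_mem l _)
  have hρ_root : ∀ i, Q.eval (ρ i) = 0 := fun i =>
    (Polynomial.mem_roots hQne).mp (hρ_mem i)
  have hρ_ne : ∀ i, ρ i ≠ 0 := fun i h => by
    have := hρ_root i
    rw [h, ← Polynomial.coeff_zero_eq_eval_zero, hQ0] at this
    exact one_ne_zero this
  -- products over the roots
  have hprodfn : ∀ f : E → Polynomial E, (Q.roots.map f).prod = ∏ i, f (ρ i) := by
    intro f
    rw [← hl', Multiset.map_coe, Multiset.prod_coe]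
    have e1 : ∏ i : Fin d, f (ρ i) = ∏ j : Fin l.length, f (l.get j) :=
      Fintype.prod_equiv (finCongr hlen.symm) _ _ fun i => rfl
    rw [e1, ← List.prod_ofFn]
    congr 1
    rw [show (fun j => f (l.get j)) = f ∘ l.get from rfl, ← List.map_ofFn, List.ofFn_get]
  have hQprod : Q = Polynomial.C Q.leadingCoeff * ∏ i, (Polynomial.X - Polynomial.C (ρ i)) := by
    rw [← hprodfn (fun a => Polynomial.X - Polynomial.C a), hprod]
  -- evaluate at `0`
  have hlead : Q.leadingCoeff * ∏ i, (-ρ i) = 1 := by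
    have h1 := congrArg (Polynomial.eval 0) hQprod
    rw [← Polynomial.coeff_zero_eq_eval_zero, hQ0, Polynomial.eval_mul, Polynomial.eval_C,
      Polynomial.eval_prod] at h1
    simp only [Polynomial.eval_sub, Polynomial.eval_X, Polynomial.eval_C, zero_sub] at h1
    exact h1.symm
  have hρprod_ne : ∏ i, (-ρ i) ≠ 0 := fun h => by
    rw [h, mul_zero] at hlead
    exact zero_ne_one hlead
  have hleadQ : Q.leadingCoeff = ((P.leadingCoeff : ℤ) : E) := by
    rw [hQ, Polynomial.leadingCoeff_map_of_injective hinj]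
    rfl
  refine ⟨fun i => (ρ i)⁻¹, fun i => ?_, ?_, ?_⟩
  · -- integrality: `(ρ i)⁻¹` is a root of the monic polynomial `reverse P`
    refine ⟨P.reverse, ?_, ?_⟩
    · have htr : P.natTrailingDegree = 0 :=
        Polynomial.natTrailingDegree_eq_zero.mpr (Or.inr (by rw [h0]; exact one_ne_zero))
      rw [Polynomial.Monic, Polynomial.reverse_leadingCoeff, Polynomial.trailingCoeff, htr, h0]
    · have h1 : Polynomial.eval₂ (Int.castRingHom E) (ρ i) P = 0 := by
        rw [← Polynomial.eval_map]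
        exact hρ_root i
      letI : Invertible (ρ i) := invertibleOfNonzero (hρ_ne i)
      have h2 := (Polynomial.eval₂_reverse_eq_zero_iff (Int.castRingHom E) (ρ i) P).mpr h1
      rwa [invOf_eq_inv] at h2
  · -- the product of the `-α_i`
    have h1 : (∏ i, (-ρ i)) * ∏ i, (-(ρ i)⁻¹) = 1 := by
      rw [← Finset.prod_mul_distrib]
      refine Finset.prod_eq_one fun i _ => ?_
      rw [neg_mul_neg, mul_inv_cancel₀ (hρ_ne i)]
    rw [← hleadQ]
    have h2 : (∏ i, (-ρ i)) * ∏ i, (-(ρ i)⁻¹) = (∏ i, (-ρ i)) * Q.leadingCoeff := by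
      rw [h1, mul_comm, hlead]
    exact mul_left_cancel₀ hρprod_ne h2
  · -- the factorisation
    have h1 : ∀ i, (1 - Polynomial.C (ρ i)⁻¹ * Polynomial.X : Polynomial E) =
        Polynomial.C (-(ρ i)⁻¹) * (Polynomial.X - Polynomial.C (ρ i)) := by
      intro i
      rw [mul_sub, ← Polynomial.C_mul, neg_mul, inv_mul_cancel₀ (hρ_ne i), Polynomial.C_neg,
        Polynomial.C_neg, Polynomial.C_1]
      ring
    have h2 : Q.leadingCoeff = ∏ i, (-(ρ i)⁻¹) := by
      have h3 : (∏ i, (-ρ i)) * ∏ i, (-(ρ i)⁻¹) = 1 := by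
        rw [← Finset.prod_mul_distrib]
        refine Finset.prod_eq_one fun i _ => ?_
        rw [neg_mul_neg, mul_inv_cancel₀ (hρ_ne i)]
      have h4 : (∏ i, (-ρ i)) * Q.leadingCoeff = (∏ i, (-ρ i)) * ∏ i, (-(ρ i)⁻¹) := by
        rw [h3, mul_comm, hlead]
      exact mul_left_cancel₀ hρprod_ne h4
    rw [Finset.prod_congr rfl fun i _ => h1 i, Finset.prod_mul_distrib, ← map_prod, ← h2]
    exact hQprod

end Roots

/-! ### The main theorem -/

section Main

variable {E : Type*} [Field E] [CharZero E] [IsAlgClosed E]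

/-- **(Z-alg)**: the reciprocal roots of the zeta numerator and the class numbers `h_m`. -/
theorem exists_frobenius_roots
    (q g : ℕ) (N : ℕ → ℤ) (h : ℕ → ℤ) (A : ℕ → ℕ → ℤ) (L : ℕ → Polynomial ℤ)
    (hA0 : ∀ m, 0 < m → A m 0 = 1)
    (hrec : ∀ m : ℕ, 0 < m → ∀ n : ℕ, 0 < n →
      (n : ℤ) * A m n = ∑ r ∈ Finset.Icc 1 n, N (m * r) * A m (n - r))
    (hL : ∀ m, 0 < m → ((L m : Polynomial ℤ) : PowerSeries ℤ) =
      (1 - PowerSeries.X) * (1 - PowerSeries.C ((q : ℤ) ^ m) * PowerSeries.X) *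
        PowerSeries.mk (A m))
    (hL1 : ∀ m, 0 < m → (L m).eval 1 = h m)
    (hdeg : (L 1).natDegree = 2 * g) (hlead : (L 1).leadingCoeff = (q : ℤ) ^ g) :
    ∃ α : Fin (2 * g) → E, (∀ i, IsIntegral ℤ (α i)) ∧ ∏ i, α i = (q : E) ^ g ∧
      (∀ r, 0 < r → (N r : E) = (q : E) ^ r + 1 - ∑ i, α i ^ r) ∧
      ∀ m, 0 < m → ((h m : ℤ) : E) = ∏ i, (1 - α i ^ m) := by
  classical
  -- the identity `hL` over `E`
  have hLE : ∀ m, 0 < m → (((L m).map (Int.castRingHom E) : Polynomial E) : E⟦X⟧) =
      (1 - X) * (1 - C ((q : E) ^ m) * X) * PowerSeries.mk (fun n => (A m n : E)) := by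
    intro m hm
    have h1 := congrArg (PowerSeries.map (Int.castRingHom E)) (hL m hm)
    rw [← Polynomial.polynomial_map_coe] at h1
    rw [h1, map_mul, map_mul, map_sub, map_sub, map_one, map_mul, PowerSeries.map_X,
      PowerSeries.map_C]
    congr 2
    simp
  -- constant term of `L 1`
  have hc0 : (L 1).coeff 0 = 1 := by
    have h1 := congrArg (coeff 0) (hL 1 one_pos)
    rw [Polynomial.coeff_coe, coeff_mul, Finset.Nat.antidiagonal_zero, Finset.sum_singleton,
      coeff_mul, Finset.Nat.antidiagonal_zero, Finset.sum_singleton, coeff_mk,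
      hA0 1 one_pos] at h1
    simpa using h1
  obtain ⟨α, hαint, hαprod, hαfac⟩ := exists_recip_roots (E := E) (L 1) (2 * g) hdeg hc0
  -- logarithmic derivatives
  have hD : ∀ m : ℕ, LogDer ((1 - X) * (1 - C ((q : E) ^ m) * X) : E⟦X⟧)
      (-geo 1 + -geo ((q : E) ^ m)) := by
    intro m
    have h1 : (1 - X : E⟦X⟧) = 1 - C (1 : E) * X := by rw [map_one, one_mul]
    rw [h1]
    exact (logDer_linear (1 : E)).mul (logDer_linear ((q : E) ^ m))
  have hP : ∀ m : ℕ, LogDer (∏ i, (1 - C (α i ^ m) * X) : E⟦X⟧) (∑ i, -geo (α i ^ m)) :=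
    fun m => LogDer.prod Finset.univ _ _ fun i _ => logDer_linear (α i ^ m)
  have hZ : ∀ m, 0 < m → LogDer (PowerSeries.mk (fun n => (A m n : E)))
      (PowerSeries.mk fun r => if r = 0 then 0 else (N (m * r) : E)) := by
    intro m hm
    refine logDer_mk (fun n => (A m n : E)) (fun r => (N (m * r) : E)) fun n hn => ?_
    have h1 := hrec m hm n hn
    have h2 := congrArg (Int.cast (R := E)) h1
    push_cast at h2
    exact h2
  -- constant terms
  have hconstP : ∀ m : ℕ, coeff 0 (∏ i, (1 - C (α i ^ m) * X) : E⟦X⟧) = 1 := by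
    intro m
    rw [coeff_zero_eq_constantCoeff_apply, map_prod]
    refine Finset.prod_eq_one fun i _ => ?_
    simp
  have hconstD : ∀ m, 0 < m → coeff 0 ((1 - X) * (1 - C ((q : E) ^ m) * X) *
      PowerSeries.mk (fun n => (A m n : E)) : E⟦X⟧) = 1 := by
    intro m hm
    rw [coeff_mul, Finset.Nat.antidiagonal_zero, Finset.sum_singleton, coeff_mul,
      Finset.Nat.antidiagonal_zero, Finset.sum_singleton, coeff_mk, hA0 m hm]
    simp
  -- `m = 1`: the power sums
  have hfac1 : (∏ i, (1 - C (α i ^ 1) * X) : E⟦X⟧) =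
      (1 - X) * (1 - C ((q : E) ^ 1) * X) * PowerSeries.mk (fun n => (A 1 n : E)) := by
    rw [← hLE 1 one_pos, hαfac]
    simp only [pow_one]
    rw [← Polynomial.coeToPowerSeries.ringHom_apply, map_prod]
    refine Finset.prod_congr rfl fun i _ => ?_
    simp [Polynomial.coeToPowerSeries.ringHom_apply]
  have hS1 : (PowerSeries.mk fun r => if r = 0 then 0 else (N (1 * r) : E)) =
      geo 1 + geo ((q : E) ^ 1) + ∑ i, -geo (α i ^ 1) := by
    have h1 := (hD 1).mul (hZ 1 one_pos)
    rw [← hfac1] at h1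
    have h2 := hP 1
    unfold LogDer at h1 h2
    have hne : (∏ i, (1 - C (α i ^ 1) * X) : E⟦X⟧) ≠ 0 := fun h0 => by
      have := hconstP 1
      rw [h0, map_zero] at this
      exact zero_ne_one this
    have h3 := mul_left_cancel₀ hne (h1.symm.trans h2)
    rw [← h3]
    ring
  have hN : ∀ r, 0 < r → (N r : E) = (q : E) ^ r + 1 - ∑ i, α i ^ r := by
    intro r hr
    have h1 := congrArg (coeff r) hS1
    rw [coeff_mk, if_neg hr.ne', one_mul, map_add, map_add, map_sum, coeff_geo, coeff_geo,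
      if_neg hr.ne', if_neg hr.ne'] at h1
    rw [h1]
    simp only [map_neg, coeff_geo, if_neg hr.ne', pow_one, one_pow, Finset.sum_neg_distrib]
    ring
  refine ⟨α, hαint, ?_, hN, fun m hm => ?_⟩
  · -- `∏ α_i = q^g`
    have h1 : ∏ i, (-α i) = ∏ i, α i := by
      rw [Finset.prod_neg]
      simp
    rw [← h1, hαprod, hlead]
    push_cast
    rfl
  · -- `h m = ∏ (1 - α_i^m)`
    have hSm : (PowerSeries.mk fun r => if r = 0 then 0 else (N (m * r) : E)) =
        geo 1 + geo ((q : E) ^ m) + ∑ i, -geo (α i ^ m) := by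
      ext r
      rw [coeff_mk, map_add, map_add, map_sum]
      by_cases hr : r = 0
      · subst hr
        simp [coeff_geo_zero, constantCoeff_geo]
      · rw [if_neg hr, hN (m * r) (Nat.mul_pos hm (Nat.pos_of_ne_zero hr)), coeff_geo,
          coeff_geo, if_neg hr, if_neg hr]
        simp only [map_neg, coeff_geo, if_neg hr, one_pow, Finset.sum_neg_distrib, pow_mul]
        ring
    have h1 := (hD m).mul (hZ m hm)
    rw [hSm] at h1
    have e : -geo (1 : E) + -geo ((q : E) ^ m) +
        (geo 1 + geo ((q : E) ^ m) + ∑ i, -geo (α i ^ m)) = ∑ i, -geo (α i ^ m) := by ring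
    rw [e] at h1
    have hS0 : coeff 0 (∑ i, -geo (α i ^ m) : E⟦X⟧) = 0 := by
      rw [map_sum]
      refine Finset.sum_eq_zero fun i _ => ?_
      rw [map_neg, coeff_geo_zero, neg_zero]
    have h2 := LogDer.unique h1 (hP m) hS0 ((hconstD m hm).trans (hconstP m).symm)
    rw [← hLE m hm] at h2
    have h3 : (L m).map (Int.castRingHom E) =
        ∏ i, (1 - Polynomial.C (α i ^ m) * Polynomial.X) := by
      apply Polynomial.coe_injective
      rw [h2, ← Polynomial.coeToPowerSeries.ringHom_apply, map_prod]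
      refine Finset.prod_congr rfl fun i _ => ?_
      simp [Polynomial.coeToPowerSeries.ringHom_apply]
    have h4 := congrArg (Polynomial.eval 1) h3
    rw [Polynomial.eval_one_map, hL1 m hm, Polynomial.eval_prod] at h4
    rw [show ((h m : ℤ) : E) = Int.castRingHom E (h m) from rfl, h4]
    refine Finset.prod_congr rfl fun i _ => ?_
    simp

/-- **(Z-alg), with the integral cofactors** (the shape consumed by (AR)): each `α_i` divides
`q^g` among the algebraic integers. -/
theorem exists_frobenius_roots_cofactor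
    (q g : ℕ) (N : ℕ → ℤ) (h : ℕ → ℤ) (A : ℕ → ℕ → ℤ) (L : ℕ → Polynomial ℤ)
    (hA0 : ∀ m, 0 < m → A m 0 = 1)
    (hrec : ∀ m : ℕ, 0 < m → ∀ n : ℕ, 0 < n →
      (n : ℤ) * A m n = ∑ r ∈ Finset.Icc 1 n, N (m * r) * A m (n - r))
    (hL : ∀ m, 0 < m → ((L m : Polynomial ℤ) : PowerSeries ℤ) =
      (1 - PowerSeries.X) * (1 - PowerSeries.C ((q : ℤ) ^ m) * PowerSeries.X) *
        PowerSeries.mk (A m))
    (hL1 : ∀ m, 0 < m → (L m).eval 1 = h m)
    (hdeg : (L 1).natDegree = 2 * g) (hlead : (L 1).leadingCoeff = (q : ℤ) ^ g) :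
    ∃ α : Fin (2 * g) → E, (∀ i, IsIntegral ℤ (α i)) ∧ ∏ i, α i = (q : E) ^ g ∧
      (∀ i, ∃ β : E, IsIntegral ℤ β ∧ α i * β = (q : E) ^ g) ∧
      (∀ r, 0 < r → (N r : E) = (q : E) ^ r + 1 - ∑ i, α i ^ r) ∧
      ∀ m, 0 < m → ((h m : ℤ) : E) = ∏ i, (1 - α i ^ m) := by
  classical
  obtain ⟨α, hint, hprod, hN, hh⟩ :=
    exists_frobenius_roots (E := E) q g N h A L hA0 hrec hL hL1 hdeg hlead
  refine ⟨α, hint, hprod, fun i => ⟨∏ j ∈ Finset.univ.erase i, α j, ?_, ?_⟩, hN, hh⟩
  · exact IsIntegral.prod _ fun j _ => hint j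
  · rw [Finset.mul_prod_erase Finset.univ α (Finset.mem_univ i), hprod]

/-- **(Z-alg), `ℕ`-valued counts**: the same with `A`, `N`, `h` natural numbers. -/
theorem exists_frobenius_roots_nat
    (q g : ℕ) (N : ℕ → ℕ) (h : ℕ → ℕ) (A : ℕ → ℕ → ℕ) (L : ℕ → Polynomial ℤ)
    (hA0 : ∀ m, 0 < m → A m 0 = 1)
    (hrec : ∀ m : ℕ, 0 < m → ∀ n : ℕ, 0 < n →
      n * A m n = ∑ r ∈ Finset.Icc 1 n, N (m * r) * A m (n - r))
    (hL : ∀ m, 0 < m → ((L m : Polynomial ℤ) : PowerSeries ℤ) =
      (1 - PowerSeries.X) * (1 - PowerSeries.C ((q : ℤ) ^ m) * PowerSeries.X) *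
        PowerSeries.mk (fun n => (A m n : ℤ)))
    (hL1 : ∀ m, 0 < m → (L m).eval 1 = (h m : ℤ))
    (hdeg : (L 1).natDegree = 2 * g) (hlead : (L 1).leadingCoeff = (q : ℤ) ^ g) :
    ∃ α : Fin (2 * g) → E, (∀ i, IsIntegral ℤ (α i)) ∧ ∏ i, α i = (q : E) ^ g ∧
      (∀ i, ∃ β : E, IsIntegral ℤ β ∧ α i * β = (q : E) ^ g) ∧
      (∀ r, 0 < r → (N r : E) = (q : E) ^ r + 1 - ∑ i, α i ^ r) ∧
      ∀ m, 0 < m → (h m : E) = ∏ i, (1 - α i ^ m) := by
  obtain ⟨α, hint, hprod, hcof, hN, hh⟩ :=
    exists_frobenius_roots_cofactor (E := E) q g (fun r => (N r : ℤ)) (fun m => (h m : ℤ))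
      (fun m n => (A m n : ℤ)) L (fun m hm => by simp [hA0 m hm])
      (fun m hm n hn => by exact_mod_cast hrec m hm n hn) hL hL1 hdeg hlead
  refine ⟨α, hint, hprod, hcof, fun r hr => ?_, fun m hm => ?_⟩
  · have := hN r hr
    simpa using this
  · have := hh m hm
    simpa using this

end Main

end Fermat.Agent.S27P.Zeta.ZetaAlg
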