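/-
S27 / (Z) zeta anchor — the ABSTRACT CHAIN from the counting formulas to the `ℓ`-adic valuation
of the class numbers (helper61).  Mathlib + `S27P/Zeta/Rat` (helper95) + `S27P/Zeta/ZetaAlg` +
`S27P/AR` (helper38).

Input, for every `m ≥ 1` (the single-Frobenius theory applied to `φ^m`, `q^m`):

* `A m n` : the number of `φ^m`-fixed effective divisors of degree `n`, `A m 0 = 1`;
  `N r` : the number of `φ^r`-fixed places; `h m` : the number of `φ^m`-fixed classes of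
  degree `0`, `h m ≠ 0`;
* the double count `n · A m n = ∑_{r=1}^{n} N (m r) · A m (n - r)`;
* the non-special range: `(q^m - 1) · A m n = h m · ((q^m)^(n + 1 - g) - 1)` for `n ≥ 2g - 1`;
* degree `2g - 2` (if `g ≥ 1`):
  `(q^m - 1) · A m (2g - 2) = ((q^m)^g - 1) + (h m - 1) · ((q^m)^(g - 1) - 1)`.

Output:
* `exists_roots_of_counts` : algebraic integers `α_1, …, α_{2g}` with `∏ α_i = q^g`,
  `N r = q^r + 1 - ∑ α_i^r`, `h m = ∏ (1 - α_i^m)`;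
* `exists_padicVal_of_counts` : for a prime `ℓ ∤ q` there are `m₁ > 0`, `c` with
  `v_ℓ (h (m₁ · n' · ℓ^j)) = c + 2g · j` for all `j` and all `n' > 0` prime to `ℓ`.
-/
import Mathlib
import Fermat.Agent.S27P.Zeta.Rat
import Fermat.Agent.S27P.Zeta.ZetaAlg
import Fermat.Agent.S27P.AR

set_option autoImplicit false

noncomputable section

namespace Fermat.Agent.S27P.Zeta.ZetaVal

open Finset

section

variable (q g : ℕ) (hq : 1 < q) (N : ℕ → ℤ) (h : ℕ → ℤ) (A : ℕ → ℕ → ℤ)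
  (hA0 : ∀ m, 0 < m → A m 0 = 1)
  (hrec : ∀ m : ℕ, 0 < m → ∀ n : ℕ, 0 < n →
    (n : ℤ) * A m n = ∑ r ∈ Finset.Icc 1 n, N (m * r) * A m (n - r))
  (hb : ∀ m : ℕ, 0 < m → ∀ n : ℕ, 2 * g ≤ n + 1 →
    ((q : ℤ) ^ m - 1) * A m n = h m * (((q : ℤ) ^ m) ^ (n + 1 - g) - 1))
  (hc : ∀ m : ℕ, 0 < m → 0 < g →
    ((q : ℤ) ^ m - 1) * A m (2 * g - 2) =
      (((q : ℤ) ^ m) ^ g - 1) + (h m - 1) * (((q : ℤ) ^ m) ^ (g - 1) - 1))

include hq hA0 hb hc in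
/-- The zeta numerators. -/
theorem exists_Lpoly_family :
    ∃ L : ℕ → Polynomial ℤ,
      (∀ m, 0 < m → ((L m : Polynomial ℤ) : PowerSeries ℤ) =
        (1 - PowerSeries.X) * (1 - PowerSeries.C ((q : ℤ) ^ m) * PowerSeries.X) *
          PowerSeries.mk (A m)) ∧
      (∀ m, 0 < m → (L m).eval 1 = h m) ∧
      (L 1).natDegree = 2 * g ∧ (L 1).leadingCoeff = (q : ℤ) ^ g := by
  classical
  have hQ : ∀ m : ℕ, 0 < m → (1 : ℤ) < (q : ℤ) ^ m := fun m hm => by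
    have h1 : (1 : ℤ) < (q : ℤ) := by exact_mod_cast hq
    exact one_lt_pow₀ h1 hm.ne'
  have key : ∀ m : ℕ, 0 < m → ∃ L : Polynomial ℤ,
      (L : PowerSeries ℤ) = (1 - PowerSeries.X) *
        (1 - PowerSeries.C ((q : ℤ) ^ m) * PowerSeries.X) * PowerSeries.mk (A m) ∧
      L.eval 1 = h m ∧ L.natDegree = 2 * g ∧ L.leadingCoeff = ((q : ℤ) ^ m) ^ g :=
    fun m hm => Rat.exists_Lpoly ((q : ℤ) ^ m) (hQ m hm) g (h m) (A m) (hA0 m hm) (hb m hm)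
      (hc m hm)
  choose! L hL using key
  refine ⟨L, fun m hm => (hL m hm).1, fun m hm => (hL m hm).2.1, (hL 1 one_pos).2.2.1, ?_⟩
  rw [(hL 1 one_pos).2.2.2, pow_one]

include hq hA0 hrec hb hc in
/-- **The Frobenius eigenvalues from the counts.** -/
theorem exists_roots_of_counts {E : Type*} [Field E] [CharZero E] [IsAlgClosed E] :
    ∃ α : Fin (2 * g) → E, (∀ i, IsIntegral ℤ (α i)) ∧ ∏ i, α i = (q : E) ^ g ∧
      (∀ i, ∃ β : E, IsIntegral ℤ β ∧ α i * β = (q : E) ^ g) ∧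
      (∀ r, 0 < r → (N r : E) = (q : E) ^ r + 1 - ∑ i, α i ^ r) ∧
      ∀ m, 0 < m → ((h m : ℤ) : E) = ∏ i, (1 - α i ^ m) := by
  obtain ⟨L, hL, hL1, hdeg, hlead⟩ := exists_Lpoly_family q g hq h A hA0 hb hc
  exact ZetaAlg.exists_frobenius_roots_cofactor q g N h A L hA0 hrec hL hL1 hdeg hlead

include hq hA0 hrec hb hc in
/-- **The `ℓ`-adic valuation of the class numbers from the counts**: for `ℓ ∤ q`,
`v_ℓ (h (m₁ n' ℓ^j)) = c + 2g j`. -/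
theorem exists_padicVal_of_counts (ℓ : ℕ) [Fact ℓ.Prime] (hℓq : ¬ ℓ ∣ q)
    (hh0 : ∀ m, 0 < m → h m ≠ 0) :
    ∃ m₁ : ℕ, 0 < m₁ ∧ ∃ c : ℕ, ∀ j n' : ℕ, 0 < n' → ¬ ℓ ∣ n' →
      padicValInt ℓ (h (m₁ * n' * ℓ ^ j)) = c + 2 * g * j := by
  obtain ⟨α, hint, -, hcof, -, hh⟩ :=
    exists_roots_of_counts (E := AlgebraicClosure ℚ) q g hq N h A hA0 hrec hb hc
  obtain ⟨m₁, hm₁, c, hc'⟩ := AR.exists_padicVal_linear ℓ α hint q g hℓq hcof h hh hh0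
  refine ⟨m₁, hm₁, c, fun j n' hn' hℓn' => ?_⟩
  have := hc' j n' hn' hℓn'
  rwa [Fintype.card_fin] at this

end

end Fermat.Agent.S27P.Zeta.ZetaVal
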