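import Mathlib
import Fermat.Agent.S27P.Zeta.Defs
import Fermat.Agent.S27P.Zeta.FrobStruct
import Fermat.Agent.S27P.Zeta.SemilinFix
import Fermat.Agent.S27P.Zeta.CountClass
import Fermat.Agent.S27P.Zeta.CountRR
import Fermat.Agent.S27P.Zeta.DoubleCountGeo
import Fermat.Agent.S27P.Zeta.ZetaVal
import Fermat.Agent.S27P.GT

/-!
# S27 / (Z): the zeta anchor in characteristic `p` — assembly

`k` an algebraically closed field of characteristic `p`, every element of which is fixed by a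
power of the Frobenius (`halg`, i.e. `k` is an algebraic closure of `𝔽_p`), `F/k` a function
field of one variable (`h : IsFF1 k F x`), `g = genusFF k F`.

* `exists_frob` : a Frobenius structure: `n > 0`, `φ : SemilinearAut k F` acting on `k` as
  `a ↦ a ^ p ^ n`, fixing `x` and a place `P₀`, with finite orbits on `F`;
* `card_fixed_L`, `hline` : Lang's count on `L(D)` and the count of the fixed effective divisors
  of a fixed divisor class;
* `counts_*` : the four counting formulas for the family `φ ^ m`;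
* `exists_roots` : the Frobenius eigenvalues: algebraic integers `α_1, …, α_{2g}` with
  `∏ α_i = q ^ g`, `N_r = q ^ r + 1 - ∑ α_i ^ r`, `h_m = ∏ (1 - α_i ^ m)`;
* `exists_padicVal` : `v_ℓ (h (m₁ n' ℓ^j)) = c + 2 g j` for `ℓ ≠ p`;
* `anchor` : **(ANCHOR)** for `ℓ ≠ p`: `Pic⁰(F)[ℓ]` is finite with at least `ℓ ^ (2 g)` elements,
  and every `ℓ`-primary `ℓ`-divisible subgroup of `Pic⁰(F)` has at most `ℓ ^ (2 g)` elements
  killed by `ℓ`.
-/

set_option autoImplicit false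

noncomputable section

namespace Fermat.Agent.S27P.Zeta.Asm

open AlgebraicCurve Fermat.Agent.Lib.FF Fermat.Agent.TR.Hecke Module Fermat.Agent.S27P.Zeta

universe u v

variable {k : Type u} {F : Type v} [Field k] [Field F] [Algebra k F]

/-! ### Periods -/

/-- If every constant is fixed by a power of the `p`-Frobenius, the same holds for the
`p ^ n`-Frobenius. -/
theorem hK_of_halg {p : ℕ} (halg : ∀ a : k, ∃ m : ℕ, 0 < m ∧ a ^ p ^ m = a) (n : ℕ) :
    ∀ a : k, ∃ m : ℕ, 0 < m ∧ a ^ ((p ^ n) ^ m) = a := by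
  intro a
  obtain ⟨m, hm, ha⟩ := halg a
  refine ⟨m, hm, ?_⟩
  rw [← pow_mul, mul_comm]
  exact FrobStruct.pow_pow_mul_eq_self p ha n

/-! ### The Frobenius structure -/

/-- **A Frobenius structure with a fixed place.** -/
theorem exists_frob [IsAlgClosed k] {p : ℕ} [Fact p.Prime] [CharP k p]
    (halg : ∀ a : k, ∃ m : ℕ, 0 < m ∧ a ^ p ^ m = a) {x : F} (h : IsFF1 k F x) :
    ∃ (n : ℕ) (φ : SemilinearAut k F) (P₀ : Place k F), 0 < n ∧
      (∀ a : k, SemilinearAut.baseAut φ a = a ^ p ^ n) ∧ φ • x = x ∧ φ • P₀ = P₀ ∧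
      ∀ f : F, ∃ m : ℕ, 0 < m ∧ (φ ^ m) • f = f := by
  have := h.finiteDimensional
  have : PerfectRing k p := PerfectField.toPerfectRing p
  obtain ⟨n₀, φ₀, hn₀, hbase₀, hx₀, -, horb₀⟩ :=
    FrobStruct.exists_frobenius_structure p halg x h.transcendental (∅ : Finset F)
  obtain ⟨v⟩ := h.exists_place
  obtain ⟨d, hd, hv⟩ := CountRR.exists_pow_fixed_place h φ₀ hbase₀ hx₀ (hK_of_halg halg n₀) v
  refine ⟨n₀ * d, φ₀ ^ d, v, Nat.mul_pos hn₀ hd, FrobStruct.baseAut_pow hbase₀ d,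
    FrobFin.pow_smul_fixed φ₀ hx₀ d, hv, fun f => ?_⟩
  obtain ⟨m, hm, hf⟩ := horb₀ f
  refine ⟨m, hm, ?_⟩
  rw [← pow_mul, mul_comm, pow_mul]
  exact FrobFin.pow_smul_fixed _ hf d

/-! ### Lang's count on `L(D)` and the fixed divisors of a class -/

/-- **Lang's count on `L(D)`**: for a `ψ`-fixed divisor `D`, `L(D)` has `Q ^ dim L(D)` fixed
vectors. -/
theorem card_fixed_L [IsAlgClosed k] {p : ℕ} [Fact p.Prime] [CharP k p] {x : F}
    (h : IsFF1 k F x) (ψ : SemilinearAut k F) {a Q : ℕ} (ha : 0 < a) (hQ : Q = p ^ a)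
    (hbase : ∀ c : k, SemilinearAut.baseAut ψ c = c ^ Q) {D : Divisor k F} (hD : ψ • D = D) :
    Nat.card {f : F // f ∈ riemannRochSpace D ∧ ψ • f = f}
      = Q ^ finrank k (riemannRochSpace D) := by
  have : FiniteDimensional k (riemannRochSpace D) := h.finite_L D
  exact SemilinFix.card_fixed_submodule (k := k) (p := p) ha hQ (E := F)
    (DistribSMul.toAddMonoidHom F ψ)
    (fun c f => by
      show ψ • (c • f) = c ^ Q • ψ • f
      rw [Algebra.smul_def, Algebra.smul_def, smul_mul', SemilinearAut.smul_algebraMap, hbase])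
    (MulAction.injective ψ) (riemannRochSpace D)
    (fun f hf => by
      have h1 := CountRR.smul_mem_L ψ hf
      rw [hD] at h1
      exact h1)

/-- **The fixed effective divisors of a fixed divisor class**:
`(Q - 1) * #{E ≥ 0 : ψ • E = E, E ~ D} + 1 = Q ^ dim L(D)`. -/
theorem hline [IsAlgClosed k] {p : ℕ} [Fact p.Prime] [CharP k p] {x : F}
    (h : IsFF1 k F x) (ψ : SemilinearAut k F) {a Q : ℕ} (ha : 0 < a) (hQ : Q = p ^ a)
    (hbase : ∀ c : k, SemilinearAut.baseAut ψ c = c ^ Q) (D : Divisor k F) (hD : ψ • D = D) :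
    ((Q : ℤ) - 1) * (Nat.card (CountRR.FixLin ψ D) : ℤ) + 1
      = (Q : ℤ) ^ finrank k (riemannRochSpace D) := by
  have := h.hasPrincipalDivisors
  have hQ0 : Q ≠ 0 := by
    rw [hQ]
    exact (pow_pos (Fact.out : p.Prime).pos a).ne'
  have h1 := CountClass.card_fixed_effective_of_count ψ ha hQ hbase h.const_of_ord_nonneg hD
    (N := Q ^ finrank k (riemannRochSpace D)) (pow_ne_zero _ hQ0) (card_fixed_L h ψ ha hQ hbase hD)
  have h2 : Nat.card (CountRR.FixLin ψ D) = Nat.card {E : Divisor k F // (∀ v, 0 ≤ E v) ∧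
      ψ • E = E ∧ E - D ∈ Divisor.principal (K := k) (F := F)} := rfl
  rw [h2]
  have h3 : ((Q - 1 : ℕ) : ℤ) = (Q : ℤ) - 1 := by
    have : 1 ≤ Q := Nat.pos_of_ne_zero hQ0
    push_cast [Nat.cast_sub this]
    ring
  rw [← h3]
  exact_mod_cast h1

/-! ### The counting formulas -/

/-- The two descriptions of the fixed effective divisors of degree `n` agree. -/
theorem fixEff_eq_FixEff (ψ : SemilinearAut k F) (n : ℕ) : fixEff ψ n = CountRR.FixEff ψ n := by
  ext E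
  show (0 ≤ E ∧ Divisor.degree E = (n : ℤ) ∧ ψ • E = E) ↔
    ((∀ v, 0 ≤ E v) ∧ Divisor.degree E = (n : ℤ) ∧ ψ • E = E)
  have h0 : 0 ≤ E ↔ ∀ v, 0 ≤ E v := by
    rw [Finsupp.le_def]
    exact forall_congr' fun v => by rw [Finsupp.zero_apply]
  rw [h0]

section Counts

variable [IsAlgClosed k] {p : ℕ} [Fact p.Prime] [CharP k p] {x : F} (h : IsFF1 k F x)
  (φ : SemilinearAut k F) {n : ℕ} (hn : 0 < n)
  (hbase : ∀ a : k, SemilinearAut.baseAut φ a = a ^ p ^ n) (hx : φ • x = x)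
  (P₀ : Place k F) (hP₀ : φ • P₀ = P₀)

omit [IsAlgClosed k] [CharP k p] in
include hn in
theorem one_lt_q : 1 < p ^ n := Nat.one_lt_pow hn.ne' (Fact.out : p.Prime).one_lt

omit [IsAlgClosed k] [CharP k p] in
include hn in
theorem one_lt_q_pow {m : ℕ} (hm : 0 < m) : 1 < (p ^ n) ^ m :=
  Nat.one_lt_pow hm.ne' (one_lt_q hn)

omit [IsAlgClosed k] [CharP k p] in
include h hn hbase hx in
/-- The `φ ^ r`-fixed places are finitely many. -/
theorem finite_fixPlaces (r : ℕ) (hr : 0 < r) : (fixPlaces (φ ^ r)).Finite :=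
  FrobFin.finite_fixed_places h (φ ^ r) (FrobFin.pow_smul_fixed φ hx r) (one_lt_q_pow hn hr)
    (FrobFin.baseAut_pow φ hbase r)

omit [CharP k p] in
include h hn hbase hx in
/-- The `φ ^ m`-fixed classes are finitely many. -/
theorem finite_fixPic (m : ℕ) (hm : 0 < m) : (fixPic (φ ^ m)).Finite :=
  FrobFin.finite_fixed_classes h (φ ^ m) (one_lt_q_pow hn hm) (FrobFin.baseAut_pow φ hbase m)
    (FrobFin.pow_smul_fixed φ hx m)

omit [CharP k p] in
include h hn hbase hx in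
/-- The number of `φ ^ m`-fixed classes is not zero. -/
theorem card_fixPic_ne_zero (m : ℕ) (hm : 0 < m) :
    (Nat.card {y : Pic0 k F // φ ^ m • y = y} : ℤ) ≠ 0 := by
  have hfin := finite_fixPic h φ hn hbase hx m hm
  have hne : (fixPic (φ ^ m)).Nonempty := ⟨0, mem_fixPic.2 (smul_zero (A := Pic0 k F) (φ ^ m))⟩
  have h1 : Nat.card {y : Pic0 k F // φ ^ m • y = y} = (fixPic (φ ^ m)).ncard := rfl
  rw [h1]
  exact_mod_cast (Set.ncard_pos hfin).2 hne |>.ne'

omit [IsAlgClosed k] [Fact p.Prime] [CharP k p] in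
include h in
/-- `A_0 = 1`. -/
theorem counts_zero (m : ℕ) : (Nat.card (fixEff (φ ^ m) 0) : ℤ) = 1 := by
  rw [DoubleCountGeo.card_fixEff_zero h]
  rfl

omit [IsAlgClosed k] [CharP k p] in
include h hn hbase hx in
/-- The double count `n' · A_n' = ∑ N_(m r) · A_(n' - r)`. -/
theorem counts_rec (m : ℕ) (hm : 0 < m) (n' : ℕ) :
    (n' : ℤ) * (Nat.card (fixEff (φ ^ m) n') : ℤ) =
      ∑ r ∈ Finset.Icc 1 n', (Nat.card (fixPlaces (φ ^ (m * r))) : ℤ) *
        (Nat.card (fixEff (φ ^ m) (n' - r)) : ℤ) :=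
  DoubleCountGeo.double_count_geo_pow h φ (finite_fixPlaces h φ hn hbase hx) m hm n'

include h hn hbase hx hP₀ in
/-- The non-special range. -/
theorem counts_large (m : ℕ) (hm : 0 < m) (n' : ℕ) (hn' : 2 * genusFF k F ≤ n' + 1) :
    (((p ^ n : ℕ) : ℤ) ^ m - 1) * (Nat.card (fixEff (φ ^ m) n') : ℤ) =
      (Nat.card {y : Pic0 k F // φ ^ m • y = y} : ℤ) *
        ((((p ^ n : ℕ) : ℤ) ^ m) ^ (n' + 1 - genusFF k F) - 1) := by
  have hQ : (p ^ n) ^ m = p ^ (n * m) := (pow_mul p n m).symm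
  have hbase' : ∀ a : k, SemilinearAut.baseAut (φ ^ m) a = a ^ (p ^ n) ^ m :=
    FrobFin.baseAut_pow φ hbase m
  have h1 := CountRR.count_large h (φ ^ m) (one_lt_q_pow hn hm) hbase'
    (FrobFin.pow_smul_fixed φ hx m) P₀ (FrobFin.pow_smul_fixed φ hP₀ m)
    (hline h (φ ^ m) (Nat.mul_pos hn hm) hQ hbase') n' hn'
  rw [fixEff_eq_FixEff]
  push_cast at h1 ⊢
  exact h1

include h hn hbase hx hP₀ in
/-- Degree `2 g - 2`. -/
theorem counts_canonical (m : ℕ) (hm : 0 < m) (hgen : 0 < genusFF k F) :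
    (((p ^ n : ℕ) : ℤ) ^ m - 1) * (Nat.card (fixEff (φ ^ m) (2 * genusFF k F - 2)) : ℤ) =
      ((((p ^ n : ℕ) : ℤ) ^ m) ^ genusFF k F - 1) +
        ((Nat.card {y : Pic0 k F // φ ^ m • y = y} : ℤ) - 1) *
          ((((p ^ n : ℕ) : ℤ) ^ m) ^ (genusFF k F - 1) - 1) := by
  have hQ : (p ^ n) ^ m = p ^ (n * m) := (pow_mul p n m).symm
  have hbase' : ∀ a : k, SemilinearAut.baseAut (φ ^ m) a = a ^ (p ^ n) ^ m :=
    FrobFin.baseAut_pow φ hbase m
  have h1 := CountRR.count_canonical h (φ ^ m) (one_lt_q_pow hn hm) hbase'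
    (FrobFin.pow_smul_fixed φ hx m) P₀ (FrobFin.pow_smul_fixed φ hP₀ m)
    (hline h (φ ^ m) (Nat.mul_pos hn hm) hQ hbase') hgen
  rw [fixEff_eq_FixEff]
  push_cast at h1 ⊢
  exact h1

include h hn hbase hx hP₀ in
/-- **The Frobenius eigenvalues.** -/
theorem exists_roots {E : Type*} [Field E] [CharZero E] [IsAlgClosed E] :
    ∃ α : Fin (2 * genusFF k F) → E, (∀ i, IsIntegral ℤ (α i)) ∧
      ∏ i, α i = ((p ^ n : ℕ) : E) ^ genusFF k F ∧
      (∀ r, 0 < r → ((Nat.card (fixPlaces (φ ^ r)) : ℤ) : E)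
        = ((p ^ n : ℕ) : E) ^ r + 1 - ∑ i, α i ^ r) ∧
      ∀ m, 0 < m → ((Nat.card {y : Pic0 k F // φ ^ m • y = y} : ℤ) : E)
        = ∏ i, (1 - α i ^ m) := by
  obtain ⟨α, h1, h2, -, h4, h5⟩ := ZetaVal.exists_roots_of_counts (E := E) (p ^ n) (genusFF k F)
    (one_lt_q hn)
    (fun r => (Nat.card (fixPlaces (φ ^ r)) : ℤ))
    (fun m => (Nat.card {y : Pic0 k F // φ ^ m • y = y} : ℤ))
    (fun m n' => (Nat.card (fixEff (φ ^ m) n') : ℤ))
    (fun m _ => counts_zero h φ m)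
    (fun m hm n' _ => counts_rec h φ hn hbase hx m hm n')
    (fun m hm n' hn' => counts_large h φ hn hbase hx P₀ hP₀ m hm n' hn')
    (fun m hm hgen => counts_canonical h φ hn hbase hx P₀ hP₀ m hm hgen)
  exact ⟨α, h1, h2, h4, h5⟩

include h hn hbase hx hP₀ in
/-- **The `ℓ`-adic valuation of the class numbers**, `ℓ ≠ p`. -/
theorem exists_padicVal (ℓ : ℕ) [Fact ℓ.Prime] (hℓ : ℓ ≠ p) :
    ∃ m₁ : ℕ, 0 < m₁ ∧ ∃ c : ℕ, ∀ j n' : ℕ, 0 < n' → ¬ ℓ ∣ n' →
      padicValInt ℓ (Nat.card {y : Pic0 k F // φ ^ (m₁ * n' * ℓ ^ j) • y = y} : ℤ)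
        = c + 2 * genusFF k F * j := by
  have hℓq : ¬ ℓ ∣ p ^ n := by
    intro hdvd
    have h1 := (Fact.out : ℓ.Prime).dvd_of_dvd_pow hdvd
    exact hℓ ((Nat.prime_dvd_prime_iff_eq (Fact.out : ℓ.Prime) (Fact.out : p.Prime)).1 h1)
  exact ZetaVal.exists_padicVal_of_counts (p ^ n) (genusFF k F) (one_lt_q hn)
    (fun r => (Nat.card (fixPlaces (φ ^ r)) : ℤ))
    (fun m => (Nat.card {y : Pic0 k F // φ ^ m • y = y} : ℤ))
    (fun m n' => (Nat.card (fixEff (φ ^ m) n') : ℤ))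
    (fun m _ => counts_zero h φ m)
    (fun m hm n' _ => counts_rec h φ hn hbase hx m hm n')
    (fun m hm n' hn' => counts_large h φ hn hbase hx P₀ hP₀ m hm n' hn')
    (fun m hm hgen => counts_canonical h φ hn hbase hx P₀ hP₀ m hm hgen)
    ℓ hℓq (fun m hm => card_fixPic_ne_zero h φ hn hbase hx m hm)

end Counts

/-! ### The anchor -/

/-- **(ANCHOR).**  `k` algebraically closed of characteristic `p`, every element fixed by a power
of the Frobenius; `F/k` a function field of one variable, `ℓ ≠ p` a prime.  Then `Pic⁰(F)[ℓ]` is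
finite with at least `ℓ ^ (2 g)` elements, and every `ℓ`-primary `ℓ`-divisible subgroup of
`Pic⁰(F)` has at most `ℓ ^ (2 g)` elements killed by `ℓ`. -/
theorem anchor [IsAlgClosed k] {p : ℕ} [Fact p.Prime] [CharP k p]
    (halg : ∀ a : k, ∃ m : ℕ, 0 < m ∧ a ^ p ^ m = a) {x : F} (h : IsFF1 k F x)
    (ℓ : ℕ) [Fact ℓ.Prime] (hℓ : ℓ ≠ p) :
    Finite {c : Pic0 k F // ℓ • c = 0} ∧
    ℓ ^ (2 * genusFF k F) ≤ Nat.card {c : Pic0 k F // ℓ • c = 0} ∧
    ∀ D : AddSubgroup (Pic0 k F), (∀ c ∈ D, ∃ n : ℕ, ℓ ^ n • c = 0) →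
      (∀ c ∈ D, ∃ y ∈ D, ℓ • y = c) →
      Nat.card {c : Pic0 k F // c ∈ D ∧ ℓ • c = 0} ≤ ℓ ^ (2 * genusFF k F) := by
  obtain ⟨n, φ, P₀, hn, hbase, hx, hP₀, -⟩ := exists_frob halg h
  obtain ⟨m₁, hm₁, c, hval⟩ := exists_padicVal h φ hn hbase hx P₀ hP₀ ℓ hℓ
  exact GT.anchor_of_counts_smul_int ℓ φ
    (fun m => (Nat.card {y : Pic0 k F // φ ^ m • y = y} : ℤ)) m₁ c (2 * genusFF k F) hm₁
    (fun m _ => rfl) (fun m hm => card_fixPic_ne_zero h φ hn hbase hx m hm)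
    (fun y => CountRR.exists_pow_fixed_class h φ hbase hx (hK_of_halg halg n) y) hval

end Fermat.Agent.S27P.Zeta.Asm

end
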