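import Mathlib
import Fermat.Agent.S27P.Zeta.Asm

/-!
# S27 / (ANCHOR): the zeta anchor in characteristic `p`

`k` an algebraically closed field of characteristic `p` every element of which is fixed by a
power of the Frobenius (i.e. `k` is an algebraic closure of `𝔽_p`), `F/k` a function field of one
variable (`h : IsFF1 k F x`), `ℓ ≠ p` a prime.  Then `Pic⁰(F)[ℓ]` is finite with at least
`ℓ ^ (2 g)` elements (`g = genusFF k F`), and every `ℓ`-primary `ℓ`-divisible subgroup of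
`Pic⁰(F)` has at most `ℓ ^ (2 g)` elements killed by `ℓ`.

This file only restates `Asm.anchor` under the name announced to the consumers, and adds the
form with `k` algebraic over `ZMod p`.
-/

set_option autoImplicit false

namespace Fermat.Agent.S27P.Zeta.Anchor

open AlgebraicCurve Fermat.Agent.Lib.FF

universe u v

variable {k : Type u} {F : Type v} [Field k] [Field F] [Algebra k F]

/-- **(ANCHOR).** -/
theorem anchor [IsAlgClosed k] {p : ℕ} [Fact p.Prime] [CharP k p]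
    (halg : ∀ a : k, ∃ m : ℕ, 0 < m ∧ a ^ p ^ m = a) {x : F} (h : IsFF1 k F x)
    (ℓ : ℕ) [Fact ℓ.Prime] (hℓ : ℓ ≠ p) :
    Finite {c : Pic0 k F // ℓ • c = 0} ∧
    ℓ ^ (2 * genusFF k F) ≤ Nat.card {c : Pic0 k F // ℓ • c = 0} ∧
    ∀ D : AddSubgroup (Pic0 k F), (∀ c ∈ D, ∃ n : ℕ, ℓ ^ n • c = 0) →
      (∀ c ∈ D, ∃ y ∈ D, ℓ • y = c) →
      Nat.card {c : Pic0 k F // c ∈ D ∧ ℓ • c = 0} ≤ ℓ ^ (2 * genusFF k F) :=
  Asm.anchor halg h ℓ hℓ

/-- **(ANCHOR)**, for `k` algebraic over `ZMod p`. -/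
theorem anchor_of_isAlgebraic [IsAlgClosed k] {p : ℕ} [Fact p.Prime] [CharP k p]
    [Algebra (ZMod p) k] [Algebra.IsAlgebraic (ZMod p) k] {x : F} (h : IsFF1 k F x)
    (ℓ : ℕ) [Fact ℓ.Prime] (hℓ : ℓ ≠ p) :
    Finite {c : Pic0 k F // ℓ • c = 0} ∧
    ℓ ^ (2 * genusFF k F) ≤ Nat.card {c : Pic0 k F // ℓ • c = 0} ∧
    ∀ D : AddSubgroup (Pic0 k F), (∀ c ∈ D, ∃ n : ℕ, ℓ ^ n • c = 0) →
      (∀ c ∈ D, ∃ y ∈ D, ℓ • y = c) →
      Nat.card {c : Pic0 k F // c ∈ D ∧ ℓ • c = 0} ≤ ℓ ^ (2 * genusFF k F) :=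
  Asm.anchor (fun a => Fermat.Agent.S27P.Zeta.FrobStruct.halg_of_isAlgebraic p a) h ℓ hℓ

end Fermat.Agent.S27P.Zeta.Anchor
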