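import Mathlib
import Fermat.Agent.S27P.Zeta.Anchor
import Fermat.Agent.S27P.GR.PlaceExt

/-!
# S27: the seam (PLX-2) + (ANCHOR)

For an algebraically closed field `K` of characteristic zero, a finite set `s ⊆ K` and a prime
`ℓ`: a valuation subring `A ∋ s` of `K` whose residue field `k` is algebraically closed of
characteristic `p ≠ ℓ`, such that **every** function field `Ft/k` of one variable
(`IsFF1 k Ft xt`) satisfies the conclusion of the zeta anchor at `ℓ`:
`Pic⁰(Ft)[ℓ]` is finite with at least `ℓ ^ (2 g)` elements and every `ℓ`-primary `ℓ`-divisible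
subgroup of `Pic⁰(Ft)` has at most `ℓ ^ (2 g)` elements killed by `ℓ`.
-/

set_option autoImplicit false

namespace Fermat.Agent.S27P.Zeta.AnchorAt

open AlgebraicCurve Fermat.Agent.Lib.FF

universe u v

/-- The conclusion of the zeta anchor for `Ft/k` at `ℓ` (the hypothesis `hanchor` of the top
seam). -/
def AnchorProp (k : Type u) (Ft : Type v) [Field k] [Field Ft] [Algebra k Ft] (ℓ : ℕ) : Prop :=
  Finite {c : Pic0 k Ft // ℓ • c = 0} ∧
    ℓ ^ (2 * genusFF k Ft) ≤ Nat.card {c : Pic0 k Ft // ℓ • c = 0} ∧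
    ∀ D : AddSubgroup (Pic0 k Ft), (∀ c ∈ D, ∃ n : ℕ, ℓ ^ n • c = 0) →
      (∀ c ∈ D, ∃ y ∈ D, ℓ • y = c) →
      Nat.card {c : Pic0 k Ft // c ∈ D ∧ ℓ • c = 0} ≤ ℓ ^ (2 * genusFF k Ft)

theorem anchorProp_iff (k : Type u) (Ft : Type v) [Field k] [Field Ft] [Algebra k Ft] (ℓ : ℕ) :
    AnchorProp k Ft ℓ ↔
      (Finite {c : Pic0 k Ft // ℓ • c = 0} ∧
        ℓ ^ (2 * genusFF k Ft) ≤ Nat.card {c : Pic0 k Ft // ℓ • c = 0} ∧
        ∀ D : AddSubgroup (Pic0 k Ft), (∀ c ∈ D, ∃ n : ℕ, ℓ ^ n • c = 0) →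
          (∀ c ∈ D, ∃ y ∈ D, ℓ • y = c) →
          Nat.card {c : Pic0 k Ft // c ∈ D ∧ ℓ • c = 0} ≤ ℓ ^ (2 * genusFF k Ft)) :=
  Iff.rfl

/-- **(ANCHOR) over the residue field of a valuation ring**: if the residue field `k` of `A` is
algebraically closed of characteristic `p ≠ ℓ` and every element of `k` is fixed by a power of the
Frobenius, every function field of one variable over `k` satisfies the anchor at `ℓ`. -/
theorem anchor_residueField {K : Type u} [Field K] (A : ValuationSubring K) {p : ℕ}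
    (hp : p.Prime) (hchar : CharP (IsLocalRing.ResidueField A) p)
    (hclosed : IsAlgClosed (IsLocalRing.ResidueField A))
    (halg : ∀ y : IsLocalRing.ResidueField A, ∃ n : ℕ, 0 < n ∧ y ^ (p ^ n) = y)
    (ℓ : ℕ) [Fact ℓ.Prime] (hℓ : ℓ ≠ p)
    (Ft : Type v) [Field Ft] [Algebra (IsLocalRing.ResidueField A) Ft] {xt : Ft}
    (h : IsFF1 (IsLocalRing.ResidueField A) Ft xt) :
    AnchorProp (IsLocalRing.ResidueField A) Ft ℓ := by
  have : Fact p.Prime := ⟨hp⟩
  exact Anchor.anchor halg h ℓ hℓ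

/-- **(PLX-2) + (ANCHOR)**: the valuation ring of the mixed instance, with the anchor at `ℓ` for
every function field over its residue field. -/
theorem exists_valuationSubring_anchor {K : Type u} [Field K] [IsAlgClosed K] [CharZero K]
    (s : Finset K) (ℓ : ℕ) [Fact ℓ.Prime] :
    ∃ (p : ℕ) (A : ValuationSubring K), p.Prime ∧ ℓ ≠ p ∧ (∀ a ∈ s, a ∈ A) ∧
      CharP (IsLocalRing.ResidueField A) p ∧ IsAlgClosed (IsLocalRing.ResidueField A) ∧
      (∀ y : IsLocalRing.ResidueField A, ∃ n : ℕ, 0 < n ∧ y ^ (p ^ n) = y) ∧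
      ∀ (Ft : Type v) [Field Ft] [Algebra (IsLocalRing.ResidueField A) Ft] (xt : Ft),
        IsFF1 (IsLocalRing.ResidueField A) Ft xt →
          AnchorProp (IsLocalRing.ResidueField A) Ft ℓ := by
  have hℓ : ℓ.Prime := Fact.out
  obtain ⟨p, A, hp, hpℓ, hs, hchar, hclosed, halg⟩ :=
    Fermat.Agent.S27P.GR.PlaceExt.exists_valuationSubring_mixed_charZero s ℓ hℓ.ne_zero
  have hne : ℓ ≠ p := by
    rintro rfl
    exact hpℓ dvd_rfl
  exact ⟨p, A, hp, hne, hs, hchar, hclosed, halg, fun Ft _ _ xt h =>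
    anchor_residueField A hp hchar hclosed halg ℓ hne Ft h⟩

end Fermat.Agent.S27P.Zeta.AnchorAt
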