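import Mathlib
import Fermat.Agent.S27P.Zeta.CountClass
import Fermat.Agent.S27P.Zeta.SemilinFix
import Fermat.Agent.S27P.Zeta.CountRR

/-!
# S27, zeta anchor, brick (Z5a), closed form: the per-class count of Frobenius-fixed divisors

`CountClass.card_fixed_effective_of_count` + Lang's count `SemilinFix.card_fixed_submodule`
on `L(D)`:

* `card_fixed_vectors` : a `φ`-fixed divisor `D` has `q ^ dim L(D)` fixed vectors in `L(D)`;
* `card_fixed_effective` : `(q - 1) * #{E ≥ 0 : φ • E = E, E ~ D} + 1 = q ^ dim L(D)` for a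
  `φ`-fixed divisor `D`;
* `card_fixed_effective_class` : the same when only the class of `D` is fixed;
* `hline` : the named hypothesis `hline` of `CountRR` (vocabulary `IsFF1`, `FixLin`, `ℤ`).
-/

set_option autoImplicit false

noncomputable section

namespace Fermat.Agent.S27P.Zeta.CountLine

open AlgebraicCurve Module
open Fermat.Agent.S27P.Zeta.FixedClass Fermat.Agent.S27P.Zeta.CountClass

variable {k F : Type*} [Field k] [Field F] [Algebra k F]

variable (φ : SemilinearAut k F)

/-- `L(D)` is `φ`-stable when `D` is `φ`-fixed. -/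
theorem smul_mem_L {D : Divisor k F} (hD : φ • D = D) {x : F} (hx : x ∈ riemannRochSpace D) :
    φ • x ∈ riemannRochSpace D := by
  rw [mem_riemannRochSpace_iff] at hx ⊢
  intro v
  rcases hx (φ⁻¹ • v) with h | h
  · left
    rw [h, smul_zero]
  · right
    rw [ord_smul_eq]
    have hDv : D (φ⁻¹ • v) = D v := by
      rw [← SemilinearAut.divisor_smul_apply, hD]
    rw [← hDv]
    exact h

/-- **Lang's count on `L(D)`**: a `φ`-fixed divisor `D` has `q ^ dim L(D)` fixed vectors. -/
theorem card_fixed_vectors [IsAlgClosed k] {p : ℕ} [Fact p.Prime] [CharP k p] {a q : ℕ}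
    (ha : 0 < a) (hq : q = p ^ a) (hbase : ∀ c : k, SemilinearAut.baseAut φ c = c ^ q)
    {D : Divisor k F} (hD : φ • D = D) [FiniteDimensional k (riemannRochSpace D)] :
    Nat.card {x : F // x ∈ riemannRochSpace D ∧ φ • x = x}
      = q ^ finrank k (riemannRochSpace D) :=
  SemilinFix.card_fixed_submodule (k := k) (p := p) ha hq
    (DistribSMul.toAddMonoidHom F φ)
    (fun c v => by
      show φ • (c • v) = c ^ q • φ • v
      rw [Algebra.smul_def, Algebra.smul_def, smul_const_mul φ hbase])
    (MulAction.injective φ) (riemannRochSpace D) (fun x hx => smul_mem_L φ hD hx)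

/-- **(Z5a)** for a `φ`-fixed divisor `D`:
`(q - 1) * #{E ≥ 0 : φ • E = E, E ~ D} + 1 = q ^ dim L(D)`. -/
theorem card_fixed_effective [IsAlgClosed k] [HasPrincipalDivisors k F]
    {p : ℕ} [Fact p.Prime] [CharP k p] {a q : ℕ} (ha : 0 < a) (hq : q = p ^ a)
    (hbase : ∀ c : k, SemilinearAut.baseAut φ c = c ^ q)
    (hconst : ∀ f : F, (∀ v : Place k F, 0 ≤ v.ord f) → ∃ c : k, f = algebraMap k F c)
    {D : Divisor k F} (hD : φ • D = D) [FiniteDimensional k (riemannRochSpace D)] :
    (q - 1) * Nat.card {E : Divisor k F // (∀ v, 0 ≤ E v) ∧ φ • E = E ∧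
        E - D ∈ Divisor.principal (K := k) (F := F)} + 1
      = q ^ finrank k (riemannRochSpace D) := by
  have hq0 : q ≠ 0 := by
    rw [hq]
    exact (pow_pos (Fact.out : p.Prime).pos a).ne'
  exact card_fixed_effective_of_count φ ha hq hbase hconst hD (pow_ne_zero _ hq0)
    (card_fixed_vectors φ ha hq hbase hD)

/-- **(Z5a), class form**: if the class of `D` is `φ`-fixed,
`(q - 1) * #{E ≥ 0 : φ • E = E, E ~ D} + 1 = q ^ dim L(D)`. -/
theorem card_fixed_effective_class [IsAlgClosed k] [HasPrincipalDivisors k F]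
    {p : ℕ} [Fact p.Prime] [CharP k p] {a q : ℕ} (ha : 0 < a) (hq : q = p ^ a)
    (hbase : ∀ c : k, SemilinearAut.baseAut φ c = c ^ q)
    (horbP : ∀ v : Place k F, ∃ n : ℕ, 0 < n ∧ (φ ^ n) • v = v)
    (hconst : ∀ f : F, (∀ v : Place k F, 0 ≤ v.ord f) → ∃ c : k, f = algebraMap k F c)
    (hfin : ∀ D : Divisor k F, Module.Finite k (riemannRochSpace D))
    {D : Divisor k F} (hD : φ • D - D ∈ Divisor.principal (K := k) (F := F)) :
    (q - 1) * Nat.card {E : Divisor k F // (∀ v, 0 ≤ E v) ∧ φ • E = E ∧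
        E - D ∈ Divisor.principal (K := k) (F := F)} + 1
      = q ^ finrank k (riemannRochSpace D) :=
  card_fixed_effective_class_of_count φ ha hq hbase horbP hconst
    (fun D' hD' => by
      have := hfin D'
      exact card_fixed_vectors φ ha hq hbase hD') hD

/-- The hypothesis `hline` of `CountRR` (`sum_formula`, `count_large`, `count_canonical`), as a
theorem. -/
theorem hline {x : F} [IsAlgClosed k] (h : Fermat.Agent.Lib.FF.IsFF1 k F x)
    {p : ℕ} [Fact p.Prime] [CharP k p] {a q : ℕ} (ha : 0 < a) (hq : q = p ^ a)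
    (hg : ∀ c : k, SemilinearAut.baseAut φ c = c ^ q) :
    ∀ D : Divisor k F, φ • D = D →
      ((q : ℤ) - 1) * (Nat.card (Fermat.Agent.S27P.Zeta.CountRR.FixLin φ D) : ℤ) + 1
        = (q : ℤ) ^ finrank k (riemannRochSpace D) := by
  intro D hD
  have := h.hasPrincipalDivisors
  have : FiniteDimensional k (riemannRochSpace D) := h.finite_L D
  have hq1 : 1 ≤ q := by
    rw [hq]
    exact pow_pos (Fact.out : p.Prime).pos a
  have key := card_fixed_effective φ ha hq hg h.const_of_ord_nonneg hD
  have key' : (q - 1) * Nat.card (Fermat.Agent.S27P.Zeta.CountRR.FixLin φ D) + 1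
      = q ^ finrank k (riemannRochSpace D) := key
  have hcast := congrArg (Nat.cast : ℕ → ℤ) key'
  push_cast [Nat.cast_sub hq1] at hcast
  exact hcast

end Fermat.Agent.S27P.Zeta.CountLine
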