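import Mathlib
import Fermat.Agent.S27P.Zeta.CountLine

/-!
# S27, zeta anchor, row (Z-LINES): the count of fixed effective divisors in a fixed class

`card_fixed_in_class` is the literal of the row (`0 ≤ E` in the `Finsupp` order, vocabulary
`IsFF1`); it is `CountLine.card_fixed_effective` restated.
-/

set_option autoImplicit false

noncomputable section

namespace Fermat.Agent.S27P.Zeta.ClassCount

open AlgebraicCurve Fermat.Agent.Lib.FF

variable {k F : Type*} [Field k] [Field F] [Algebra k F]

/-- **(Z-LINES)** For a `φ`-fixed divisor `D`: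
`#{E ≥ 0 : φ • E = E, E ~ D} * (q - 1) + 1 = q ^ dim L(D)`. -/
theorem card_fixed_in_class [IsAlgClosed k] {p : ℕ} [Fact p.Prime] [CharP k p] {x : F}
    (h : IsFF1 k F x) (φ : SemilinearAut k F) {a q : ℕ} (ha : 0 < a) (hq : q = p ^ a)
    (hbase : ∀ c : k, SemilinearAut.baseAut φ c = c ^ q) (D : Divisor k F) (hD : φ • D = D) :
    Nat.card {E : Divisor k F // 0 ≤ E ∧ φ • E = E ∧
        E - D ∈ Divisor.principal (K := k) (F := F)} * (q - 1) + 1
      = q ^ Module.finrank k (riemannRochSpace D) := by
  have := h.hasPrincipalDivisors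
  have : FiniteDimensional k (riemannRochSpace D) := h.finite_L D
  have key := CountLine.card_fixed_effective φ ha hq hbase h.const_of_ord_nonneg hD
  have hcongr : Nat.card {E : Divisor k F // 0 ≤ E ∧ φ • E = E ∧
        E - D ∈ Divisor.principal (K := k) (F := F)}
      = Nat.card {E : Divisor k F // (∀ v, 0 ≤ E v) ∧ φ • E = E ∧
        E - D ∈ Divisor.principal (K := k) (F := F)} := by
    refine Nat.card_congr (Equiv.subtypeEquivRight fun E => ?_)
    have h0 : 0 ≤ E ↔ ∀ v, 0 ≤ E v := by
      rw [Finsupp.le_def]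
      exact forall_congr' fun v => by rw [Finsupp.zero_apply]
    rw [h0]
  rw [hcongr, mul_comm]
  exact key

/-- The same for a divisor `D` whose class is `φ`-fixed (`φ • D - D` principal), when every
place has a finite `φ`-orbit. -/
theorem card_fixed_in_class_of_class [IsAlgClosed k] {p : ℕ} [Fact p.Prime] [CharP k p] {x : F}
    (h : IsFF1 k F x) (φ : SemilinearAut k F) {a q : ℕ} (ha : 0 < a) (hq : q = p ^ a)
    (hbase : ∀ c : k, SemilinearAut.baseAut φ c = c ^ q)
    (horbP : ∀ v : Place k F, ∃ n : ℕ, 0 < n ∧ (φ ^ n) • v = v)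
    (D : Divisor k F) (hD : φ • D - D ∈ Divisor.principal (K := k) (F := F)) :
    Nat.card {E : Divisor k F // 0 ≤ E ∧ φ • E = E ∧
        E - D ∈ Divisor.principal (K := k) (F := F)} * (q - 1) + 1
      = q ^ Module.finrank k (riemannRochSpace D) := by
  have := h.hasPrincipalDivisors
  have key := CountLine.card_fixed_effective_class φ ha hq hbase horbP h.const_of_ord_nonneg
    (fun D' => h.finite_L D') hD
  have hcongr : Nat.card {E : Divisor k F // 0 ≤ E ∧ φ • E = E ∧
        E - D ∈ Divisor.principal (K := k) (F := F)}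
      = Nat.card {E : Divisor k F // (∀ v, 0 ≤ E v) ∧ φ • E = E ∧
        E - D ∈ Divisor.principal (K := k) (F := F)} := by
    refine Nat.card_congr (Equiv.subtypeEquivRight fun E => ?_)
    have h0 : 0 ≤ E ↔ ∀ v, 0 ≤ E v := by
      rw [Finsupp.le_def]
      exact forall_congr' fun v => by rw [Finsupp.zero_apply]
    rw [h0]
  rw [hcongr, mul_comm]
  exact key

end Fermat.Agent.S27P.Zeta.ClassCount
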